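import Fermat.Agent.BR.Inst.NormalModel

/-!
# Program B, node B6.6 at the cusps, part (b∞): the normal model on the chart at infinity

Twin of `BR/Inst/NormalModel.lean` (helper4) with the generator `j` replaced by an arbitrary
generator `t` of the base ring (`t` transcendental over `W`, `t ∈ K'·F_N`, `j ∈ Frac W[t]`), and
its instance `t = 1/j`:

* `modelBaseGen N W t = W[t] := Subring.closure (const '' W ∪ {t})`; noetherian, integrally closed;
* `modelBaseInf N W = W[1/j] := modelBaseGen N W (jBar N)⁻¹`;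
* `model_normal_gen`, `model_normal_inf`, `model_normal_inf_of_inter`: any `C` with
  `NormalGen.IsModel (modelBaseInf N W) (modelField N K') C` (the integral closure of `W[1/j]` in
  `K'·F_N`) is a noetherian integrally closed domain, finite over `W[1/j]`, with fraction field
  `K'·F_N`.
-/

set_option autoImplicit false
set_option linter.unusedSectionVars false
set_option synthInstance.maxHeartbeats 400000

noncomputable section

namespace Fermat.Agent.BR.Inst.Inf

open ModularCurve ModularCurve.IgusaScheme IntermediateField Fermat.Agent.X0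
open Fermat.Agent.Good.Bridge Fermat.Agent.Igusa
open Fermat.Agent.BR.Inst.NormalGen Fermat.Agent.BR.Inst.NormalModel

variable (N : ℕ) [NeZero N]

section Gen

variable (W : Subring Kb) (K' : Subfield Kb) (t : Fb N)

/-- `W[t]` as a subring of `F̄_N` -/
def modelBaseGen : Subring (Fb N) :=
  Subring.closure ((algebraMap Kb (Fb N)) '' (W : Set Kb) ∪ {t})

theorem const_mem_modelBaseGen {a : Kb} (ha : a ∈ W) :
    algebraMap Kb (Fb N) a ∈ modelBaseGen N W t :=
  Subring.subset_closure (Or.inl ⟨a, ha, rfl⟩)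

theorem gen_mem_modelBaseGen : t ∈ modelBaseGen N W t :=
  Subring.subset_closure (Or.inr rfl)

theorem modelBaseGen_eq_adjoin :
    modelBaseGen N W t = (Algebra.adjoin ↥W ({t} : Set (Fb N))).toSubring := by
  rw [Algebra.adjoin_eq_ring_closure, modelBaseGen]
  congr 2
  ext x
  constructor
  · rintro ⟨a, ha, rfl⟩
    exact ⟨⟨a, ha⟩, rfl⟩
  · rintro ⟨a, rfl⟩
    exact ⟨a, a.2, rfl⟩

/-- the ring isomorphism `W[t] ≃ modelBaseGen` (identity on elements) -/
def adjoinEquivModelBaseGen :
    ↥(Algebra.adjoin ↥W ({t} : Set (Fb N))) ≃+* ↥(modelBaseGen N W t) where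
  toFun x := ⟨x.1, by rw [modelBaseGen_eq_adjoin]; exact x.2⟩
  invFun x := ⟨x.1, by
    show x.1 ∈ (Algebra.adjoin ↥W ({t} : Set (Fb N))).toSubring
    rw [← modelBaseGen_eq_adjoin]; exact x.2⟩
  left_inv _ := rfl
  right_inv _ := rfl
  map_mul' _ _ := rfl
  map_add' _ _ := rfl

variable {t}

theorem isNoetherianRing_modelBaseGen [IsNoetherianRing ↥W] (ht : Transcendental ↥W t) :
    IsNoetherianRing ↥(modelBaseGen N W t) :=
  have := isNoetherianRing_adjoin_transcendental (D := ↥W) t ht
  isNoetherianRing_of_ringEquiv _ (adjoinEquivModelBaseGen N W t)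

theorem isIntegrallyClosed_modelBaseGen [IsPrincipalIdealRing ↥W] (ht : Transcendental ↥W t) :
    IsIntegrallyClosed ↥(modelBaseGen N W t) :=
  have := isIntegrallyClosed_adjoin_transcendental (D := ↥W) t ht
  IsIntegrallyClosed.of_equiv (adjoinEquivModelBaseGen N W t)

variable {W K'}

theorem modelBaseGen_le_modelField (hWK : ∀ x ∈ W, x ∈ K') (htF : t ∈ modelField N K') :
    modelBaseGen N W t ≤ (modelField N K').toSubring := by
  rw [modelBaseGen, Subring.closure_le]
  rintro x (⟨a, ha, rfl⟩ | hx)
  · exact const_mem_modelField N K' (hWK a ha)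
  · rw [Set.mem_singleton_iff] at hx
    subst hx
    exact htF

/-- `F'` is generated as a field by `W[t]` and the `j(q^d)`, `d ∣ N`, as soon as `K' = Frac W` -/
theorem modelField_eq_closure_gen (hWK : ∀ x ∈ W, x ∈ K') (htF : t ∈ modelField N K')
    (hfrac : ∀ x ∈ K', ∃ a ∈ W, ∃ b ∈ W, b ≠ 0 ∧ x * b = a) :
    modelField N K' = Subfield.closure ((modelBaseGen N W t : Set (Fb N)) ∪ jGens N) := by
  apply le_antisymm
  · rw [modelField, Subfield.closure_le]
    rintro x (⟨c, hc, rfl⟩ | ⟨y, rfl⟩)
    · obtain ⟨a, ha, b, hb, hb0, hab⟩ := hfrac c hc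
      have hc' : c = a / b := by rw [eq_div_iff hb0]; exact hab
      rw [hc', map_div₀]
      exact (Subfield.closure _).div_mem
        (Subfield.subset_closure (Or.inl (const_mem_modelBaseGen N W t ha)))
        (Subfield.subset_closure (Or.inl (const_mem_modelBaseGen N W t hb)))
    · exact barEmb_mem_of_jGens N _ (fun z hz => Subfield.subset_closure (Or.inr hz)) y
  · rw [Subfield.closure_le]
    rintro x (hx | hx)
    · exact modelBaseGen_le_modelField N hWK htF hx
    · obtain ⟨y, rfl⟩ := jGens_subset_range N hx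
      exact barEmb_mem_modelField N K' y

/-- the generators `j(q^d)` are algebraic over `W[t]` as soon as `j ∈ Frac W[t]` -/
theorem isAlgebraic_modelBaseGen_of_mem_jGens
    (hj : jBar N ∈ Subfield.closure (modelBaseGen N W t : Set (Fb N))) {s : Fb N}
    (hs : s ∈ jGens N) : IsAlgebraic ↥(modelBaseGen N W t) s := by
  obtain ⟨y, rfl⟩ := jGens_subset_range N hs
  exact isAlgebraic_of_subfield (modelBaseGen N W t) (qjBar N) (qjBar_le N _ hj)
    (isAlgebraic_qjBar_barEmb N y)

/-- **(b), general generator**: the model `C = {x ∈ K'·F_N | x integral over W[t]}` is a noetherian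
integrally closed domain, finite over `W[t]`, with fraction field `K'·F_N`. -/
theorem model_normal_gen [IsPrincipalIdealRing ↥W] (ht : Transcendental ↥W t)
    (hWK : ∀ x ∈ W, x ∈ K') (htF : t ∈ modelField N K')
    (hj : jBar N ∈ Subfield.closure (modelBaseGen N W t : Set (Fb N)))
    (hfrac : ∀ x ∈ K', ∃ a ∈ W, ∃ b ∈ W, b ≠ 0 ∧ x * b = a)
    {C : Subring (Fb N)} (hC : IsModel (modelBaseGen N W t) (modelField N K') C) :
    IsNoetherianRing ↥C ∧ IsIntegrallyClosed ↥C ∧
      @IsFractionRing ↥C _ ↥(modelField N K') _ (algebraOfLE hC.le_field) ∧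
      @Module.Finite ↥(modelBaseGen N W t) ↥C _ _
        (algebraOfLE' (hC.base_le (modelBaseGen_le_modelField N hWK htF))).toModule := by
  have h1 := isNoetherianRing_modelBaseGen N W ht
  have h2 := isIntegrallyClosed_modelBaseGen N W ht
  exact hC.normal (modelBaseGen_le_modelField N hWK htF) (jGens N) (finite_jGens N)
    (fun s hs => isAlgebraic_modelBaseGen_of_mem_jGens N hj hs)
    (modelField_eq_closure_gen N hWK htF hfrac)

end Gen

/-! ### the chart at infinity: `t = 1/j` -/

section Inf

variable (W : Subring Kb) (K' : Subfield Kb)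

/-- `W[1/j]` as a subring of `F̄_N` -/
def modelBaseInf : Subring (Fb N) := modelBaseGen N W (jBar N)⁻¹

theorem modelBaseInf_eq :
    modelBaseInf N W =
      Subring.closure ((algebraMap Kb (Fb N)) '' (W : Set Kb) ∪ {(jBar N)⁻¹}) := rfl

theorem const_mem_modelBaseInf {a : Kb} (ha : a ∈ W) :
    algebraMap Kb (Fb N) a ∈ modelBaseInf N W :=
  const_mem_modelBaseGen N W _ ha

theorem jBar_inv_mem_modelBaseInf : (jBar N)⁻¹ ∈ modelBaseInf N W :=
  gen_mem_modelBaseGen N W _

theorem transcendental_jBar_inv_sub : Transcendental ↥W (jBar N)⁻¹ := fun h =>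
  transcendental_jBar_sub N W (IsAlgebraic.inv_iff.mp h)

theorem jBar_inv_mem_modelField : (jBar N)⁻¹ ∈ modelField N K' :=
  (modelField N K').inv_mem (jBar_mem_modelField N K')

theorem jBar_mem_closure_modelBaseInf :
    jBar N ∈ Subfield.closure (modelBaseInf N W : Set (Fb N)) := by
  have h : (jBar N)⁻¹ ∈ Subfield.closure (modelBaseInf N W : Set (Fb N)) :=
    Subfield.subset_closure (jBar_inv_mem_modelBaseInf N W)
  have := (Subfield.closure (modelBaseInf N W : Set (Fb N))).inv_mem h
  rwa [inv_inv] at this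

theorem isNoetherianRing_modelBaseInf [IsNoetherianRing ↥W] :
    IsNoetherianRing ↥(modelBaseInf N W) :=
  isNoetherianRing_modelBaseGen N W (transcendental_jBar_inv_sub N W)

theorem isIntegrallyClosed_modelBaseInf [IsPrincipalIdealRing ↥W] :
    IsIntegrallyClosed ↥(modelBaseInf N W) :=
  isIntegrallyClosed_modelBaseGen N W (transcendental_jBar_inv_sub N W)

variable {W K'}

theorem modelBaseInf_le_modelField (hWK : ∀ x ∈ W, x ∈ K') :
    modelBaseInf N W ≤ (modelField N K').toSubring :=
  modelBaseGen_le_modelField N hWK (jBar_inv_mem_modelField N K')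

/-- **B6.5(b∞)**: the model `C = {x ∈ K'·F_N | x integral over W[1/j]}` on the chart at infinity is
a noetherian integrally closed domain, finite over `W[1/j]`, with fraction field `K'·F_N`; for
every level `N` and every principal ideal domain `W ⊆ ℚ̄` with fraction field `K'`. -/
theorem model_normal_inf [IsPrincipalIdealRing ↥W] (hWK : ∀ x ∈ W, x ∈ K')
    (hfrac : ∀ x ∈ K', ∃ a ∈ W, ∃ b ∈ W, b ≠ 0 ∧ x * b = a)
    {C : Subring (Fb N)} (hC : IsModel (modelBaseInf N W) (modelField N K') C) :
    IsNoetherianRing ↥C ∧ IsIntegrallyClosed ↥C ∧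
      @IsFractionRing ↥C _ ↥(modelField N K') _ (algebraOfLE hC.le_field) ∧
      @Module.Finite ↥(modelBaseInf N W) ↥C _ _
        (algebraOfLE' (hC.base_le (modelBaseInf_le_modelField N hWK))).toModule :=
  model_normal_gen N (transcendental_jBar_inv_sub N W) hWK (jBar_inv_mem_modelField N K')
    (jBar_mem_closure_modelBaseInf N W) hfrac hC

/-- **B6.5(b∞), form used by the frame**: `W = A ∩ K'` with `K'` of cyclic value group. -/
theorem model_normal_inf_of_inter (A : ValuationSubring Kb) (K' : Subfield Kb) (W : Subring Kb)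
    (hW : ∀ x, x ∈ W ↔ x ∈ A ∧ x ∈ K')
    (π : Kb) (hπK : π ∈ K') (hπ0 : π ≠ 0) (hπ : A.valuation π < 1)
    (hval : ∀ x ∈ K', x ≠ 0 → ∃ n : ℤ, A.valuation x = A.valuation π ^ n)
    {C : Subring (Fb N)} (hC : IsModel (modelBaseInf N W) (modelField N K') C) :
    IsNoetherianRing ↥C ∧ IsIntegrallyClosed ↥C ∧
      @IsFractionRing ↥C _ ↥(modelField N K') _ (algebraOfLE hC.le_field) ∧
      @Module.Finite ↥(modelBaseInf N W) ↥C _ _
        (algebraOfLE' (hC.base_le
          (modelBaseInf_le_modelField N (fun x hx => ((hW x).mp hx).2)))).toModule := by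
  have hdvr : IsDiscreteValuationRing ↥W :=
    isDiscreteValuationRing_of_uniformizer A K' W hW π hπK hπ0 hπ hval
  exact model_normal_inf N (fun x hx => ((hW x).mp hx).2) (exists_frac_of_inter A K' W hW) hC

end Inf

end Fermat.Agent.BR.Inst.Inf
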