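import Fermat.Agent.BR.Inst.CuspNoCross
import Fermat.Agent.BR.TwoValInst

/-!
# Program B, B6.6 at the cusps: the two separators of the chart at infinity are units on the other
component

`h = hSep M q = j_q / j^q`, `x = 1/j = (jA M q)⁻¹` in `Fb (M * q)`.  By `Inst/CuspNoCross`,
`h - 1 ∈ 𝔪(O1)` and `h^q - x^(q²-1) ∈ 𝔪(O2)`.  Here:

* `hSep_pow_sub_notMem_nonunits_O1` : `h^q - x^(q²-1)` is a unit of `O1`
  (residue `1 - (1/j̄)^(q²-1) ≠ 0`);
* `hSep_sub_one_notMem_nonunits_O2` : `h - 1` is a unit of `O2`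
  (residue `(1/j̄)^(q²-1) - 1 ≠ 0`).

So `t∞ := h - 1 ∈ P₁ ∖ P₂` and `s∞ := h^q - x^(q²-1) ∈ P₂ ∖ P₁` are the separators `sep₂`, `sep₁` of
`Inst.StarData` for the chart at infinity (where Kronecker's `tKron`, `sKron` are not integral).
Also `jA_eq_jBar`, `jA_eq_jOne`: the three names of `j ∈ Fb (M * q)` agree.
-/

set_option autoImplicit false
set_option linter.unusedSectionVars false

noncomputable section

namespace Fermat.Agent.BR.Inst.Cusp

open ModularCurve AlgebraicCurve Fermat.Agent.X0 Fermat.Agent.Val Fermat.Agent.Hecke.AL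
  Fermat.Agent.BR.TwoVal Fermat.Agent.BR.CuspSepVal Fermat.Agent.BR.ValTwo

/-- `(1/j̄)^n ≠ 1` for `n > 0` -/
theorem jqModC_inv_pow_ne_one (k : Type*) [Field k] {n : ℕ} (hn : 0 < n) :
    ((jqModC k)⁻¹) ^ n ≠ 1 := by
  intro h
  have hne : jqModC k ≠ 0 := jqModC_ne_zero_of_nontrivial k
  have hord1 : (jqModC k).order = -1 := by
    apply le_antisymm
    · apply HahnSeries.order_le_of_coeff_ne_zero
      rw [coeff_jqModC_neg_one]
      exact one_ne_zero
    · by_contra hlt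
      push Not at hlt
      exact hne (HahnSeries.coeff_order_eq_zero.1 (coeff_jqModC_of_lt k hlt))
  have h1 : (jqModC k) ^ n = 1 := by
    rw [inv_pow, inv_eq_one] at h
    exact h
  have hord := congrArg HahnSeries.order h1
  rw [HahnSeries.order_pow, hord1, HahnSeries.order_one] at hord
  simp only [nsmul_eq_mul, mul_neg, mul_one] at hord
  omega

variable {M q : ℕ} [NeZero M] [hq : Fact q.Prime]
variable (A : ValuationSubring Kb) (hA : A.LiesOverPrime q) (hqM : ¬ q ∣ M)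

include hq in
theorem exponent_pos : 0 < q * q - 1 := by
  have := hq.out.two_le
  have : 4 ≤ q * q := by nlinarith
  omega

/-- `h^q - (1/j)^(q²-1)` is a unit of `O1`. -/
theorem hSep_pow_sub_notMem_nonunits_O1 :
    (hSep M q) ^ q - ((jA M q)⁻¹) ^ (q * q - 1) ∉ (O1 M A hA).nonunits := by
  intro hmem
  rw [ValuationSubring.mem_nonunits_iff_exists_mem_maximalIdeal] at hmem
  obtain ⟨h1, h2⟩ := hmem
  have h3 : (⟨(hSep M q) ^ q - ((jA M q)⁻¹) ^ (q * q - 1), h1⟩ : valOne M hq.out A hA) ∈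
      IsLocalRing.maximalIdeal (valOne M hq.out A hA) := h2
  rw [← resOne_eq_zero_iff] at h3
  have e : (⟨(hSep M q) ^ q - ((jA M q)⁻¹) ^ (q * q - 1), h1⟩ : valOne M hq.out A hA) =
      ⟨hSep M q, hSep_mem_valOne hq.out A hA⟩ ^ q -
        ⟨(jA M q)⁻¹, jA_inv_mem_valOne hq.out A hA⟩ ^ (q * q - 1) := Subtype.ext rfl
  rw [e, map_sub, map_pow, map_pow, resOne_hSep, resOne_jA_inv, one_pow, sub_eq_zero] at h3
  exact jqModC_inv_pow_ne_one _ (exponent_pos (q := q)) h3.symm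

/-- `h - 1` is a unit of `O2`. -/
theorem hSep_sub_one_notMem_nonunits_O2 : hSep M q - 1 ∉ (O2 A hA hqM).nonunits := by
  intro hmem
  rw [ValuationSubring.mem_nonunits_iff_exists_mem_maximalIdeal] at hmem
  obtain ⟨h1, h2⟩ := hmem
  have hcop := coprime_of_not_dvd hqM
  have h3 : (⟨hSep M q - 1, h1⟩ : valTwo hq.out hcop A hA) ∈
      IsLocalRing.maximalIdeal (valTwo hq.out hcop A hA) := h2
  rw [← resTwo_eq_zero_iff] at h3
  have e : (⟨hSep M q - 1, h1⟩ : valTwo hq.out hcop A hA) =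
      ⟨hSep M q, hSep_mem_valTwo hq.out hcop A hA⟩ - 1 := Subtype.ext rfl
  rw [e, map_sub, map_one, resTwo_hSep, sub_eq_zero] at h3
  exact jqModC_inv_pow_ne_one _ (exponent_pos (q := q)) h3

/-! ### the names of `j` -/

theorem jA_eq_jOne : jA M q = TwoValInst.jOne M q := by
  apply Subtype.ext
  rw [CuspSepInt.coe_jA, TwoValInst.jOne, coe_jBarD, coeffEmb_jqN, jqNModC_one]

theorem jA_eq_jBar : jA M q = jBar (M * q) := by
  apply Subtype.ext
  rw [CuspSepInt.coe_jA, coe_jBar, ← jqNModC_one, ← coeffEmb_jqN, qExpand_one_apply]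

end Fermat.Agent.BR.Inst.Cusp
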