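import Fermat.Agent.BR.PhiZDegree
import Fermat.Agent.BR.KronCong
import Fermat.Agent.BR.Separate
import Fermat.Agent.BR.Inst.SpecialIso
import Fermat.Agent.BR.Inst.Inf.NormalInf
import Fermat.Agent.BR.Inst.Inf.CuspSepUnits

/-!
# Program B, B6.5 (d∞), second component: the `β`-lift at infinity

`β` does not map the level-`M` chart at infinity into the level-`Mq` chart at infinity:
`β(1/j_M) = 1/j_q` is not integral over `W[1/j]` (poles along `j_q = 0`, where `j ≠ 0, ∞`).  Remedy: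
with `u = 1/j`,

  `fInf M q = u^(q+1) Φ_q(0, 1/u) = 1 + q Ψ_q(0, 1/u) u^(q+1)  ∈ ℤ[u]`

is `≡ 1` on the special fibre (Kronecker) and `fInf / j_q` is integral over `ℤ[u]` (it is
`leading coefficient × root` for the reversed modular equation `u^(q+1) V^(q+1) Φ_q(1/V, 1/u)`).
Hence an element integral over `W[1/j_q]` becomes integral over `W[1/j]` after multiplication by a
power of `fInf`, without changing its residue on the second component.

* generic: `isIntegral_coeff_smul_of_sum_eq_zero`, `exists_forall_pow_mul_mem`,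
  `exists_pow_mul_isIntegral_of_closure`;
* `fInf M q`, `fInf_eq_aeval_reflect`, `fInf_mem_closure`, `fInf_mem_modelBaseInf`,
  `fInf_eq_one_add`;
* `fInf_sub_one_mem_nonunits_O1/O2`, `fInf_mem_O1/O2`, `red1F_fInf = 1`, `red2F_fInf = 1`;
* `isIntegral_fInf_mul_inv` : `fInf / j_q` is integral over every subring containing `1/j`;
* **`exists_pow_mul_isIntegral`** : `x` integral over `W[1/j_q]` ⟹ `fInf^m x` integral over
  `modelBaseInf (M q) W = W[1/j]` (the shape consumed by helper6's `SpecialIsoInfTwo`).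
-/

set_option autoImplicit false
set_option linter.unusedSectionVars false
set_option linter.style.haveILetI false

noncomputable section

namespace Fermat.Agent.BR.Inst.Inf.BetaLift

open Polynomial

section Generic

/-- if `∑_{i ≤ n} g_i vⁱ = 0` then `g_n v` is integral -/
theorem isIntegral_coeff_smul_of_sum_eq_zero {R S : Type*} [CommRing R] [CommRing S] [Algebra R S]
    (v : S) (n : ℕ) (g : ℕ → R) (h : ∑ i ∈ Finset.range (n + 1), g i • v ^ i = 0) :
    IsIntegral R (g n • v) := by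
  set p : R[X] := ∑ i ∈ Finset.range (n + 1), C (g i) * X ^ i with hp
  have hdeg : p.natDegree ≤ n := by
    apply natDegree_sum_le_of_forall_le
    intro i hi
    exact (natDegree_C_mul_X_pow_le _ _).trans (Nat.lt_succ_iff.mp (Finset.mem_range.mp hi))
  have hcoeff : p.coeff n = g n := by
    rw [hp, finsetSum_coeff]
    simp only [coeff_C_mul_X_pow]
    rw [Finset.sum_eq_single n]
    · simp
    · intro b _ hb
      rw [if_neg (Ne.symm hb)]
    · intro hn
      exact absurd (Finset.mem_range.mpr (Nat.lt_succ_self n)) hn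
  have hroot : aeval v p = 0 := by
    rw [hp, map_sum, ← h]
    refine Finset.sum_congr rfl fun i _ => ?_
    rw [map_mul, aeval_C, map_pow, aeval_X, Algebra.smul_def]
  rcases hdeg.eq_or_lt with h1 | h1
  · have h2 := isIntegral_leadingCoeff_smul p v hroot
    rwa [leadingCoeff, h1, hcoeff] at h2
  · have h2 : g n = 0 := by
      rw [← hcoeff]
      exact coeff_eq_zero_of_natDegree_lt h1
    rw [h2, zero_smul]
    exact isIntegral_zero

variable {Ω : Type*} [Field Ω]

/-- multiplying by a high power of `a` (with `a v` integral over `S`) brings `D[v]` into the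
integral closure of `S` -/
theorem exists_forall_pow_mul_mem (S : Subring Ω) (Dset : Set Ω) (hDS : Dset ⊆ S) {a v : Ω}
    (ha : a ∈ S) (hav : IsIntegral S (a * v)) {c : Ω}
    (hc : c ∈ Subring.closure (Dset ∪ {v})) :
    ∃ d : ℕ, ∀ d', d ≤ d' → IsIntegral S (a ^ d' * c) := by
  have haI : IsIntegral S a := isIntegral_algebraMap (R := S) (A := Ω) (x := (⟨a, ha⟩ : S))
  induction hc using Subring.closure_induction with
  | mem c hc =>
    rcases hc with hc | hc
    · refine ⟨0, fun d' _ => ?_⟩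
      exact isIntegral_algebraMap (R := S) (A := Ω) (x := (⟨a, ha⟩ ^ d' * ⟨c, hDS hc⟩ : S))
    · rw [Set.mem_singleton_iff] at hc
      subst hc
      refine ⟨1, fun d' hd' => ?_⟩
      obtain ⟨e, rfl⟩ := Nat.exists_eq_add_of_le hd'
      have : a ^ (1 + e) * c = a ^ e * (a * c) := by ring
      rw [this]
      exact (haI.pow e).mul hav
  | zero => exact ⟨0, fun d' _ => by rw [mul_zero]; exact isIntegral_zero⟩
  | one => exact ⟨0, fun d' _ => by rw [mul_one]; exact haI.pow d'⟩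
  | add x y _ _ hx hy =>
    obtain ⟨d1, h1⟩ := hx
    obtain ⟨d2, h2⟩ := hy
    refine ⟨max d1 d2, fun d' hd' => ?_⟩
    rw [mul_add]
    exact (h1 d' ((le_max_left _ _).trans hd')).add (h2 d' ((le_max_right _ _).trans hd'))
  | neg x _ hx =>
    obtain ⟨d1, h1⟩ := hx
    refine ⟨d1, fun d' hd' => ?_⟩
    rw [mul_neg]
    exact (h1 d' hd').neg
  | mul x y _ _ hx hy =>
    obtain ⟨d1, h1⟩ := hx
    obtain ⟨d2, h2⟩ := hy
    refine ⟨d1 + d2, fun d' hd' => ?_⟩
    obtain ⟨e, rfl⟩ := Nat.exists_eq_add_of_le hd'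
    have : a ^ (d1 + d2 + e) * (x * y) = (a ^ d1 * x) * (a ^ (d2 + e) * y) := by ring
    rw [this]
    exact (h1 d1 le_rfl).mul (h2 (d2 + e) (Nat.le_add_right _ _))

/-- **transfer of integrality**: `S ⊇ D` a subring, `a ∈ S` with `a v` integral over `S`; an element
integral over `D[v]` becomes integral over `S` after multiplication by a power of `a`. -/
theorem exists_pow_mul_isIntegral_of_closure (S : Subring Ω) (Dset : Set Ω) (hDS : Dset ⊆ S)
    {a v : Ω} (ha : a ∈ S) (hav : IsIntegral S (a * v)) {x : Ω}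
    (hx : IsIntegral ↥(Subring.closure (Dset ∪ {v})) x) :
    ∃ m : ℕ, IsIntegral S (a ^ m * x) := by
  obtain ⟨P, hPm, hPx⟩ := hx
  set P' : Polynomial Ω := P.map (Subring.closure (Dset ∪ {v})).subtype with hP'
  have hP'm : P'.Monic := hPm.map _
  have hP'x : P'.eval x = 0 := by
    rw [hP', eval_map]
    exact hPx
  have hex : ∀ i, ∃ d : ℕ, ∀ d', d ≤ d' → IsIntegral S (a ^ d' * P'.coeff i) := by
    intro i
    rw [hP', coeff_map]
    exact exists_forall_pow_mul_mem S Dset hDS ha hav (P.coeff i).2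
  choose dfun hdfun using hex
  set d : ℕ := (Finset.range (P'.natDegree + 1)).sup dfun with hd
  set Q : Polynomial Ω := P'.scaleRoots (a ^ d) with hQ
  have hQm : Q.Monic := (monic_scaleRoots_iff _).mpr hP'm
  have hQroot : Q.eval (a ^ d * x) = 0 := by
    rw [hQ, scaleRoots_eval_mul, hP'x, mul_zero]
  have hcoeff : ∀ i, IsIntegral S (Q.coeff i) := by
    intro i
    rw [hQ, coeff_scaleRoots]
    rcases lt_trichotomy i P'.natDegree with hi | hi | hi
    · have h1 : dfun i ≤ d :=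
        Finset.le_sup (f := dfun) (Finset.mem_range.mpr (Nat.lt_succ_of_lt hi))
      have h2 : 1 ≤ P'.natDegree - i := by omega
      have h3 : dfun i ≤ d * (P'.natDegree - i) :=
        h1.trans (Nat.le_mul_of_pos_right d h2)
      have := hdfun i _ h3
      rwa [pow_mul, mul_comm] at this
    · rw [hi, hP'm.coeff_natDegree, one_mul, Nat.sub_self, pow_zero]
      exact isIntegral_one
    · rw [coeff_eq_zero_of_natDegree_lt hi, zero_mul]
      exact isIntegral_zero
  refine ⟨d, ?_⟩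
  -- `a^d x` is integral over the integral closure of `S`
  have hlifts : Q ∈ Polynomial.lifts (algebraMap ↥(integralClosure ↥S Ω) Ω) :=
    (Polynomial.lifts_iff_coeff_lifts Q).mpr fun i => ⟨⟨Q.coeff i, hcoeff i⟩, rfl⟩
  obtain ⟨Q', hQ'Q, -, hQ'm⟩ := Polynomial.lifts_and_natDegree_eq_and_monic hlifts hQm
  have h1 : IsIntegral ↥(integralClosure ↥S Ω) (a ^ d * x) := by
    refine ⟨Q', hQ'm, ?_⟩
    rw [Polynomial.eval₂_eq_eval_map, hQ'Q, hQroot]
  exact isIntegral_trans (a ^ d * x) h1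

end Generic


/-! ### the function `fInf` -/

section Concrete

open ModularCurve AlgebraicCurve Fermat.Agent.X0 Fermat.Agent.Val Fermat.Agent.Hecke.AL
  Fermat.Agent.BR.TwoVal Fermat.Agent.BR.TwoValInst Fermat.Agent.BR.CuspSepVal
  Fermat.Agent.BR.Kron Fermat.Agent.BR.Inst.SpecIso Fermat.Agent.BR.Inst.Cusp
  Fermat.Agent.BR.Inst.Inf Fermat.Agent.BR.ValTwo

variable {M q : ℕ} [NeZero M] [hq : Fact q.Prime]

/-- `Φ_q(0, x)` is the value at `x` of the constant coefficient -/
theorem phiK_evalEval_zero {F : Type*} [Field F] (x : F) :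
    (phiK q F).evalEval x 0 = aeval x ((PhiZ q).coeff 0) := by
  rw [phiK, ← PhiZDegree.eval_map_aeval_eq_evalEval, ← coeff_zero_eq_eval_zero, coeff_map]
  rfl

/-- the coefficients of `Φ_q` have degree at most `q + 1` in the inner variable -/
theorem natDegree_coeff_PhiZ_le_succ (b : ℕ) : ((PhiZ q).coeff b).natDegree ≤ q + 1 := by
  have hq0 : 0 < q := hq.out.pos
  rcases Nat.lt_or_ge q b with hb | hb
  · rcases Nat.lt_or_ge (q + 1) b with hb' | hb'
    · rw [coeff_eq_zero_of_natDegree_lt (by rw [PhiZ_natDegree q hq.out]; exact hb'),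
        natDegree_zero]
      exact Nat.zero_le _
    · have hb1 : b = q + 1 := le_antisymm hb' hb
      have h1 := (PhiZ_monic q hq.out).coeff_natDegree
      rw [PhiZ_natDegree q hq.out] at h1
      rw [hb1, h1, natDegree_one]
      exact Nat.zero_le _
  · have h := PhiZDegree.mul_natDegree_coeff_PhiZ_add_le hq.out b hb
    have h2 : q * ((PhiZ q).coeff b).natDegree ≤ q * (q + 1) := by
      have : q * (q + 1) = q * q + q := by ring
      omega
    exact Nat.le_of_mul_le_mul_left h2 hq0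

variable (M q) in
/-- `fInf = u^(q+1) Φ_q(0, 1/u)`, `u = 1/j` -/
def fInf : Fb (M * q) :=
  (phiK q (Fb (M * q))).evalEval (jOne M q) 0 * ((jOne M q)⁻¹) ^ (q + 1)

theorem jOne_ne_zero : jOne M q ≠ 0 := by
  rw [← jA_eq_jOne]
  exact CuspSepInt.jA_ne_zero

theorem jOne_eq_jBar : jOne M q = jBar (M * q) := by
  rw [← jA_eq_jOne, jA_eq_jBar]

/-- `c(j) u^(q+1) ∈ ℤ[u]` for a polynomial `c` of degree at most `q + 1` -/
theorem aeval_mul_pow_mem_closure (c : ℤ[X]) (hc : c.natDegree ≤ q + 1) :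
    aeval (jOne M q) c * ((jOne M q)⁻¹) ^ (q + 1) ∈
      Subring.closure ({(jOne M q)⁻¹} : Set (Fb (M * q))) := by
  have h := Fermat.Agent.BR.CuspSep.aeval_mul_inv_pow_mem_adjoin (R := ℤ)
    (jOne_ne_zero (M := M) (q := q)) c hc
  rw [Algebra.adjoin_int] at h
  exact h

theorem fInf_mem_closure :
    fInf M q ∈ Subring.closure ({(jOne M q)⁻¹} : Set (Fb (M * q))) := by
  unfold fInf
  rw [phiK_evalEval_zero]
  exact aeval_mul_pow_mem_closure _ (natDegree_coeff_PhiZ_le_succ 0)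

theorem fInf_mem_of_mem (S : Subring (Fb (M * q))) (hu : (jOne M q)⁻¹ ∈ S) : fInf M q ∈ S := by
  have hle : Subring.closure ({(jOne M q)⁻¹} : Set (Fb (M * q))) ≤ S := by
    rw [Subring.closure_le]
    rintro x hx
    rw [Set.mem_singleton_iff.mp hx]
    exact hu
  exact hle fInf_mem_closure

theorem jOne_inv_mem_modelBaseInf (W : Subring Kb) :
    (jOne M q)⁻¹ ∈ modelBaseInf (M * q) W := by
  rw [jOne_eq_jBar]
  exact jBar_inv_mem_modelBaseInf (M * q) W

theorem fInf_mem_modelBaseInf (W : Subring Kb) : fInf M q ∈ modelBaseInf (M * q) W :=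
  fInf_mem_of_mem _ (jOne_inv_mem_modelBaseInf W)

/-- Kronecker: `fInf = 1 + q Ψ_q(0, j) u^(q+1)` -/
theorem fInf_eq_one_add :
    fInf M q = 1 + (q : Fb (M * q)) *
      ((psiK q (Fb (M * q))).evalEval (jOne M q) 0 * ((jOne M q)⁻¹) ^ (q + 1)) := by
  unfold fInf
  rw [phiK_evalEval q hq.out]
  have hne := jOne_ne_zero (M := M) (q := q)
  have hq0 : q ≠ 0 := hq.out.ne_zero
  rw [zero_pow hq0, sub_zero, sub_zero, add_mul, ← pow_succ, inv_pow,
    mul_inv_cancel₀ (pow_ne_zero _ hne), mul_assoc]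

/-! ### residues of `fInf` -/

variable (A : ValuationSubring Kb) (hA : A.LiesOverPrime q) (hqM : ¬ q ∣ M)

/-- `q y` is a non-unit of a valuation ring in which `q` is a non-unit and `y` is integral -/
theorem natCast_mul_mem_nonunits (O : ValuationSubring (Fb (M * q)))
    (hqO : algebraMap Kb (Fb (M * q)) (q : Kb) ∈ O.nonunits) {y : Fb (M * q)} (hy : y ∈ O) :
    (q : Fb (M * q)) * y ∈ O.nonunits := by
  have e : (q : Fb (M * q)) = algebraMap Kb (Fb (M * q)) (q : Kb) := (map_natCast _ q).symm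
  rw [e]
  rw [ValuationSubring.mem_nonunits_iff_exists_mem_maximalIdeal] at hqO ⊢
  obtain ⟨h1, h2⟩ := hqO
  refine ⟨O.mul_mem _ _ h1 hy, ?_⟩
  have : (⟨algebraMap Kb (Fb (M * q)) (q : Kb) * y, O.mul_mem _ _ h1 hy⟩ : O) =
      ⟨algebraMap Kb (Fb (M * q)) (q : Kb), h1⟩ * ⟨y, hy⟩ := rfl
  rw [this]
  exact Ideal.mul_mem_right _ _ h2

/-- `Ψ_q(0, j) u^(q+1)` lies in every valuation ring containing `j` and `1/j` -/
theorem psi_mul_mem (O : ValuationSubring (Fb (M * q))) (hj : jOne M q ∈ O)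
    (hu : (jOne M q)⁻¹ ∈ O) :
    (psiK q (Fb (M * q))).evalEval (jOne M q) 0 * ((jOne M q)⁻¹) ^ (q + 1) ∈ O := by
  refine O.mul_mem _ _ ?_ (pow_mem hu _)
  have h := map_psiK_evalEval q O.subtype ⟨jOne M q, hj⟩ 0
  rw [map_zero] at h
  have h2 : O.subtype ⟨jOne M q, hj⟩ = jOne M q := rfl
  rw [h2] at h
  rw [← h]
  exact ((psiK q ↥O).evalEval ⟨jOne M q, hj⟩ 0).2

theorem fInf_sub_one_mem_nonunits_O1 : fInf M q - 1 ∈ (O1 M A hA).nonunits := by
  rw [fInf_eq_one_add, add_sub_cancel_left]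
  refine natCast_mul_mem_nonunits _ ((Separate.algebraMap_mem_nonunits_O1_iff A hA _).mpr hA) ?_
  refine psi_mul_mem _ (jOne_mem_O1 A hA) ?_
  rw [← jA_eq_jOne]
  exact jA_inv_mem_O1 A hA

theorem fInf_sub_one_mem_nonunits_O2 : fInf M q - 1 ∈ (O2 A hA hqM).nonunits := by
  rw [fInf_eq_one_add, add_sub_cancel_left]
  refine natCast_mul_mem_nonunits _
    ((Separate.algebraMap_mem_nonunits_O2_iff hqM A hA _).mpr hA) ?_
  refine psi_mul_mem _ (jOne_mem_O2 A hA hqM) ?_
  rw [← jA_eq_jOne]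
  exact jA_inv_mem_O2 A hA hqM

theorem fInf_mem_O1 : fInf M q ∈ O1 M A hA := by
  have h := (ValuationSubring.mem_nonunits_iff_exists_mem_maximalIdeal.mp
    (fInf_sub_one_mem_nonunits_O1 (M := M) A hA)).1
  have := (O1 M A hA).add_mem _ _ h (O1 M A hA).one_mem
  rwa [sub_add_cancel] at this

theorem fInf_mem_O2 : fInf M q ∈ O2 A hA hqM := by
  have h := (ValuationSubring.mem_nonunits_iff_exists_mem_maximalIdeal.mp
    (fInf_sub_one_mem_nonunits_O2 (M := M) A hA hqM)).1
  have := (O2 A hA hqM).add_mem _ _ h (O2 A hA hqM).one_mem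
  rwa [sub_add_cancel] at this

/-- on the first component `fInf` is `1` -/
theorem red1F_fInf : red1F A hA hqM ⟨fInf M q, fInf_mem_O1 A hA⟩ = 1 := by
  have h := (red1F_eq_zero_iff A hA hqM (⟨fInf M q, fInf_mem_O1 A hA⟩ - 1)).mpr
    (fInf_sub_one_mem_nonunits_O1 A hA)
  rw [map_sub, map_one, sub_eq_zero] at h
  exact h

/-- on the second component `fInf` is `1` -/
theorem red2F_fInf : red2F A hA hqM ⟨fInf M q, fInf_mem_O2 A hA hqM⟩ = 1 := by
  have h := (red2F_eq_zero_iff A hA hqM (⟨fInf M q, fInf_mem_O2 A hA hqM⟩ - 1)).mpr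
    (fInf_sub_one_mem_nonunits_O2 A hA hqM)
  rw [map_sub, map_one, sub_eq_zero] at h
  exact h

/-! ### `fInf / j_q` is integral over `ℤ[1/j]` -/

theorem jB_ne_zero : jB M q ≠ 0 := by
  unfold jB
  rw [_root_.map_ne_zero]
  intro h
  have h1 := congrArg (fun x : Fb M => (x : LaurentSeries Kb)) h
  simp only [CuspSepInt.coe_jM] at h1
  exact jqModC_ne_zero' Kb h1

/-- **`fInf / j_q` is integral** over every subring containing `1/j`. -/
theorem isIntegral_fInf_mul_inv (S : Subring (Fb (M * q))) (hu : (jOne M q)⁻¹ ∈ S) :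
    IsIntegral S (fInf M q * (jB M q)⁻¹) := by
  have hjne : jOne M q ≠ 0 := jOne_ne_zero
  have hBne : jB M q ≠ 0 := jB_ne_zero
  set p : Polynomial (Fb (M * q)) :=
    (PhiZ q).map ((aeval (jOne M q) : ℤ[X] →ₐ[ℤ] Fb (M * q)) : ℤ[X] →+* Fb (M * q)) with hp
  have hpn : p.natDegree = q + 1 := by
    rw [hp, (PhiZ_monic q hq.out).natDegree_map, PhiZ_natDegree q hq.out]
  have hroot : p.eval (jB M q) = 0 := by
    rw [hp, PhiZDegree.eval_map_aeval_eq_evalEval]
    have h := CuspSepInt.phiK_evalEval_jA_jB (M := M) hq.out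
    rw [jA_eq_jOne] at h
    exact h
  have hle : Subring.closure ({(jOne M q)⁻¹} : Set (Fb (M * q))) ≤ S := by
    rw [Subring.closure_le]
    rintro x hx
    rw [Set.mem_singleton_iff.mp hx]
    exact hu
  have hmem : ∀ b, p.coeff b * ((jOne M q)⁻¹) ^ (q + 1) ∈ S := by
    intro b
    rw [hp, coeff_map]
    exact hle (aeval_mul_pow_mem_closure (M := M) ((PhiZ q).coeff b)
      (natDegree_coeff_PhiZ_le_succ b))
  set g : ℕ → ↥S := fun i => ⟨p.coeff (q + 1 - i) * ((jOne M q)⁻¹) ^ (q + 1), hmem _⟩ with hg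
  have hsum : ∑ i ∈ Finset.range (q + 1 + 1), g i • ((jB M q)⁻¹) ^ i = 0 := by
    have h1 : ∀ i ∈ Finset.range (q + 1 + 1), g i • ((jB M q)⁻¹) ^ i =
        (fun b => p.coeff b * ((jOne M q)⁻¹) ^ (q + 1) * ((jB M q)⁻¹) ^ (q + 1 - b))
          (q + 1 + 1 - 1 - i) := by
      intro i hi
      have hi' : i ≤ q + 1 := Nat.lt_succ_iff.mp (Finset.mem_range.mp hi)
      have e1 : q + 1 + 1 - 1 - i = q + 1 - i := by omega
      have e2 : q + 1 - (q + 1 - i) = i := by omega
      show p.coeff (q + 1 - i) * ((jOne M q)⁻¹) ^ (q + 1) * ((jB M q)⁻¹) ^ i = _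
      simp only [e1, e2]
    rw [Finset.sum_congr rfl h1]
    rw [Finset.sum_range_reflect
      (fun b => p.coeff b * ((jOne M q)⁻¹) ^ (q + 1) * ((jB M q)⁻¹) ^ (q + 1 - b)) (q + 1 + 1)]
    have h2 : ∀ b ∈ Finset.range (q + 1 + 1),
        p.coeff b * ((jOne M q)⁻¹) ^ (q + 1) * ((jB M q)⁻¹) ^ (q + 1 - b) =
          (((jOne M q)⁻¹) ^ (q + 1) * ((jB M q)⁻¹) ^ (q + 1)) * (p.coeff b * (jB M q) ^ b) := by
      intro b hb
      have hb' : b ≤ q + 1 := Nat.lt_succ_iff.mp (Finset.mem_range.mp hb)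
      have e : ((jB M q)⁻¹) ^ (q + 1) * (jB M q) ^ b = ((jB M q)⁻¹) ^ (q + 1 - b) := by
        obtain ⟨c, hc⟩ := Nat.exists_eq_add_of_le hb'
        rw [hc, Nat.add_sub_cancel_left, pow_add, inv_pow, inv_pow, mul_comm ((jB M q ^ b)⁻¹),
          mul_assoc, inv_mul_cancel₀ (pow_ne_zero _ hBne), mul_one]
      rw [← e]
      ring
    rw [Finset.sum_congr rfl h2, ← Finset.mul_sum, ← hpn, ← eval_eq_sum_range, hroot, mul_zero]
  have h3 := isIntegral_coeff_smul_of_sum_eq_zero ((jB M q)⁻¹) (q + 1) g hsum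
  have e3 : g (q + 1) • (jB M q)⁻¹ = fInf M q * (jB M q)⁻¹ := by
    show p.coeff (q + 1 - (q + 1)) * ((jOne M q)⁻¹) ^ (q + 1) * (jB M q)⁻¹ = _
    rw [Nat.sub_self, hp, coeff_map, fInf, phiK_evalEval_zero]
    rfl
  rw [e3] at h3
  exact h3

/-! ### the transfer -/

/-- **the `β`-lift at infinity**: an element integral over `W[1/j_q]` becomes integral over
`W[1/j] = modelBaseInf (M q) W` after multiplication by a power of `fInf`. -/
theorem exists_pow_mul_isIntegral (W : Subring Kb) {x : Fb (M * q)}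
    (hx : IsIntegral ↥(Subring.closure ((algebraMap Kb (Fb (M * q))) '' (W : Set Kb) ∪
      {(heckeBetaBar Kb M q (jBarD M 1 (one_dvd M)))⁻¹})) x) :
    ∃ m : ℕ, IsIntegral ↥(modelBaseInf (M * q) W) (fInf M q ^ m * x) := by
  refine exists_pow_mul_isIntegral_of_closure (modelBaseInf (M * q) W)
    ((algebraMap Kb (Fb (M * q))) '' (W : Set Kb)) ?_ (fInf_mem_modelBaseInf W)
    (isIntegral_fInf_mul_inv _ (jOne_inv_mem_modelBaseInf W)) hx
  rintro _ ⟨a, ha, rfl⟩
  exact const_mem_modelBaseInf (M * q) W ha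

/-- the same with `j_q` written `jB M q` -/
theorem exists_pow_mul_isIntegral' (W : Subring Kb) {x : Fb (M * q)}
    (hx : IsIntegral ↥(Subring.closure ((algebraMap Kb (Fb (M * q))) '' (W : Set Kb) ∪
      {(jB M q)⁻¹})) x) :
    ∃ m : ℕ, IsIntegral ↥(modelBaseInf (M * q) W) (fInf M q ^ m * x) :=
  exists_pow_mul_isIntegral W hx

/-- powers of `fInf` are still `1` on the second component -/
theorem red2F_fInf_pow (m : ℕ) :
    red2F A hA hqM ⟨fInf M q ^ m, pow_mem (fInf_mem_O2 A hA hqM) m⟩ = 1 := by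
  have e : (⟨fInf M q ^ m, pow_mem (fInf_mem_O2 A hA hqM) m⟩ : O2 A hA hqM) =
      ⟨fInf M q, fInf_mem_O2 A hA hqM⟩ ^ m := rfl
  rw [e, map_pow, red2F_fInf, one_pow]

theorem red1F_fInf_pow (m : ℕ) :
    red1F A hA hqM ⟨fInf M q ^ m, pow_mem (fInf_mem_O1 A hA) m⟩ = 1 := by
  have e : (⟨fInf M q ^ m, pow_mem (fInf_mem_O1 A hA) m⟩ : O1 M A hA) =
      ⟨fInf M q, fInf_mem_O1 A hA⟩ ^ m := rfl
  rw [e, map_pow, red1F_fInf, one_pow]

end Concrete

end Fermat.Agent.BR.Inst.Inf.BetaLift
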