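import Fermat.Agent.BR.Inst.Inf.TwoCompInfFinal
import Fermat.Agent.BR.Inst.Inf.BetaLift
import Fermat.Agent.BR.Inst.LevelsInst
import Fermat.Agent.BR.Inst.LevelsInf
import Fermat.Agent.BR.Inst.SpecialIsoFrac
import Fermat.Agent.BR.S0.SmoothAssembly
import Fermat.Agent.BR.S0.RedModularInst

/-!
# Program B (BADRED), node B6.6: THE BRIDGE AT INFINITY

`levelHyp_modular_inf` : helper24's `S0.SmoothAssembly.LevelHyp` for the chart data
`chartDataModular A hA hqM` of `X₀(qM)` at `q`, the Dedekind chart `Dk := ↥(CkInf M A)` (integral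
closure of `k[1/j̃]` in `F̃_M`) and EVERY model at infinity
`IsModel (Inf.modelBaseInf (M q) W) (modelField (M q) K') Cinf` over a level
`H : LevelsInst.LevelHyp A hA hqM K' W π'` of the tower (helper4), with

* `P₀ P₁ := InfFinal.P1inf, InfFinal.P2inf` (helper15, the centres of `O₁`, `O₂` on `Cinf`),
* `red₀ red₁ := SpecIsoInf.redOneInf, SpecIsoInf.redTwoInf` (helper6).

`redTwoInf_surjective_inf` : the surjectivity of `res₂` from helper11's `BetaLift`.
`levelHyp_modular_inf_tower` : the same at every level `S` of helper27's tower, on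
`Levels.CS (M q) q (fun T => Inf.modelBaseInf (M q) (WS A q T)) S` with `Levels.unif A hq hA S`.
-/

set_option autoImplicit false
set_option linter.unusedSectionVars false
set_option linter.style.haveILetI false
set_option synthInstance.maxHeartbeats 400000

noncomputable section

namespace Fermat.Agent.BR.Inst.Inf.SmoothInstInf

open ModularCurve ModularCurve.IgusaScheme AlgebraicCurve Fermat.Agent.X0 Fermat.Agent.Val
  Fermat.Agent.BR.TwoVal Fermat.Agent.BR.ResGen Fermat.Agent.BR.TwoValInst
  Fermat.Agent.Good.Bridge Fermat.Agent.BR.Inst.NormalGen Fermat.Agent.BR.Inst.NormalModel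
  Fermat.Agent.BR.Inst.ChartInModel Fermat.Agent.BR.Inst.SpecIso Fermat.Agent.BR.Inst.SpecIsoInf
  Fermat.Agent.BR.Inst Fermat.Agent.BR.ConstRedTwo Fermat.Agent.BR.S0.RedModular
  Fermat.Agent.BR.S0.SmoothAssembly

variable {M q : ℕ} [NeZero M] [hq : Fact q.Prime]
variable {A : ValuationSubring Kb} {hA : A.LiesOverPrime q} {hqM : ¬ q ∣ M}

local notation "kA" => IsLocalRing.ResidueField A
local notation "FtM" => modularFunctionFieldFullC (IsLocalRing.ResidueField A) M

/-- the residue map of the first component is `red1F` -/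
theorem compW_zero_res_eq (y : O1 M A hA) :
    (compW A hA hqM 0).res y = red1F A hA hqM y := rfl

/-- the residue map of the second component is `red2F` -/
theorem compW_one_res_eq (y : O2 A hA hqM) :
    (compW A hA hqM 1).res y = red2F A hA hqM y := rfl


/-! ### the surjectivity of `res₂` at infinity, from the `β`-lift -/

section Surj

variable (A hA hqM)
variable {K' : Subfield Kb} {W : Subring Kb} (hWA : ∀ a ∈ W, a ∈ A) (hWK : ∀ a ∈ W, a ∈ K')
  (hZW : ∀ r : ↥(GaloisRep.ratLocalizedAt q),
    algebraMap ℚ Kb ((r : ↥(GaloisRep.ratLocalizedAt q)) : ℚ) ∈ W)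
  (hfull : ∀ a ∈ A, ∃ a' ∈ (W : Set Kb), a - a' ∈ A.nonunits)
  {Cinf : Subring (Fb (M * q))}
  (hinf : IsModel (Inf.modelBaseInf (M * q) W) (modelField (M * q) K') Cinf)

/-- helper6's base ring `W[1/j_q]` is the one of helper11's `β`-lift -/
theorem modelBaseInfQ_eq :
    modelBaseInfQ M q W = Subring.closure ((algebraMap Kb (Fb (M * q))) '' (W : Set Kb) ∪
      {(heckeBetaBar Kb M q (jBarD M 1 (one_dvd M)))⁻¹}) := by
  unfold modelBaseInfQ
  rw [jBarD_one_eq]

include hWK hZW hfull in
/-- **`res₂ : Cinf → C_k^∞` is onto** for every model at infinity (helper6's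
`redTwoInf_model_surjective` fed with helper11's `BetaLift`). -/
theorem redTwoInf_surjective_inf :
    Function.Surjective
      (redTwoInf A hA hqM Cinf (modelInf_isIntegral_AJinf A hWA hinf)) :=
  redTwoInf_model_surjective A hA hqM hWA hinf
    (isModel_modelOf (Inf.modelBaseInf M W) (modelField M K')) hWK hZW hfull
    (BetaLift.fInf_mem_O2 A hA hqM) (BetaLift.red2F_fInf A hA hqM)
    (Inf.modelBaseInf_le_modelField (M * q) hWK (BetaLift.fInf_mem_modelBaseInf W))
    (fun x hx => BetaLift.exists_pow_mul_isIntegral W (by rwa [modelBaseInfQ_eq] at hx))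

include hWK hZW hfull in
/-- **`res₁ : Cinf → C_k^∞` is onto** for every model at infinity. -/
theorem redOneInf_surjective_inf :
    Function.Surjective
      (redOneInf A hA hqM Cinf (modelInf_isIntegral_AJinf A hWA hinf)) :=
  redOneInf_model_surjective A hA hqM hWA hinf
    (isModel_modelOf (Inf.modelBaseInf M W) (modelField M K')) hWK hZW hfull

end Surj

/-! ### the bridge -/

section Bridge

variable {K' : Subfield Kb} {W : Subring Kb} {π' : Kb}
  [IsDedekindDomain ↥(CkInf M A)]
  [IsFractionRing ↥(CkInf M A) ↥(modularFunctionFieldFullC (IsLocalRing.ResidueField A) M)]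

/-- **THE BRIDGE AT INFINITY**: the named facts `SmoothAssembly.LevelHyp` on every model at
infinity over a level of the tower. -/
theorem levelHyp_modular_inf (H : LevelsInst.LevelHyp A hA hqM K' W π')
    {Cinf : Subring (Fb (M * q))}
    (hinf : IsModel (Inf.modelBaseInf (M * q) W) (modelField (M * q) K') Cinf) :
    LevelHyp (Dk := ↥(CkInf M A)) (chartDataModular A hA hqM) Cinf π'
      (InfFinal.P1inf A hA hqM H.hW H.hπK H.hπ0 H.hπ1 H.hdvr hinf)
      (InfFinal.P2inf A hA hqM H.hW H.hπK H.hπ0 H.hπ1 H.hdvr hinf)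
      (redOneInf A hA hqM Cinf (modelInf_isIntegral_AJinf A H.hWA hinf))
      (redTwoInf A hA hqM Cinf (modelInf_isIntegral_AJinf A H.hWA hinf)) where
  noeth := InfFinal.isNoetherianRing_modelInf A H.hW H.hπK H.hπ0 H.hπ1 H.hdvr hinf
  intClosed := InfFinal.isIntegrallyClosed_modelInf A H.hW H.hπK H.hπ0 H.hπ1 H.hdvr hinf
  hCO := fun v => by
    fin_cases v
    · exact modelInf_le_O1 A hA hqM Cinf (modelInf_isIntegral_AJinf A H.hWA hinf)
    · exact modelInf_le_O2 A hA hqM Cinf (modelInf_isIntegral_AJinf A H.hWA hinf)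
  unif_ne := H.hπ0
  unif_lt := H.hπ1
  unif_mem := InfFinal.pi_mem_modelInf A H.hW H.hπK H.hπ1 hinf
  twoComp := InfFinal.twoComponents_inf_of_isModel A hA hqM H.hW H.hπK H.hπ0 H.hπ1 H.hdvr hinf
  hred₀ := fun _ => rfl
  hred₁ := fun _ => rfl
  surj₀ := redOneInf_surjective_inf A hA hqM H.hWA H.hWK H.hZW H.full hinf
  surj₁ := redTwoInf_surjective_inf A hA hqM H.hWA H.hWK H.hZW H.full hinf
  mem_P₀ := fun x => (redOneInf_eq_zero_iff A hA hqM Cinf _ x).symm
  mem_P₁ := fun x => (redTwoInf_eq_zero_iff A hA hqM Cinf _ x).symm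
  fullRes := fun c => by
    obtain ⟨a₀, rfl⟩ := IsLocalRing.residue_surjective c
    obtain ⟨a', ha'W, hsub⟩ := H.full a₀ a₀.2
    refine ⟨⟨a', H.hWA a' ha'W⟩,
      hinf.base_le (Inf.modelBaseInf_le_modelField (M * q) H.hWK)
        (Inf.const_mem_modelBaseInf (M * q) W ha'W), ?_⟩
    rw [eq_comm, ← sub_eq_zero, ← map_sub, IsLocalRing.residue_eq_zero_iff]
    have h1 : ((a₀ - ⟨a', H.hWA a' ha'W⟩ : A) : Kb) ∈ A.nonunits := hsub
    rw [ValuationSubring.mem_nonunits_iff_exists_mem_maximalIdeal] at h1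
    obtain ⟨_, hmem⟩ := h1
    exact hmem

end Bridge

/-! ### the tower -/

section Tower

open Fermat.Agent.BR.Inst.Levels

variable (A hA hqM)
variable [IsDedekindDomain ↥(CkInf M A)]
  [IsFractionRing ↥(CkInf M A) ↥(modularFunctionFieldFullC (IsLocalRing.ResidueField A) M)]

/-- the model at infinity of level `S` is helper27's `CS` for the chart at infinity -/
theorem isModel_CS_inf (S : Finset Kb) :
    IsModel (Inf.modelBaseInf (M * q) (WS A q S)) (modelField (M * q) (KS q S))
      (CS (M * q) q (fun T => Inf.modelBaseInf (M * q) (WS A q T)) S) :=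
  isModel_modelOf _ _

/-- **THE BRIDGE AT INFINITY at every level of the tower.** -/
theorem levelHyp_modular_inf_tower (S : Finset Kb) :
    LevelHyp (Dk := ↥(CkInf M A)) (chartDataModular A hA hqM)
      (CS (M * q) q (fun T => Inf.modelBaseInf (M * q) (WS A q T)) S) (unif A hq.out hA S)
      (InfFinal.P1inf A hA hqM (LevelsInst.levelHyp_tower A hA hqM S).hW
        (LevelsInst.levelHyp_tower A hA hqM S).hπK (LevelsInst.levelHyp_tower A hA hqM S).hπ0
        (LevelsInst.levelHyp_tower A hA hqM S).hπ1 (LevelsInst.levelHyp_tower A hA hqM S).hdvr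
        (isModel_CS_inf A S))
      (InfFinal.P2inf A hA hqM (LevelsInst.levelHyp_tower A hA hqM S).hW
        (LevelsInst.levelHyp_tower A hA hqM S).hπK (LevelsInst.levelHyp_tower A hA hqM S).hπ0
        (LevelsInst.levelHyp_tower A hA hqM S).hπ1 (LevelsInst.levelHyp_tower A hA hqM S).hdvr
        (isModel_CS_inf A S))
      (redOneInf A hA hqM _ (modelInf_isIntegral_AJinf A
        (LevelsInst.levelHyp_tower A hA hqM S).hWA (isModel_CS_inf A S)))
      (redTwoInf A hA hqM _ (modelInf_isIntegral_AJinf A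
        (LevelsInst.levelHyp_tower A hA hqM S).hWA (isModel_CS_inf A S))) :=
  levelHyp_modular_inf (LevelsInst.levelHyp_tower A hA hqM S) (isModel_CS_inf A S)

end Tower

end Fermat.Agent.BR.Inst.Inf.SmoothInstInf
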