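import Fermat.Agent.BR.Inst.Inf.SpecialIsoInf
import Fermat.Agent.BR.Inst.Inf.NormalInf
import Fermat.Agent.BR.Inst.ChartInModel
import Fermat.Agent.BR.Inst.DegenModel

/-!
# Program B, node B6.5(d∞), part 2: plug-in for the normal models at infinity

`IsModel (Inf.modelBaseInf N W) (modelField N K') C` (`W[1/j]`-models, `BR/Inst/Inf/NormalInf`).

* `modelInf_isIntegral_AJinf`, `modelMInf_isIntegral_AJMinf`, `GMinf_le_modelInf`,
  `alpha_mem_model_inf` (`α` maps the level `M` model at infinity into the level `M q` one);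
* `P1inf P2inf : Ideal C` := kernels of `redOneInf`, `redTwoInf` (`mem_P1inf`, `mem_P2inf`);
* `quotP1inf : C ⧸ P1inf ≃+* CkInf M A`, `isDedekindDomain_quot_P1inf`;
* second component: `redTwoInf_surjective_of_twist` : `res₂ : R → C_k^∞` is onto as soon as every
  `β g` (`g` in the chart at infinity of level `M`) has a multiple `s · β g ∈ R` with `res₂ s = 1`;
  `isIntegral_beta_inf` : `β g` is integral over `W[1/j_q]`; `quotP2inf`,
  `isDedekindDomain_quot_P2inf` (under the twist hypothesis `hβ`).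
-/

set_option autoImplicit false
set_option linter.unusedSectionVars false
set_option linter.style.haveILetI false

noncomputable section

set_option synthInstance.maxHeartbeats 400000

namespace Fermat.Agent.BR.Inst.SpecIsoInf

open ModularCurve ModularCurve.IgusaScheme AlgebraicCurve Fermat.Agent.X0 Fermat.Agent.Val
  Fermat.Agent.BR.TwoVal Fermat.Agent.BR.ResGen Fermat.Agent.BR.TwoValInst
  Fermat.Agent.Good.Bridge Fermat.Agent.BR.Inst.NormalGen Fermat.Agent.BR.Inst.NormalModel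
  Fermat.Agent.BR.Inst.ChartInModel Fermat.Agent.BR.Inst.DegenModel Fermat.Agent.BR.Inst.SpecIso
  Fermat.Agent.BR.Inst

variable {M q : ℕ} [NeZero M] [hq : Fact q.Prime]
variable (A : ValuationSubring Kb) (hA : A.LiesOverPrime q) (hqM : ¬ q ∣ M)

local notation "kA" => IsLocalRing.ResidueField A

variable (W : Subring Kb) (K' : Subfield Kb) (hWA : ∀ a ∈ W, a ∈ A)

include hWA in
theorem modelBaseInf_le_AJinf : Inf.modelBaseInf (M * q) W ≤ AJinf M q A := by
  refine Subring.closure_le.2 ?_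
  rintro x (⟨a, ha, rfl⟩ | hx)
  · exact Subring.subset_closure (Or.inl ⟨a, hWA a ha, rfl⟩)
  · rw [Set.mem_singleton_iff] at hx
    refine Subring.subset_closure (Or.inr ?_)
    rw [Set.mem_singleton_iff, hx, ← jBarD_one_eq]
    rfl

include hWA in
theorem modelBaseInf_le_AJMinf : Inf.modelBaseInf M W ≤ AJMinf M A := by
  refine Subring.closure_le.2 ?_
  rintro x (⟨a, ha, rfl⟩ | hx)
  · exact Subring.subset_closure (Or.inl ⟨a, hWA a ha, rfl⟩)
  · rw [Set.mem_singleton_iff] at hx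
    refine Subring.subset_closure (Or.inr ?_)
    rw [Set.mem_singleton_iff, hx, ← jBarD_one_eq]

variable {W K'}
variable {C : Subring (Fb (M * q))} {CM : Subring (Fb M)}
  (hC : IsModel (Inf.modelBaseInf (M * q) W) (modelField (M * q) K') C)
  (hCM : IsModel (Inf.modelBaseInf M W) (modelField M K') CM)

include hWA hC in
/-- the elements of the level `M q` model at infinity are integral over `A[1/j]` -/
theorem modelInf_isIntegral_AJinf : ∀ x ∈ C, IsIntegral ↥(AJinf M q A) x :=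
  fun x hx => isIntegral_mono (modelBaseInf_le_AJinf A W hWA) ((hC x).1 hx).2

include hWA hCM in
/-- the elements of the level `M` model at infinity are integral over `A[1/j]` -/
theorem modelMInf_isIntegral_AJMinf : ∀ x ∈ CM, IsIntegral ↥(AJMinf M A) x :=
  fun x hx => isIntegral_mono (modelBaseInf_le_AJMinf A W hWA) ((hCM x).1 hx).2

include hWA hCM hqM in
theorem modelMInf_le_OM : ∀ g ∈ CM, g ∈ OM M A hA :=
  fun g hg => mem_OM_of_isIntegral_inf A hA hqM (modelMInf_isIntegral_AJMinf A hWA hCM g hg)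

variable (hWK : ∀ a ∈ W, a ∈ K')
  (hZW : ∀ r : ↥(GaloisRep.ratLocalizedAt q), algebraMap ℚ Kb ((r : ↥(GaloisRep.ratLocalizedAt q)) : ℚ) ∈ W)

include hCM hWK in
theorem const_mem_modelInf {a : Kb} (ha : a ∈ W) : algebraMap Kb (Fb M) a ∈ CM :=
  hCM.base_le (Inf.modelBaseInf_le_modelField M hWK) (Inf.const_mem_modelBaseInf M W ha)

include hCM hWK in
theorem jBar_inv_mem_modelInf : (jBar M)⁻¹ ∈ CM :=
  hCM.base_le (Inf.modelBaseInf_le_modelField M hWK) (Inf.jBar_inv_mem_modelBaseInf M W)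

include hCM hWK hZW in
/-- the subring generated by `W` and the `ℤ_(q)`-chart at infinity lies in the level `M` model at
infinity -/
theorem GMinf_le_modelInf : GMinf M q (W : Set Kb) ≤ CM := by
  refine Subring.closure_le.2 ?_
  rintro x (⟨a, ha, rfl⟩ | ⟨b, hb, rfl⟩)
  · exact const_mem_modelInf hCM hWK ha
  · exact barEmb_mem_model_of_mem_chartAlgInf M q hZW hCM hb

include hCM hC in
/-- **α maps the level `M` model at infinity into the level `M q` model at infinity** -/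
theorem alpha_mem_model_inf {x : Fb M} (hx : x ∈ CM) : heckeAlphaBar Kb M q x ∈ C := by
  refine map_mem_model ((heckeAlphaBar Kb M q : Fb M →ₐ[Kb] Fb (M * q)) : Fb M →+* Fb (M * q))
    hCM hC _ rfl ?_ _ rfl ?_ hx
  · rintro s (⟨a, ha, rfl⟩ | hs)
    · have e : ((heckeAlphaBar Kb M q : Fb M →ₐ[Kb] Fb (M * q)) : Fb M →+* Fb (M * q))
          (algebraMap Kb (Fb M) a) = algebraMap Kb (Fb (M * q)) a :=
        (heckeAlphaBar Kb M q).commutes a
      rw [e]
      exact isIntegral_of_mem _ (Inf.const_mem_modelBaseInf (M * q) W ha)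
    · rw [Set.mem_singleton_iff] at hs
      subst hs
      have e : ((heckeAlphaBar Kb M q : Fb M →ₐ[Kb] Fb (M * q)) : Fb M →+* Fb (M * q))
          (jBar M)⁻¹ = (jBar (M * q))⁻¹ := by
        rw [map_inv₀]
        exact congrArg (fun z => z⁻¹) (alpha_jBar M q)
      rw [e]
      exact isIntegral_of_mem _ (Inf.jBar_inv_mem_modelBaseInf (M * q) W)
  · rintro t (⟨a, ha, rfl⟩ | ⟨y, rfl⟩)
    · have e : ((heckeAlphaBar Kb M q : Fb M →ₐ[Kb] Fb (M * q)) : Fb M →+* Fb (M * q))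
          (algebraMap Kb (Fb M) a) = algebraMap Kb (Fb (M * q)) a :=
        (heckeAlphaBar Kb M q).commutes a
      rw [e]
      exact const_mem_modelField (M * q) K' ha
    · show heckeAlphaBar Kb M q (barEmb M y) ∈ modelField (M * q) K'
      rw [alpha_barEmb]
      exact barEmb_mem_modelField (M * q) K' _

/-- `P₁^∞ = C ∩ 𝔪(w₁)`, as the kernel of `res₁ : C → C_k^∞`. -/
def P1inf : Ideal ↥C :=
  RingHom.ker (redOneInf A hA hqM C (modelInf_isIntegral_AJinf A hWA hC))

/-- `P₂^∞ = C ∩ 𝔪(w₂)`, as the kernel of `res₂ : C → C_k^∞`. -/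
def P2inf : Ideal ↥C :=
  RingHom.ker (redTwoInf A hA hqM C (modelInf_isIntegral_AJinf A hWA hC))

theorem mem_P1inf (x : ↥C) :
    x ∈ P1inf A hA hqM hWA hC ↔ (x : Fb (M * q)) ∈ (O1 M A hA).nonunits :=
  mem_ker_redOneInf A hA hqM C _ x

theorem mem_P2inf (x : ↥C) :
    x ∈ P2inf A hA hqM hWA hC ↔ (x : Fb (M * q)) ∈ (O2 A hA hqM).nonunits :=
  mem_ker_redTwoInf A hA hqM C _ x

instance isPrime_P1inf : (P1inf A hA hqM hWA hC).IsPrime := RingHom.ker_isPrime _

instance isPrime_P2inf : (P2inf A hA hqM hWA hC).IsPrime := RingHom.ker_isPrime _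

variable (hW : ∀ a ∈ A, ∃ a' ∈ (W : Set Kb), a - a' ∈ A.nonunits)

include hC hCM hWK hZW in
theorem alpha_GMinf_mem :
    ∀ g ∈ GMinf M q (W : Set Kb), g ∈ OM M A hA → heckeAlphaBar Kb M q g ∈ C :=
  fun _ hg _ => alpha_mem_model_inf hC hCM (GMinf_le_modelInf hCM hWK hZW hg)

/-- **`C ⧸ P₁^∞ ≃ C_k^∞`**. -/
def quotP1inf : ↥C ⧸ P1inf A hA hqM hWA hC ≃+* ↥(CkInf M A) :=
  quotOneInf A hA hqM C (modelInf_isIntegral_AJinf A hWA hC) (W : Set Kb) hW
    (alpha_GMinf_mem A hA hC hCM hWK hZW)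

include hCM hWK hZW hW in
/-- **`C ⧸ P₁^∞` is a Dedekind domain.** -/
theorem isDedekindDomain_quot_P1inf : IsDedekindDomain (↥C ⧸ P1inf A hA hqM hWA hC) :=
  isDedekindDomain_quotOneInf A hA hqM C (modelInf_isIntegral_AJinf A hWA hC) (W : Set Kb) hW
    (alpha_GMinf_mem A hA hC hCM hWK hZW)

include hCM hWK hZW hW in
/-- `res₁ : C → C_k^∞` is onto. -/
theorem redOneInf_model_surjective :
    Function.Surjective (redOneInf A hA hqM C (modelInf_isIntegral_AJinf A hWA hC)) :=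
  redOneInf_surjective A hA hqM C _ (W : Set Kb) hW (alpha_GMinf_mem A hA hC hCM hWK hZW)

/-! ### the second component -/

section Two

variable (R : Subring (Fb (M * q))) (hR : ∀ x ∈ R, IsIntegral ↥(AJinf M q A) x)
variable (W' : Set Kb) (hW' : ∀ a ∈ A, ∃ a' ∈ W', a - a' ∈ A.nonunits)

include hW' in
/-- **`res₂ : R → C_k^∞` is surjective** as soon as every `β g`, `g` in the chart at infinity of
level `M`, has a multiple `s · β g ∈ R` with `res₂ s = 1`. -/
theorem redTwoInf_surjective_of_twist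
    (hβ : ∀ g ∈ GMinf M q W', g ∈ OM M A hA →
      ∃ s : Fb (M * q), ∃ hs : s ∈ O2 A hA hqM,
        red2F A hA hqM ⟨s, hs⟩ = 1 ∧ s * heckeBetaBar Kb M q g ∈ R) :
    Function.Surjective (redTwoInf A hA hqM R hR) := by
  intro y
  obtain ⟨g, hgG, hg, hred⟩ :=
    exists_lift_inf A hA hqM W' hW' (y : ↥(modularFunctionFieldFullC kA M)) y.2
  obtain ⟨s, hs, hs1, hmem⟩ := hβ g hgG hg
  refine ⟨⟨s * heckeBetaBar Kb M q g, hmem⟩, Subtype.ext ?_⟩
  rw [coe_redTwoInf, ← hred]
  have hβO : heckeBetaBar Kb M q g ∈ O2 A hA hqM := (beta_mem_O2_iff A hA hqM g).2 hg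
  have e : (⟨s * heckeBetaBar Kb M q g, modelInf_le_O2 A hA hqM R hR hmem⟩ : O2 A hA hqM) =
      ⟨s, hs⟩ * ⟨heckeBetaBar Kb M q g, hβO⟩ := rfl
  rw [e, map_mul, hs1, one_mul]
  exact red2F_beta A hA hqM g hg

end Two

/-- `W[1/j_q] ⊆ F̄_{Mq}`, `j_q = β j_M`. -/
def modelBaseInfQ (M q : ℕ) [NeZero M] [Fact q.Prime] (W : Subring Kb) : Subring (Fb (M * q)) :=
  Subring.closure ((algebraMap Kb (Fb (M * q))) '' (W : Set Kb) ∪
    {(heckeBetaBar Kb M q (jBar M))⁻¹})

/-- `β` maps elements integral over `W[1/j_M]` to elements integral over `W[1/j_q]`. -/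
theorem isIntegral_beta_inf {g : Fb M} (hg : IsIntegral ↥(Inf.modelBaseInf M W) g) :
    IsIntegral ↥(modelBaseInfQ M q W) (heckeBetaBar Kb M q g) := by
  refine isIntegral_map_of_closure
    ((heckeBetaBar Kb M q : Fb M →ₐ[Kb] Fb (M * q)) : Fb M →+* Fb (M * q)) _ _ ?_ hg
  rintro s (⟨a, ha, rfl⟩ | hs)
  · have e : ((heckeBetaBar Kb M q : Fb M →ₐ[Kb] Fb (M * q)) : Fb M →+* Fb (M * q))
        (algebraMap Kb (Fb M) a) = algebraMap Kb (Fb (M * q)) a :=
      (heckeBetaBar Kb M q).commutes a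
    rw [e]
    exact isIntegral_of_mem _ (Subring.subset_closure (Or.inl ⟨a, ha, rfl⟩))
  · rw [Set.mem_singleton_iff] at hs
    subst hs
    have e : ((heckeBetaBar Kb M q : Fb M →ₐ[Kb] Fb (M * q)) : Fb M →+* Fb (M * q))
        (jBar M)⁻¹ = (heckeBetaBar Kb M q (jBar M))⁻¹ := by
      rw [map_inv₀]
      rfl
    rw [e]
    exact isIntegral_of_mem _ (Subring.subset_closure (Or.inr rfl))

include hC hCM hWK hZW hW in
/-- **`res₂ : C → C_k^∞` is onto** for the models at infinity, given an element `f` of the model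
with `res₂ f = 1` clearing the denominators of `W[1/j_q]` over `W[1/j]`. -/
theorem redTwoInf_model_surjective {f : Fb (M * q)} (hfO : f ∈ O2 A hA hqM)
    (hf1 : red2F A hA hqM ⟨f, hfO⟩ = 1) (hfF : f ∈ modelField (M * q) K')
    (hclear : ∀ x : Fb (M * q), IsIntegral ↥(modelBaseInfQ M q W) x →
      ∃ m : ℕ, IsIntegral ↥(Inf.modelBaseInf (M * q) W) (f ^ m * x)) :
    Function.Surjective (redTwoInf A hA hqM C (modelInf_isIntegral_AJinf A hWA hC)) := by
  refine redTwoInf_surjective_of_twist A hA hqM C _ (W : Set Kb) hW ?_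
  intro g hgG hg
  have hgCM : g ∈ CM := GMinf_le_modelInf hCM hWK hZW hgG
  obtain ⟨hgF, hgI⟩ := (hCM g).1 hgCM
  obtain ⟨m, hm⟩ := hclear _ (isIntegral_beta_inf hgI)
  refine ⟨f ^ m, (O2 A hA hqM).pow_mem hfO m, ?_, ?_⟩
  · have e : (⟨f ^ m, (O2 A hA hqM).pow_mem hfO m⟩ : O2 A hA hqM) = ⟨f, hfO⟩ ^ m := rfl
    rw [e, map_pow, hf1, one_pow]
  · refine (hC _).2 ⟨?_, hm⟩
    refine (modelField (M * q) K').mul_mem ((modelField (M * q) K').pow_mem hfF m) ?_
    refine map_mem_of_closure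
      ((heckeBetaBar Kb M q : Fb M →ₐ[Kb] Fb (M * q)) : Fb M →+* Fb (M * q)) _ _ ?_ hgF
    rintro t (⟨a, ha, rfl⟩ | ⟨y, rfl⟩)
    · have e : ((heckeBetaBar Kb M q : Fb M →ₐ[Kb] Fb (M * q)) : Fb M →+* Fb (M * q))
          (algebraMap Kb (Fb M) a) = algebraMap Kb (Fb (M * q)) a :=
        (heckeBetaBar Kb M q).commutes a
      rw [e]
      exact const_mem_modelField (M * q) K' ha
    · show heckeBetaBar Kb M q (barEmb M y) ∈ modelField (M * q) K'
      rw [beta_barEmb]
      exact barEmb_mem_modelField (M * q) K' _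

/-- **`C ⧸ P₂^∞ ≃ C_k^∞`** (given that `res₂` is onto). -/
def quotP2inf
    (hsurj : Function.Surjective (redTwoInf A hA hqM C (modelInf_isIntegral_AJinf A hWA hC))) :
    ↥C ⧸ P2inf A hA hqM hWA hC ≃+* ↥(CkInf M A) :=
  quotTwoInf A hA hqM C (modelInf_isIntegral_AJinf A hWA hC) hsurj

/-- **`C ⧸ P₂^∞` is a Dedekind domain** (given that `res₂` is onto). -/
theorem isDedekindDomain_quot_P2inf
    (hsurj : Function.Surjective (redTwoInf A hA hqM C (modelInf_isIntegral_AJinf A hWA hC))) :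
    IsDedekindDomain (↥C ⧸ P2inf A hA hqM hWA hC) :=
  isDedekindDomain_quotTwoInf A hA hqM C (modelInf_isIntegral_AJinf A hWA hC) hsurj

end Fermat.Agent.BR.Inst.SpecIsoInf
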