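import Mathlib
import Fermat.Agent.BR.CuspSep
import Fermat.Agent.BR.KrullNormal
import Fermat.Agent.BR.Inst.NormalGen

/-!
# Program B, B6.6 at the cusps: patching the two charts (abstract, Mathlib + CuspSep + KrullNormal)

`Ω` a field, `D ⊆ Ω` a subring (the constants `W'`), `u ∈ Ω` nonzero (`u = 1/j`), and the two base
rings `D[u⁻¹]`, `D[u]` (as `Subring.closure (D ∪ {·})`).

* `exists_isIntegral_mul_inv_pow` : `x` integral over `R[u]` ⟹ `x u⁻ᵐ` integral over `R[u⁻¹]` for
  some `m` (transfer between the two charts);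
* `height_ne_one_of_mem` : going-down: if `C` is a domain integral over the integrally closed domain
  `R`, `(π) ⊂ R` is prime and `u ∉ (π)`, then no height-one prime of `C` contains both `π` and `u`
  (no vertical component of the chart at infinity lies over the cusps);
* `dvd_of_mul_eq_mul` : saturation in a noetherian normal domain: `v a = π c` and no height-one prime
  contains both `π` and `v` ⟹ `π ∣ a`;
* `star_of_star` : **the saturation property `(★')` passes from the finite chart to the chart at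
  infinity**: if `x π ∈ C₊ ∧ x ∈ O ⟹ x ∈ C₊` for the model `C₊` over `D[u⁻¹]`, then
  `x π ∈ C₋ ∧ x ∈ O ⟹ x ∈ C₋` for the model `C₋` over `D[u]` (`O` any subring containing `u⁻¹`,
  e.g. `O₁ ⊓ O₂`).
-/

set_option autoImplicit false

noncomputable section

namespace Fermat.Agent.BR.Inst.Inf.Patch

open Polynomial Fermat.Agent.BR.Inst.NormalGen

/-! ### integrality over subrings: monotonicity, `adjoin` versus `closure` -/

section Mono

variable {Ω : Type*} [Field Ω]

/-- integrality is monotone in the base subring -/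
theorem isIntegral_of_le {R S : Subring Ω} (h : R ≤ S) {x : Ω} (hx : IsIntegral ↥R x) :
    IsIntegral ↥S x := by
  obtain ⟨p, hp, hpx⟩ := hx
  refine ⟨p.map (Subring.inclusion h), hp.map _, ?_⟩
  rw [Polynomial.eval₂_map]
  exact hpx

/-- integrality over `D[t]` as a subalgebra and over `Subring.closure (D ∪ {t})` agree -/
theorem isIntegral_adjoin_iff (D : Subring Ω) (t x : Ω) :
    IsIntegral ↥(Algebra.adjoin ↥D ({t} : Set Ω)) x ↔
      IsIntegral ↥(Subring.closure ((D : Set Ω) ∪ {t})) x := by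
  have hle : ∀ y, y ∈ Algebra.adjoin ↥D ({t} : Set Ω) ↔
      y ∈ Subring.closure ((D : Set Ω) ∪ {t}) := by
    intro y
    rw [closure_union_singleton_eq D t]
    exact Iff.rfl
  let e1 : ↥(Algebra.adjoin ↥D ({t} : Set Ω)) →+* ↥(Subring.closure ((D : Set Ω) ∪ {t})) :=
    { toFun := fun y => ⟨y.1, (hle y.1).mp y.2⟩
      map_one' := rfl
      map_mul' := fun _ _ => rfl
      map_zero' := rfl
      map_add' := fun _ _ => rfl }
  let e2 : ↥(Subring.closure ((D : Set Ω) ∪ {t})) →+* ↥(Algebra.adjoin ↥D ({t} : Set Ω)) :=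
    { toFun := fun y => ⟨y.1, (hle y.1).mpr y.2⟩
      map_one' := rfl
      map_mul' := fun _ _ => rfl
      map_zero' := rfl
      map_add' := fun _ _ => rfl }
  constructor
  · rintro ⟨p, hp, hpx⟩
    refine ⟨p.map e1, hp.map _, ?_⟩
    rw [Polynomial.eval₂_map]
    exact hpx
  · rintro ⟨p, hp, hpx⟩
    refine ⟨p.map e2, hp.map _, ?_⟩
    rw [Polynomial.eval₂_map]
    exact hpx

end Mono

/-! ### transfer of integrality between `R[u]` and `R[u⁻¹]` -/

section Transfer

variable {R Ω : Type*} [CommRing R] [Field Ω] [Algebra R Ω]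

/-- **transfer**: an element integral over `R[u]` becomes integral over `R[u⁻¹]` after multiplication
by a power of `u⁻¹`. -/
theorem exists_isIntegral_mul_inv_pow {u x : Ω} (hu : u ≠ 0)
    (hx : IsIntegral ↥(Algebra.adjoin R ({u} : Set Ω)) x) :
    ∃ m : ℕ, IsIntegral ↥(Algebra.adjoin R ({u⁻¹} : Set Ω)) (x * (u⁻¹) ^ m) := by
  obtain ⟨P, hPm, hPx⟩ := hx
  set f : Polynomial R →+* Ω := ((aeval u : Polynomial R →ₐ[R] Ω) : Polynomial R →+* Ω) with hf
  set P' : Polynomial Ω := P.map (algebraMap ↥(Algebra.adjoin R ({u} : Set Ω)) Ω) with hP'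
  have hP'm : P'.Monic := hPm.map _
  have hlifts : P' ∈ Polynomial.lifts f := by
    rw [Polynomial.lifts_iff_coeff_lifts]
    intro n
    rw [hP', coeff_map]
    have h1 : ∀ y ∈ Algebra.adjoin R ({u} : Set Ω), ∃ c : Polynomial R, f c = y := by
      intro y hy
      rw [Algebra.adjoin_singleton_eq_range_aeval] at hy
      obtain ⟨c, hc⟩ := hy
      exact ⟨c, hc⟩
    exact h1 _ (P.coeff n).2
  obtain ⟨Φ, hΦP, hΦn, hΦm⟩ := Polynomial.lifts_and_natDegree_eq_and_monic hlifts hP'm
  set m : ℕ := (Finset.range (Φ.natDegree + 1)).sup (fun b => (Φ.coeff b).natDegree) with hm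
  have hdeg : ∀ b, (Φ.coeff b).natDegree ≤ m * (Φ.natDegree - b) := by
    intro b
    rcases lt_trichotomy b Φ.natDegree with hb | hb | hb
    · have h1 : (Φ.coeff b).natDegree ≤ m :=
        Finset.le_sup (f := fun b => (Φ.coeff b).natDegree)
          (Finset.mem_range.mpr (Nat.lt_succ_of_lt hb))
      have h2 : 1 ≤ Φ.natDegree - b := by omega
      calc (Φ.coeff b).natDegree ≤ m := h1
        _ = m * 1 := (mul_one m).symm
        _ ≤ m * (Φ.natDegree - b) := Nat.mul_le_mul_left m h2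
    · rw [hb, hΦm.coeff_natDegree, natDegree_one]
      exact Nat.zero_le _
    · rw [coeff_eq_zero_of_natDegree_lt hb, natDegree_zero]
      exact Nat.zero_le _
  refine ⟨m, Fermat.Agent.BR.CuspSep.isIntegral_mul_inv_pow hΦm m hdeg hu ?_⟩
  rw [hΦP, hP', Polynomial.eval_map]
  exact hPx

end Transfer

/-! ### going-down: no vertical height-one prime over the cusps -/

section Height

variable {R C : Type*} [CommRing R] [IsDomain R] [IsIntegrallyClosed R] [CommRing C] [IsDomain C]
  [Algebra R C] [FaithfulSMul R C] [Algebra.IsIntegral R C]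

/-- if `(π)` is a nonzero prime of the integrally closed domain `R`, `u ∉ (π)` and `C` is a domain
integral over `R`, then a prime of `C` containing both `π` and `u` has height at least two. -/
theorem height_ne_one_of_mem {π u : R} (hπ0 : π ≠ 0) (hprime : (Ideal.span {π} : Ideal R).IsPrime)
    (hu : u ∉ (Ideal.span {π} : Ideal R)) (p : Ideal C) [hp : p.IsPrime]
    (hπp : algebraMap R C π ∈ p) (hup : algebraMap R C u ∈ p) : p.height ≠ 1 := by
  intro hht
  have hle : (Ideal.span {π} : Ideal R) ≤ p.under R := by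
    rw [Ideal.span_le, Set.singleton_subset_iff]
    exact hπp
  haveI : (p.under R).IsPrime := Ideal.IsPrime.under R p
  haveI : p.LiesOver (p.under R) := ⟨rfl⟩
  obtain ⟨P', hP'le, hP'prime, hP'over⟩ :=
    Ideal.exists_ideal_le_liesOver_of_le (p := Ideal.span {π}) (q := p.under R) p hle
  have hπP' : algebraMap R C π ∈ P' := by
    have h1 : π ∈ P'.under R := by
      rw [← hP'over.over]
      exact Ideal.mem_span_singleton_self π
    exact h1
  have huP' : algebraMap R C u ∉ P' := by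
    intro h
    apply hu
    rw [hP'over.over]
    exact h
  have hlt : P' < p := lt_of_le_of_ne hP'le (fun h => huP' (h ▸ hup))
  have h1 := (Ideal.height_le_iff (p := p) (n := 1)).mp (by rw [hht]; exact le_rfl) P' hP'prime hlt
  have h0 : P'.height = 0 := by
    have : P'.height < 1 := by exact_mod_cast h1
    exact Order.lt_one_iff.mp this
  rw [Ideal.height_eq_zero_iff_eq_bot] at h0
  rw [h0, Ideal.mem_bot] at hπP'
  exact hπ0 (FaithfulSMul.algebraMap_injective R C (by rw [hπP', map_zero]))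

end Height

/-! ### saturation in a noetherian normal domain -/

section Sat

variable {C : Type*} [CommRing C] [IsDomain C] [IsNoetherianRing C] [IsIntegrallyClosed C]

/-- `v a = π c` and no height-one prime contains both `π` and `v` ⟹ `π ∣ a`. -/
theorem dvd_of_mul_eq_mul {π v a c : C} (hπ0 : π ≠ 0) (h : v * a = π * c)
    (hv : ∀ p : Ideal C, p.IsPrime → p.height = 1 → π ∈ p → v ∉ p) : π ∣ a :=
  Fermat.Agent.BR.KrullNormal.dvd_of_forall_height_one hπ0
    (fun p hp hht hπp => ⟨v, hv p hp hht hπp, ⟨c, h⟩⟩)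

end Sat

/-! ### the saturation property passes from the finite chart to the chart at infinity -/

section Star

variable {Ω : Type*} [Field Ω]

theorem mem_base_left {D : Subring Ω} {t a : Ω} (ha : a ∈ D) :
    a ∈ Subring.closure ((D : Set Ω) ∪ {t}) :=
  Subring.subset_closure (Or.inl ha)

theorem mem_base_right (D : Subring Ω) (t : Ω) : t ∈ Subring.closure ((D : Set Ω) ∪ {t}) :=
  Subring.subset_closure (Or.inr rfl)

theorem base_le_field {D : Subring Ω} {t : Ω} {E : Subfield Ω} (hDE : ∀ a ∈ D, a ∈ E)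
    (htE : t ∈ E) : Subring.closure ((D : Set Ω) ∪ {t}) ≤ E.toSubring := by
  rw [Subring.closure_le]
  rintro y (hy | hy)
  · exact hDE y hy
  · rw [Set.mem_singleton_iff] at hy
    subst hy
    exact htE

/-- elements of a model are integral over the base ring, as elements of the model -/
theorem isModel_algebra_isIntegral {R : Subring Ω} {E : Subfield Ω} {C : Subring Ω}
    (hC : IsModel R E C) (hRE : R ≤ E.toSubring) :
    @Algebra.IsIntegral ↥R ↥C _ _ (algebraOfLE' (hC.base_le hRE)) := by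
  letI : Algebra ↥R ↥C := algebraOfLE' (hC.base_le hRE)
  haveI : IsScalarTower ↥R ↥C Ω := IsScalarTower.of_algebraMap_eq (fun _ => rfl)
  refine ⟨fun c => ?_⟩
  have h1 : IsIntegral ↥R ((c : ↥C) : Ω) := ((hC _).mp c.2).2
  exact (isIntegral_algebraMap_iff (R := ↥R) (A := ↥C) (B := Ω)
    (Subtype.val_injective)).mp h1

/-- **`(★')` passes from the finite chart to the chart at infinity.**  `Cp` is the model over
`D[u⁻¹]` (finite chart, `u⁻¹ = j`), `Cm` the model over `D[u]` (chart at infinity), both inside the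
field `E`; `Cm` is noetherian and integrally closed, `D[u]` is integrally closed, `(π)` is a prime of
`D[u]` not containing `u`; `O` is any subring containing `u⁻¹` (`O = O₁ ⊓ O₂`). -/
theorem star_of_star (D : Subring Ω) {u : Ω} (hu : u ≠ 0) (E : Subfield Ω)
    (hDE : ∀ a ∈ D, a ∈ E) (huE : u ∈ E) {Cp Cm : Subring Ω}
    (hCp : IsModel (Subring.closure ((D : Set Ω) ∪ {u⁻¹})) E Cp)
    (hCm : IsModel (Subring.closure ((D : Set Ω) ∪ {u})) E Cm)
    [IsNoetherianRing ↥Cm] [IsIntegrallyClosed ↥Cm]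
    [IsIntegrallyClosed ↥(Subring.closure ((D : Set Ω) ∪ {u}))]
    {π : Ω} (hπD : π ∈ D) (hπ0 : π ≠ 0)
    (hprime : (Ideal.span {(⟨π, mem_base_left hπD⟩ :
      ↥(Subring.closure ((D : Set Ω) ∪ {u})))}).IsPrime)
    (hunot : (⟨u, mem_base_right D u⟩ : ↥(Subring.closure ((D : Set Ω) ∪ {u}))) ∉
      Ideal.span {(⟨π, mem_base_left hπD⟩ : ↥(Subring.closure ((D : Set Ω) ∪ {u})))})
    (O : Subring Ω) (hjO : u⁻¹ ∈ O)
    (star : ∀ x : Ω, x * π ∈ Cp → x ∈ O → x ∈ Cp) :
    ∀ x : Ω, x * π ∈ Cm → x ∈ O → x ∈ Cm := by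
  intro x hxπ hxO
  have hRE : Subring.closure ((D : Set Ω) ∪ {u}) ≤ E.toSubring := base_le_field hDE huE
  have hπE : π ∈ E := hDE π hπD
  have h1 := (hCm _).mp hxπ
  have hxE : x ∈ E := by
    have := E.mul_mem h1.1 (E.inv_mem hπE)
    rwa [mul_assoc, mul_inv_cancel₀ hπ0, mul_one] at this
  have hjE : u⁻¹ ∈ E := E.inv_mem huE
  -- to the finite chart
  obtain ⟨m, hm⟩ := exists_isIntegral_mul_inv_pow (R := ↥D) hu
    ((isIntegral_adjoin_iff D u _).mpr h1.2)
  have h2 : x * (u⁻¹) ^ m * π ∈ Cp := by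
    refine (hCp _).mpr ⟨E.mul_mem (E.mul_mem hxE (E.pow_mem hjE m)) hπE, ?_⟩
    have := (isIntegral_adjoin_iff D u⁻¹ _).mp hm
    have e : x * (u⁻¹) ^ m * π = x * π * (u⁻¹) ^ m := by ring
    rw [e]
    exact this
  have h3 : x * (u⁻¹) ^ m ∈ Cp := star _ h2 (O.mul_mem hxO (O.pow_mem hjO m))
  -- and back
  obtain ⟨m', hm'⟩ := exists_isIntegral_mul_inv_pow (R := ↥D) (inv_ne_zero hu)
    ((isIntegral_adjoin_iff D u⁻¹ _).mpr ((hCp _).mp h3).2)
  rw [inv_inv] at hm'
  have h4 : x * (u⁻¹) ^ m * u ^ m' ∈ Cm :=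
    (hCm _).mpr ⟨E.mul_mem (E.mul_mem hxE (E.pow_mem hjE m)) (E.pow_mem huE m'),
      (isIntegral_adjoin_iff D u _).mp hm'⟩
  have huCm : u ∈ Cm := hCm.base_le hRE (mem_base_right D u)
  have hπCm : π ∈ Cm := hCm.base_le hRE (mem_base_left hπD)
  rcases le_or_gt m' m with hle | hlt
  · have e : x = x * (u⁻¹) ^ m * u ^ m' * u ^ (m - m') := by
      rw [mul_assoc, mul_assoc, ← pow_add, Nat.add_sub_cancel' hle, ← mul_pow,
        inv_mul_cancel₀ hu, one_pow, mul_one]
    rw [e]
    exact Cm.mul_mem h4 (Cm.pow_mem huCm _)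
  · have hc : x * u ^ (m' - m) ∈ Cm := by
      have e : x * u ^ (m' - m) = x * (u⁻¹) ^ m * u ^ m' := by
        have hm'm : m' = m + (m' - m) := by omega
        conv_rhs => rw [hm'm, pow_add, mul_assoc, ← mul_assoc ((u⁻¹) ^ m), ← mul_pow,
          inv_mul_cancel₀ hu, one_pow, one_mul]
      rw [e]
      exact h4
    letI : Algebra ↥(Subring.closure ((D : Set Ω) ∪ {u})) ↥Cm := algebraOfLE' (hCm.base_le hRE)
    haveI : FaithfulSMul ↥(Subring.closure ((D : Set Ω) ∪ {u})) ↥Cm := by
      rw [faithfulSMul_iff_algebraMap_injective]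
      intro y z h
      exact Subtype.ext (congrArg (fun w : ↥Cm => (w : Ω)) h)
    haveI : Algebra.IsIntegral ↥(Subring.closure ((D : Set Ω) ∪ {u})) ↥Cm :=
      isModel_algebra_isIntegral hCm hRE
    have hπR0 : (⟨π, mem_base_left hπD⟩ : ↥(Subring.closure ((D : Set Ω) ∪ {u}))) ≠ 0 :=
      fun h => hπ0 (congrArg Subtype.val h)
    have hπC0 : (⟨π, hπCm⟩ : ↥Cm) ≠ 0 := fun h => hπ0 (congrArg Subtype.val h)
    have hmul : (⟨u, huCm⟩ : ↥Cm) ^ (m' - m) * ⟨x * π, hxπ⟩ =
        ⟨π, hπCm⟩ * ⟨x * u ^ (m' - m), hc⟩ := by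
      apply Subtype.ext
      show u ^ (m' - m) * (x * π) = π * (x * u ^ (m' - m))
      ring
    have hdvd : (⟨π, hπCm⟩ : ↥Cm) ∣ ⟨x * π, hxπ⟩ := by
      refine dvd_of_mul_eq_mul hπC0 hmul (fun p hp hht hπp hvp => ?_)
      have hup : (⟨u, huCm⟩ : ↥Cm) ∈ p := hp.mem_of_pow_mem _ hvp
      exact height_ne_one_of_mem (R := ↥(Subring.closure ((D : Set Ω) ∪ {u}))) (C := ↥Cm)
        hπR0 hprime hunot p hπp hup hht
    obtain ⟨b, hb⟩ := hdvd
    have hb' : x * π = π * (b : Ω) := congrArg Subtype.val hb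
    have hxb : x = (b : Ω) := by
      apply mul_right_cancel₀ hπ0
      rw [hb', mul_comm]
    rw [hxb]
    exact b.2

end Star

end Fermat.Agent.BR.Inst.Inf.Patch
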