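import Fermat.Agent.BR.Inst.Inf.NormalInf
import Fermat.Agent.BR.Inst.Inf.Patch
import Fermat.Agent.BR.Inst.Inf.CuspSepUnits
import Fermat.Agent.BR.Inst.TwoCompStar
import Fermat.Agent.BR.Separate

/-!
# Program B, B6.6 at the cusps, part (c∞): the two vertical components of the chart at infinity

Frame-free (helper4's `modelBase` / `modelField` / `NormalGen.IsModel` vocabulary), level `M * q`.
`W = A ∩ K'` with uniformizer `π'` (the unfolded `IsDVRField`), `Cfin` / `Cinf` the integral closures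
of `W[j]` / `W[1/j]` in `K'·F_{Mq}`.

NAMED HYPOTHESES (owed by the finite chart, in their owners' announced shapes):
* `hunif1`, `hunif2` : `x ∈ K'·F_{Mq}`, `x ∈ 𝔪(O_i)` ⟹ `x / π' ∈ O_i`  (helper13, `ContentFK`);
* `hstar` : `x π' ∈ Cfin`, `x ∈ O1`, `x ∈ O2` ⟹ `x ∈ Cfin`  (`(★')` on the FINITE chart, helper15).

CONCLUSION: `starData_inf : Inst.StarData (π' : Cinf) O1 O2`, hence (helper22's `TwoCompStar`)
`twoComponents_inf : SpecialFibre.TwoComponents (π' : Cinf) P1∞ P2∞` and `π' Cinf = P1∞ ⊓ P2∞`.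
The separators are `h - 1` and `h^q - (1/j)^(q²-1)` (`h = j_q/j^q`); `(★')` at infinity is obtained
from the finite chart by PATCHING (`Patch.star_of_star`).
-/

set_option autoImplicit false
set_option linter.unusedSectionVars false
set_option synthInstance.maxHeartbeats 400000

noncomputable section

namespace Fermat.Agent.BR.Inst.Inf

open ModularCurve ModularCurve.IgusaScheme Fermat.Agent.X0 Fermat.Agent.Val
open Fermat.Agent.Good.Bridge Fermat.Agent.Igusa Fermat.Agent.Hecke.AL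
open Fermat.Agent.BR.TwoVal Fermat.Agent.BR.CuspSepVal Fermat.Agent.BR.Inst.Cusp
open Fermat.Agent.BR.Inst.NormalGen Fermat.Agent.BR.Inst.NormalModel
open Fermat.Agent.BR.Inst.Inf.Patch

/-! ### generalities -/

section Gen

variable {Ω : Type*} [Field Ω]

/-- a valuation subring containing the base ring contains the model -/
theorem mem_valuationSubring_of_isModel {R : Subring Ω} {E : Subfield Ω} {C : Subring Ω}
    (hC : IsModel R E C) (V : ValuationSubring Ω) (hRV : ∀ x ∈ R, x ∈ V) {x : Ω} (hx : x ∈ C) :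
    x ∈ V := by
  have hint : IsIntegral ↥R x := ((hC x).mp hx).2
  let φ : ↥R →+* ↥V := (Subring.subtype R).codRestrict V.toSubring (fun b => hRV b b.2)
  have h1 : IsIntegral ↥V ((RingHom.id Ω) x) :=
    IsIntegral.map_of_comp_eq φ (RingHom.id Ω) (by ext a; rfl) hint
  obtain ⟨y, hy⟩ := IsIntegrallyClosed.isIntegral_iff.mp h1
  rw [RingHom.id_apply] at hy
  rw [← hy]
  exact y.2

/-- the uniformizer of `W = A ∩ K'` is a prime element of `W` -/
theorem prime_uniformizer (A : ValuationSubring Ω) (K' : Subfield Ω) (W : Subring Ω)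
    (hW : ∀ x, x ∈ W ↔ x ∈ A ∧ x ∈ K') (π : Ω) (hπK : π ∈ K') (hπ0 : π ≠ 0)
    (hπ : A.valuation π < 1)
    (hval : ∀ x ∈ K', x ≠ 0 → ∃ n : ℤ, A.valuation x = A.valuation π ^ n)
    (hπW : π ∈ W) : Prime (⟨π, hπW⟩ : ↥W) := by
  have hγ0 : 0 < A.valuation π := by
    rw [pos_iff_ne_zero]
    exact (A.valuation.ne_zero_iff).mpr hπ0
  have hnotunit : ¬ IsUnit (⟨π, hπW⟩ : ↥W) := by
    rintro ⟨u, hu⟩
    have h1 : ((u⁻¹ : (↥W)ˣ) : ↥W) * ⟨π, hπW⟩ = 1 := by rw [← hu]; exact u.inv_mul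
    have h2 : ((((u⁻¹ : (↥W)ˣ) : ↥W)) : Ω) * π = 1 := congrArg Subtype.val h1
    have h3 : A.valuation ((((u⁻¹ : (↥W)ˣ) : ↥W)) : Ω) * A.valuation π = 1 := by
      rw [← map_mul, h2, map_one]
    have h4 : A.valuation ((((u⁻¹ : (↥W)ˣ) : ↥W)) : Ω) ≤ 1 :=
      (A.valuation_le_one_iff _).mpr ((hW _).mp (((u⁻¹ : (↥W)ˣ) : ↥W)).2).1
    have h5 : A.valuation ((((u⁻¹ : (↥W)ˣ) : ↥W)) : Ω) * A.valuation π < 1 :=
      mul_lt_one_of_nonneg_of_lt_one_right h4 zero_le hπ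
    exact absurd h3 h5.ne
  -- every non-unit is divisible by `π`
  have key : ∀ x : ↥W, ¬ IsUnit x → (⟨π, hπW⟩ : ↥W) ∣ x := by
    intro x hx
    by_cases hx0 : x = 0
    · rw [hx0]; exact dvd_zero _
    have hx0' : (x : Ω) ≠ 0 := fun h => hx0 (Subtype.ext h)
    have hxA : (x : Ω) ∈ A := ((hW x).mp x.2).1
    have hxK : (x : Ω) ∈ K' := ((hW x).mp x.2).2
    obtain ⟨n, hn⟩ := hval x hxK hx0'
    have hn0 : 0 ≤ n := by
      by_contra hlt
      rw [not_le] at hlt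
      have h1 : A.valuation π ^ (0 : ℤ) < A.valuation π ^ n :=
        zpow_right_strictAnti₀ hγ0 hπ hlt
      rw [zpow_zero, ← hn] at h1
      exact absurd ((A.valuation_le_one_iff _).mpr hxA) (not_le.mpr h1)
    have hn1 : 1 ≤ n := by
      by_contra hlt
      have hn00 : n = 0 := by omega
      rw [hn00, zpow_zero] at hn
      apply hx
      have hxinvA : (x : Ω)⁻¹ ∈ A := by
        apply (A.valuation_le_one_iff _).mp
        rw [map_inv₀, hn, inv_one]
      have hxinvW : (x : Ω)⁻¹ ∈ W := (hW _).mpr ⟨hxinvA, K'.inv_mem hxK⟩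
      exact IsUnit.of_mul_eq_one (⟨(x : Ω)⁻¹, hxinvW⟩ : ↥W)
        (Subtype.ext (mul_inv_cancel₀ hx0'))
    have hyA : (x : Ω) / π ∈ A := by
      apply (A.valuation_le_one_iff _).mp
      rw [map_div₀, hn, div_le_iff₀ hγ0, one_mul]
      calc A.valuation π ^ n ≤ A.valuation π ^ (1 : ℤ) :=
            zpow_le_zpow_right_of_le_one₀ hγ0 hπ.le hn1
        _ = A.valuation π := zpow_one _
    have hyW : (x : Ω) / π ∈ W := (hW _).mpr ⟨hyA, K'.div_mem hxK hπK⟩
    exact ⟨⟨(x : Ω) / π, hyW⟩, Subtype.ext (by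
      show (x : Ω) = π * ((x : Ω) / π)
      rw [mul_div_cancel₀ _ hπ0])⟩
  refine ⟨fun h => hπ0 (congrArg Subtype.val h), hnotunit, ?_⟩
  intro a b hab
  by_cases ha : IsUnit a
  · right
    exact (ha.dvd_mul_left).mp hab
  · left
    exact key a ha

end Gen

/-! ### `(π')` is a prime of `W[t]` not containing `t` -/

section PrimeBase

variable (N : ℕ) [NeZero N] (W : Subring Kb) {t : Fb N}

theorem isPrime_span_const (ht : Transcendental ↥W t) {π : Kb} (hπW : π ∈ W)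
    (hπ : Prime (⟨π, hπW⟩ : ↥W)) :
    (Ideal.span {(⟨algebraMap Kb (Fb N) π, const_mem_modelBaseGen N W t hπW⟩ :
      ↥(modelBaseGen N W t))}).IsPrime ∧
    (⟨t, gen_mem_modelBaseGen N W t⟩ : ↥(modelBaseGen N W t)) ∉
      Ideal.span {(⟨algebraMap Kb (Fb N) π, const_mem_modelBaseGen N W t hπW⟩ :
        ↥(modelBaseGen N W t))} := by
  let e : Polynomial ↥W ≃+* ↥(modelBaseGen N W t) :=
    (Polynomial.algEquivOfTranscendental ↥W t ht).toRingEquiv.trans
      (adjoinEquivModelBaseGen N W t)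
  have heC : e (Polynomial.C ⟨π, hπW⟩) =
      ⟨algebraMap Kb (Fb N) π, const_mem_modelBaseGen N W t hπW⟩ := by
    apply Subtype.ext
    show ((Polynomial.algEquivOfTranscendental ↥W t ht (Polynomial.C ⟨π, hπW⟩) :
      ↥(Algebra.adjoin ↥W ({t} : Set (Fb N)))) : Fb N) = _
    rw [Polynomial.algEquivOfTranscendental_apply, Polynomial.aeval_C]
    rfl
  have heX : e Polynomial.X = ⟨t, gen_mem_modelBaseGen N W t⟩ := by
    apply Subtype.ext
    show ((Polynomial.algEquivOfTranscendental ↥W t ht Polynomial.X :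
      ↥(Algebra.adjoin ↥W ({t} : Set (Fb N)))) : Fb N) = _
    rw [Polynomial.algEquivOfTranscendental_apply_X]
  have hprime : Prime (e (Polynomial.C ⟨π, hπW⟩)) :=
    (MulEquiv.prime_iff e).mpr (Polynomial.prime_C_iff.mpr hπ)
  rw [heC] at hprime
  refine ⟨(Ideal.span_singleton_prime hprime.ne_zero).mpr hprime, ?_⟩
  rw [Ideal.mem_span_singleton, ← heC, ← heX]
  intro hdvd
  have h1 : Polynomial.C (⟨π, hπW⟩ : ↥W) ∣ Polynomial.X := by
    obtain ⟨c, hc⟩ := hdvd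
    refine ⟨e.symm c, e.injective ?_⟩
    rw [map_mul, RingEquiv.apply_symm_apply]
    exact hc
  have h2 := (Polynomial.C_dvd_iff_dvd_coeff _ _).mp h1 1
  rw [Polynomial.coeff_X_one] at h2
  exact hπ.not_unit (isUnit_of_dvd_one h2)

end PrimeBase

/-! ### the chart at infinity -/

section Inf

variable {M q : ℕ} [NeZero M] [hq : Fact q.Prime]
variable (A : ValuationSubring Kb) (hA : A.LiesOverPrime q) (hqM : ¬ q ∣ M)

/-- `j_q = β j_M` is `jQ` -/
theorem jB_eq_jQ : jB M q = TwoValInst.jQ M q := by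
  apply Subtype.ext
  rw [CuspSepInt.coe_jB, TwoValInst.jQ, coe_jBarD, coeffEmb_jqN]
  congr 1
  exact (one_mul q).symm

theorem jBar_inv_mem_O1 : (jBar (M * q))⁻¹ ∈ O1 M A hA := by
  rw [← jA_eq_jBar]; exact jA_inv_mem_O1 A hA

theorem jBar_inv_mem_O2 : (jBar (M * q))⁻¹ ∈ O2 A hA hqM := by
  rw [← jA_eq_jBar]; exact jA_inv_mem_O2 A hA hqM

theorem jBar_mem_O1 : jBar (M * q) ∈ O1 M A hA := by
  rw [← jA_eq_jBar, jA_eq_jOne]; exact TwoValInst.jOne_mem_O1 A hA

theorem jBar_mem_O2 : jBar (M * q) ∈ O2 A hA hqM := by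
  rw [← jA_eq_jBar, jA_eq_jOne]; exact TwoValInst.jOne_mem_O2 A hA hqM

variable {W : Subring Kb} (hWA : ∀ x ∈ W, x ∈ A)

include hWA in
theorem modelBaseInf_le_O1 : ∀ x ∈ modelBaseInf (M * q) W, x ∈ O1 M A hA := by
  intro x hx
  have hle : modelBaseInf (M * q) W ≤ (O1 M A hA).toSubring := by
    rw [modelBaseInf_eq, Subring.closure_le]
    rintro y (⟨a, ha, rfl⟩ | hy)
    · exact (Separate.algebraMap_mem_O1_iff A hA a).mpr (hWA a ha)
    · rw [Set.mem_singleton_iff] at hy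
      subst hy
      exact jBar_inv_mem_O1 A hA
  exact hle hx

include hWA in
theorem modelBaseInf_le_O2 : ∀ x ∈ modelBaseInf (M * q) W, x ∈ O2 A hA hqM := by
  intro x hx
  have hle : modelBaseInf (M * q) W ≤ (O2 A hA hqM).toSubring := by
    rw [modelBaseInf_eq, Subring.closure_le]
    rintro y (⟨a, ha, rfl⟩ | hy)
    · exact (Separate.algebraMap_mem_O2_iff hqM A hA a).mpr (hWA a ha)
    · rw [Set.mem_singleton_iff] at hy
      subst hy
      exact jBar_inv_mem_O2 A hA hqM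
  exact hle hx

variable {K' : Subfield Kb}

/-- the separator `h = j_q / j^q` lies in `K'·F_{Mq}` -/
theorem hSep_mem_modelField : hSep M q ∈ modelField (M * q) K' := by
  have h1 : jB M q ∈ modelField (M * q) K' := by
    rw [jB_eq_jQ, TwoValInst.jQ, jBarD_eq_barEmb]
    exact barEmb_mem_modelField (M * q) K' _
  have h2 : (jA M q)⁻¹ ∈ modelField (M * q) K' := by
    rw [jA_eq_jBar]; exact jBar_inv_mem_modelField (M * q) K'
  exact (modelField (M * q) K').mul_mem h1 ((modelField (M * q) K').pow_mem h2 q)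

/-- the separator lies in every model over `W[1/j]` -/
theorem hSep_mem_model {Cinf : Subring (Fb (M * q))}
    (hinf : IsModel (modelBaseInf (M * q) W) (modelField (M * q) K') Cinf) :
    hSep M q ∈ Cinf := by
  refine (hinf _).mpr ⟨hSep_mem_modelField, isIntegral_hSep_of_mem ?_⟩
  rw [jA_eq_jBar]
  exact jBar_inv_mem_modelBaseInf (M * q) W

end Inf

/-! ### the main theorem -/

section Main

variable {M q : ℕ} [NeZero M] [hq : Fact q.Prime]
variable (A : ValuationSubring Kb) (hA : A.LiesOverPrime q) (hqM : ¬ q ∣ M)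

/-- `Patch.star_of_star` with the two base rings given up to equality -/
theorem star_of_star' {Ω : Type*} [Field Ω] (D : Subring Ω) {u : Ω} (hu : u ≠ 0) (E : Subfield Ω)
    (hDE : ∀ a ∈ D, a ∈ E) (huE : u ∈ E) (Rp Rm : Subring Ω)
    (hRp : Rp = Subring.closure ((D : Set Ω) ∪ {u⁻¹}))
    (hRm : Rm = Subring.closure ((D : Set Ω) ∪ {u})) {Cp Cm : Subring Ω}
    (hCp : IsModel Rp E Cp) (hCm : IsModel Rm E Cm)
    [IsNoetherianRing ↥Cm] [IsIntegrallyClosed ↥Cm] [IsIntegrallyClosed ↥Rm]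
    {π : Ω} (hπD : π ∈ D) (hπ0 : π ≠ 0) (hπR : π ∈ Rm) (huR : u ∈ Rm)
    (hprime : (Ideal.span {(⟨π, hπR⟩ : ↥Rm)}).IsPrime)
    (hunot : (⟨u, huR⟩ : ↥Rm) ∉ Ideal.span {(⟨π, hπR⟩ : ↥Rm)})
    (O : Subring Ω) (hjO : u⁻¹ ∈ O)
    (star : ∀ x : Ω, x * π ∈ Cp → x ∈ O → x ∈ Cp) :
    ∀ x : Ω, x * π ∈ Cm → x ∈ O → x ∈ Cm := by
  subst hRp hRm
  exact star_of_star D hu E hDE huE hCp hCm hπD hπ0 hprime hunot O hjO star

variable {K' : Subfield Kb} {W : Subring Kb}

/-- **B6.6 at the cusps, (c∞)**: the saturation data `Inst.StarData` for the chart at infinity. -/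
theorem starData_inf (hW : ∀ x, x ∈ W ↔ x ∈ A ∧ x ∈ K')
    (π' : Kb) (hπK : π' ∈ K') (hπ0 : π' ≠ 0) (hπ1 : A.valuation π' < 1)
    (hval : ∀ x ∈ K', x ≠ 0 → ∃ n : ℤ, A.valuation x = A.valuation π' ^ n)
    {Cfin Cinf : Subring (Fb (M * q))}
    (hfin : IsModel (modelBase (M * q) W) (modelField (M * q) K') Cfin)
    (hinf : IsModel (modelBaseInf (M * q) W) (modelField (M * q) K') Cinf)
    (hunif1 : ∀ x ∈ modelField (M * q) K', x ∈ (O1 M A hA).nonunits →
      x / algebraMap Kb (Fb (M * q)) π' ∈ O1 M A hA)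
    (hunif2 : ∀ x ∈ modelField (M * q) K', x ∈ (O2 A hA hqM).nonunits →
      x / algebraMap Kb (Fb (M * q)) π' ∈ O2 A hA hqM)
    (hstar : ∀ x : Fb (M * q), x * algebraMap Kb (Fb (M * q)) π' ∈ Cfin → x ∈ O1 M A hA →
      x ∈ O2 A hA hqM → x ∈ Cfin)
    (hπC : algebraMap Kb (Fb (M * q)) π' ∈ Cinf) :
    StarData (⟨algebraMap Kb (Fb (M * q)) π', hπC⟩ : ↥Cinf) (O1 M A hA) (O2 A hA hqM) := by
  have hWA : ∀ x ∈ W, x ∈ A := fun x hx => ((hW x).mp hx).1
  have hWK : ∀ x ∈ W, x ∈ K' := fun x hx => ((hW x).mp hx).2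
  have hπA : π' ∈ A := (A.valuation_le_one_iff π').mp hπ1.le
  have hπW : π' ∈ W := (hW π').mpr ⟨hπA, hπK⟩
  have hπF0 : algebraMap Kb (Fb (M * q)) π' ≠ 0 := by
    rw [Ne, map_eq_zero]; exact hπ0
  have hdvr : IsDiscreteValuationRing ↥W :=
    isDiscreteValuationRing_of_uniformizer A K' W hW π' hπK hπ0 hπ1 hval
  obtain ⟨hnoeth, hnormal, -, -⟩ :=
    model_normal_inf_of_inter (M * q) A K' W hW π' hπK hπ0 hπ1 hval hinf
  have hπnon : π' ∈ A.nonunits := (A.mem_nonunits_iff).mpr hπ1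
  have hle1 : ∀ b : ↥Cinf, (b : Fb (M * q)) ∈ O1 M A hA := fun b =>
    mem_valuationSubring_of_isModel hinf (O1 M A hA) (modelBaseInf_le_O1 A hA hWA) b.2
  have hle2 : ∀ b : ↥Cinf, (b : Fb (M * q)) ∈ O2 A hA hqM := fun b =>
    mem_valuationSubring_of_isModel hinf (O2 A hA hqM) (modelBaseInf_le_O2 A hA hqM hWA) b.2
  have hh : hSep M q ∈ Cinf := hSep_mem_model hinf
  have hu : (jBar (M * q))⁻¹ ∈ Cinf :=
    hinf.base_le (modelBaseInf_le_modelField (M * q) hWK) (jBar_inv_mem_modelBaseInf (M * q) W)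
  refine
    { inj := Subtype.val_injective
      q_ne_zero := fun h => hπF0 (congrArg Subtype.val h)
      le₁ := hle1
      le₂ := hle2
      q_mem₁ := (Separate.algebraMap_mem_nonunits_O1_iff A hA π').mpr hπnon
      q_mem₂ := (Separate.algebraMap_mem_nonunits_O2_iff hqM A hA π').mpr hπnon
      unif₁ := fun b hb => hunif1 _ (hinf.le_field b.2) hb
      unif₂ := fun b hb => hunif2 _ (hinf.le_field b.2) hb
      sep₁ := ?_
      sep₂ := ?_
      star := ?_ }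
  · -- `s = h^q - (1/j)^(q²-1) ∈ P₂ ∖ P₁`
    have hs : (hSep M q) ^ q - ((jA M q)⁻¹) ^ (q * q - 1) ∈ Cinf := by
      rw [jA_eq_jBar]
      exact Cinf.sub_mem (Cinf.pow_mem hh q) (Cinf.pow_mem hu _)
    exact ⟨⟨_, hs⟩, hSep_pow_sub_mem_nonunits_O2 A hA hqM,
      hSep_pow_sub_notMem_nonunits_O1 A hA⟩
  · -- `t = h - 1 ∈ P₁ ∖ P₂`
    exact ⟨⟨hSep M q - 1, Cinf.sub_mem hh Cinf.one_mem⟩, hSep_sub_one_mem_nonunits_O1 A hA,
      hSep_sub_one_notMem_nonunits_O2 A hA hqM⟩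
  · -- `(★')` at infinity by patching
    rintro x ⟨b, hb⟩ hx1 hx2
    have hxπ : x * algebraMap Kb (Fb (M * q)) π' ∈ Cinf := by
      have : x * algebraMap Kb (Fb (M * q)) π' = (b : Fb (M * q)) := hb
      rw [this]; exact b.2
    have hjne : (jBar (M * q))⁻¹ ≠ 0 := by
      rw [← jA_eq_jBar (M := M) (q := q)]
      exact inv_ne_zero (CuspSepInt.jA_ne_zero (M := M) (q := q))
    have hRm : IsIntegrallyClosed ↥(modelBaseInf (M * q) W) :=
      isIntegrallyClosed_modelBaseInf (M * q) W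
    have hprimeW : Prime (⟨π', hπW⟩ : ↥W) :=
      prime_uniformizer A K' W hW π' hπK hπ0 hπ1 hval hπW
    obtain ⟨hprime, hunot⟩ := isPrime_span_const (M * q) W
      (transcendental_jBar_inv_sub (M * q) W) hπW hprimeW
    have hmem := star_of_star' (W.map (algebraMap Kb (Fb (M * q))))
      (u := (jBar (M * q))⁻¹) hjne (modelField (M * q) K')
      (by
        rintro _ ⟨a, ha, rfl⟩
        exact const_mem_modelField (M * q) K' (hWK a ha))
      (jBar_inv_mem_modelField (M * q) K')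
      (modelBase (M * q) W) (modelBaseInf (M * q) W)
      (by rw [inv_inv]; rfl) rfl hfin hinf
      (π := algebraMap Kb (Fb (M * q)) π') ⟨π', hπW, rfl⟩ hπF0
      (const_mem_modelBaseInf (M * q) W hπW) (jBar_inv_mem_modelBaseInf (M * q) W)
      hprime hunot
      ((O1 M A hA).toSubring ⊓ (O2 A hA hqM).toSubring)
      (by
        rw [inv_inv]
        exact ⟨jBar_mem_O1 A hA, jBar_mem_O2 A hA hqM⟩)
      (fun y hy hyO => hstar y hy hyO.1 hyO.2) x hxπ ⟨hx1, hx2⟩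
    exact ⟨⟨x, hmem⟩, rfl⟩

/-- **B6.6 at the cusps, (c∞)**: the special fibre of the chart at infinity has exactly the two
components `P₁∞ = Cinf ∩ 𝔪(O1)`, `P₂∞ = Cinf ∩ 𝔪(O2)`, both of multiplicity one. -/
theorem twoComponents_inf (hW : ∀ x, x ∈ W ↔ x ∈ A ∧ x ∈ K')
    (π' : Kb) (hπK : π' ∈ K') (hπ0 : π' ≠ 0) (hπ1 : A.valuation π' < 1)
    (hval : ∀ x ∈ K', x ≠ 0 → ∃ n : ℤ, A.valuation x = A.valuation π' ^ n)
    {Cfin Cinf : Subring (Fb (M * q))}
    (hfin : IsModel (modelBase (M * q) W) (modelField (M * q) K') Cfin)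
    (hinf : IsModel (modelBaseInf (M * q) W) (modelField (M * q) K') Cinf)
    (hunif1 : ∀ x ∈ modelField (M * q) K', x ∈ (O1 M A hA).nonunits →
      x / algebraMap Kb (Fb (M * q)) π' ∈ O1 M A hA)
    (hunif2 : ∀ x ∈ modelField (M * q) K', x ∈ (O2 A hA hqM).nonunits →
      x / algebraMap Kb (Fb (M * q)) π' ∈ O2 A hA hqM)
    (hstar : ∀ x : Fb (M * q), x * algebraMap Kb (Fb (M * q)) π' ∈ Cfin → x ∈ O1 M A hA →
      x ∈ O2 A hA hqM → x ∈ Cfin)
    (hπC : algebraMap Kb (Fb (M * q)) π' ∈ Cinf) :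
    SpecialFibre.TwoComponents (⟨algebraMap Kb (Fb (M * q)) π', hπC⟩ : ↥Cinf)
      (starData_inf A hA hqM hW π' hπK hπ0 hπ1 hval hfin hinf hunif1 hunif2 hstar hπC).P₁
      (starData_inf A hA hqM hW π' hπK hπ0 hπ1 hval hfin hinf hunif1 hunif2 hstar hπC).P₂ :=
  (starData_inf A hA hqM hW π' hπK hπ0 hπ1 hval hfin hinf hunif1 hunif2 hstar hπC).twoComponents

end Main

end Fermat.Agent.BR.Inst.Inf
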