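import Fermat.Agent.BR.Inst.Inf.TwoCompInf
import Fermat.Agent.BR.Inst.Inf.SpecialIsoInfModel
import Fermat.Agent.BR.Inst.StarFKFinal
import Fermat.Agent.BR.Inst.TwoCompGlue
import Fermat.Agent.BR.Inst.TwoCompInstLoc
import Fermat.Agent.BR.Inst.ChartInModel

/-!
# Program B, B6.6 at the cusps, part (c∞), FINAL: the two vertical components at infinity

helper11's `Inf.starData_inf` / `Inf.twoComponents_inf` with every named hypothesis discharged:
`(★')` on the finite chart := `StarFKFinal.star_of_isModel`, `(E1-1)`, `(E1-2)` :=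
`TwoCompGlue.unif1/unif2`, the finite model := `ChartInModel.modelOf`.

Hypotheses left: the frame data `hW hπK hπ0 hπ1 hdvr` and
`hinf : IsModel (Inf.modelBaseInf (M q) W) (modelField (M q) K') Cinf`.

* `pi_mem_modelInf`, `piInf` : `π'` as an element of `Cinf`;
* `starData_inf_of_isModel : StarData piInf O₁ O₂`;
* `P1inf`, `P2inf` (centres of `O₁`, `O₂` on `Cinf`), `mem_P1inf_iff`, `mem_P2inf_iff`
  (`x ∈ P_i∞ ↔ x ∈ 𝔪(O_i)`), `P1inf_eq`, `P2inf_eq` (= helper6's `SpecIsoInf.P1inf/P2inf`);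
* `twoComponents_inf_of_isModel`, `inf_eq_inf`, `height_P1inf`, `height_P2inf`,
  `mem_O1_iff_inf`, `mem_O2_iff_inf` (`Cinf_{P_i∞} = O_i ∩ K'·F_{Mq}`).
-/

set_option autoImplicit false
set_option linter.unusedSectionVars false
set_option linter.style.haveILetI false
set_option synthInstance.maxHeartbeats 400000

noncomputable section

namespace Fermat.Agent.BR.Inst.InfFinal

open ModularCurve Fermat.Agent.X0 Fermat.Agent.Val Fermat.Agent.BR.TwoVal
  Fermat.Agent.Good.Bridge Fermat.Agent.BR.Inst.NormalModel Fermat.Agent.BR.Inst.NormalGen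
  Fermat.Agent.BR.Inst Fermat.Agent.BR.Inst.Inf Fermat.Agent.BR.Inst.LocVal
  Fermat.Agent.BR.KrullNormal

variable {M q : ℕ} [NeZero M] [hq : Fact q.Prime]

variable (A : ValuationSubring Kb) (hA : A.LiesOverPrime q) (hqM : ¬ q ∣ M)
  {K' : Subfield Kb} {W : Subring Kb} (hW : ∀ x, x ∈ W ↔ x ∈ A ∧ x ∈ K')
  {π' : Kb} (hπK : π' ∈ K') (hπ0 : π' ≠ 0) (hπ1 : A.valuation π' < 1)
  (hdvr : ∀ c ∈ K', c ≠ 0 → ∃ n : ℤ, A.valuation c = A.valuation π' ^ n)
  {Cinf : Subring (Fb (M * q))}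
  (hinf : IsModel (modelBaseInf (M * q) W) (modelField (M * q) K') Cinf)

include hW hπK hπ1 hinf in
theorem pi_mem_modelInf : algebraMap Kb (Fb (M * q)) π' ∈ Cinf :=
  hinf.base_le (modelBaseInf_le_modelField (M * q) (fun x hx => ((hW x).mp hx).2))
    (const_mem_modelBaseInf (M * q) W
      ((hW π').mpr ⟨(A.valuation_le_one_iff π').mp hπ1.le, hπK⟩))

/-- `π'` as an element of the model at infinity -/
def piInf : ↥Cinf := ⟨algebraMap Kb (Fb (M * q)) π', pi_mem_modelInf A hW hπK hπ1 hinf⟩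

include hA hqM hπ0 hdvr in
/-- **(c∞), hypothesis-free**: the saturation data of the chart at infinity. -/
theorem starData_inf_of_isModel :
    StarData (piInf A hW hπK hπ1 hinf) (O1 M A hA) (O2 A hA hqM) :=
  starData_inf A hA hqM hW π' hπK hπ0 hπ1 hdvr
    (ChartInModel.isModel_modelOf (modelBase (M * q) W) (modelField (M * q) K')) hinf
    (TwoCompGlue.unif1 A hA K' hπ0 hπ1 hdvr) (TwoCompGlue.unif2 A hA hqM K' hπ0 hπ1 hdvr)
    (StarFKFinal.star_of_isModel A hA hqM hW hπK hπ0 hπ1 hdvr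
      (ChartInModel.isModel_modelOf (modelBase (M * q) W) (modelField (M * q) K')))
    (pi_mem_modelInf A hW hπK hπ1 hinf)

/-- `P₁^∞ = Cinf ∩ 𝔪(w₁)` -/
def P1inf : Ideal ↥Cinf :=
  (starData_inf_of_isModel A hA hqM hW hπK hπ0 hπ1 hdvr hinf).P₁

/-- `P₂^∞ = Cinf ∩ 𝔪(w₂)` -/
def P2inf : Ideal ↥Cinf :=
  (starData_inf_of_isModel A hA hqM hW hπK hπ0 hπ1 hdvr hinf).P₂

instance isPrime_P1inf : (P1inf A hA hqM hW hπK hπ0 hπ1 hdvr hinf).IsPrime :=
  StarData.prime₁ _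

instance isPrime_P2inf : (P2inf A hA hqM hW hπK hπ0 hπ1 hdvr hinf).IsPrime :=
  StarData.prime₂ _

theorem mem_P1inf_iff {x : ↥Cinf} :
    x ∈ P1inf A hA hqM hW hπK hπ0 hπ1 hdvr hinf ↔
      (x : Fb (M * q)) ∈ (O1 M A hA).nonunits := Iff.rfl

theorem mem_P2inf_iff {x : ↥Cinf} :
    x ∈ P2inf A hA hqM hW hπK hπ0 hπ1 hdvr hinf ↔
      (x : Fb (M * q)) ∈ (O2 A hA hqM).nonunits := Iff.rfl

/-- comparison with the kernels of the reduction maps (helper6's `SpecIsoInf.P1inf`) -/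
theorem P1inf_eq (hWA : ∀ a ∈ W, a ∈ A) :
    P1inf A hA hqM hW hπK hπ0 hπ1 hdvr hinf = SpecIsoInf.P1inf A hA hqM hWA hinf := by
  ext x
  rw [mem_P1inf_iff, SpecIsoInf.mem_P1inf]

theorem P2inf_eq (hWA : ∀ a ∈ W, a ∈ A) :
    P2inf A hA hqM hW hπK hπ0 hπ1 hdvr hinf = SpecIsoInf.P2inf A hA hqM hWA hinf := by
  ext x
  rw [mem_P2inf_iff, SpecIsoInf.mem_P2inf]

/-- **(c∞), hypothesis-free**: the special fibre of the chart at infinity has exactly the two
components `P₁^∞`, `P₂^∞`, both of multiplicity one. -/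
theorem twoComponents_inf_of_isModel :
    SpecialFibre.TwoComponents (piInf A hW hπK hπ1 hinf)
      (P1inf A hA hqM hW hπK hπ0 hπ1 hdvr hinf) (P2inf A hA hqM hW hπK hπ0 hπ1 hdvr hinf) :=
  (starData_inf_of_isModel A hA hqM hW hπK hπ0 hπ1 hdvr hinf).twoComponents

theorem inf_eq_inf :
    P1inf A hA hqM hW hπK hπ0 hπ1 hdvr hinf ⊓ P2inf A hA hqM hW hπK hπ0 hπ1 hdvr hinf =
      Ideal.span {piInf A hW hπK hπ1 hinf} :=
  (starData_inf_of_isModel A hA hqM hW hπK hπ0 hπ1 hdvr hinf).inf_eq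

theorem P1inf_ne_P2inf :
    P1inf A hA hqM hW hπK hπ0 hπ1 hdvr hinf ≠ P2inf A hA hqM hW hπK hπ0 hπ1 hdvr hinf :=
  fun h => (starData_inf_of_isModel A hA hqM hW hπK hπ0 hπ1 hdvr hinf).not_P₁_le_P₂ h.le

include hW hπK hπ0 hπ1 hdvr hinf in
theorem isNoetherianRing_modelInf : IsNoetherianRing ↥Cinf :=
  (model_normal_inf_of_inter (M * q) A K' W hW π' hπK hπ0 hπ1 hdvr hinf).1

include hW hπK hπ0 hπ1 hdvr hinf in
theorem isIntegrallyClosed_modelInf : IsIntegrallyClosed ↥Cinf :=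
  (model_normal_inf_of_inter (M * q) A K' W hW π' hπK hπ0 hπ1 hdvr hinf).2.1

theorem height_P1inf : (P1inf A hA hqM hW hπK hπ0 hπ1 hdvr hinf).height = 1 :=
  haveI := isNoetherianRing_modelInf A hW hπK hπ0 hπ1 hdvr hinf
  (starData_inf_of_isModel A hA hqM hW hπK hπ0 hπ1 hdvr hinf).height_P₁

theorem height_P2inf : (P2inf A hA hqM hW hπK hπ0 hπ1 hdvr hinf).height = 1 :=
  haveI := isNoetherianRing_modelInf A hW hπK hπ0 hπ1 hdvr hinf
  (starData_inf_of_isModel A hA hqM hW hπK hπ0 hπ1 hdvr hinf).height_P₂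

/-- a height-one prime of `Cinf` containing `π'` is `P₁^∞` or `P₂^∞` -/
theorem vertical_inf (p : Ideal ↥Cinf) (hp : p.IsPrime) (hht : p.height = 1)
    (hπp : piInf A hW hπK hπ1 hinf ∈ p) :
    p = P1inf A hA hqM hW hπK hπ0 hπ1 hdvr hinf ∨
      p = P2inf A hA hqM hW hπK hπ0 hπ1 hdvr hinf :=
  (starData_inf_of_isModel A hA hqM hW hπK hπ0 hπ1 hdvr hinf).vertical p hp hht hπp

/-- **`Cinf_{P₁^∞} = O₁ ∩ K'·F_{Mq}`**: an element of the function field of the model lies in `O₁`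
iff it has a denominator in `Cinf` outside `P₁^∞`. -/
theorem mem_O1_iff_inf {x : Fb (M * q)} (hx : x ∈ modelField (M * q) K') :
    x ∈ O1 M A hA ↔ ∃ a b : ↥Cinf, b ∉ P1inf A hA hqM hW hπK hπ0 hπ1 hdvr hinf ∧
      x * (b : Fb (M * q)) = (a : Fb (M * q)) := by
  have hn := model_normal_inf_of_inter (M * q) A K' W hW π' hπK hπ0 hπ1 hdvr hinf
  haveI := hn.1
  haveI := hn.2.1
  letI : Algebra ↥Cinf ↥(modelField (M * q) K') := algebraOfLE hinf.le_field
  haveI : IsFractionRing ↥Cinf ↥(modelField (M * q) K') := hn.2.2.1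
  haveI : IsScalarTower ↥Cinf ↥(modelField (M * q) K') (Fb (M * q)) :=
    IsScalarTower.of_algebraMap_eq fun _ => rfl
  have D := starData_inf_of_isModel A hA hqM hW hπK hπ0 hπ1 hdvr hinf
  have D' := D.restrict (F' := ↥(modelField (M * q) K'))
  have hP : D'.P₁ = P1inf A hA hqM hW hπK hπ0 hπ1 hdvr hinf := D.restrict_P₁
  have h1 : x ∈ O1 M A hA ↔
      (⟨x, hx⟩ : ↥(modelField (M * q) K')) ∈
        (O1 M A hA).comap (algebraMap ↥(modelField (M * q) K') (Fb (M * q))) := Iff.rfl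
  rw [h1, D'.mem_O₁_iff, hP]
  constructor
  · rintro ⟨a, b, hb, hab⟩
    exact ⟨a, b, hb, congrArg Subtype.val hab⟩
  · rintro ⟨a, b, hb, hab⟩
    exact ⟨a, b, hb, Subtype.ext hab⟩

/-- **`Cinf_{P₂^∞} = O₂ ∩ K'·F_{Mq}`**. -/
theorem mem_O2_iff_inf {x : Fb (M * q)} (hx : x ∈ modelField (M * q) K') :
    x ∈ O2 A hA hqM ↔ ∃ a b : ↥Cinf, b ∉ P2inf A hA hqM hW hπK hπ0 hπ1 hdvr hinf ∧
      x * (b : Fb (M * q)) = (a : Fb (M * q)) := by
  have hn := model_normal_inf_of_inter (M * q) A K' W hW π' hπK hπ0 hπ1 hdvr hinf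
  haveI := hn.1
  haveI := hn.2.1
  letI : Algebra ↥Cinf ↥(modelField (M * q) K') := algebraOfLE hinf.le_field
  haveI : IsFractionRing ↥Cinf ↥(modelField (M * q) K') := hn.2.2.1
  haveI : IsScalarTower ↥Cinf ↥(modelField (M * q) K') (Fb (M * q)) :=
    IsScalarTower.of_algebraMap_eq fun _ => rfl
  have D := starData_inf_of_isModel A hA hqM hW hπK hπ0 hπ1 hdvr hinf
  have D' := D.restrict (F' := ↥(modelField (M * q) K'))
  have hP : D'.P₂ = P2inf A hA hqM hW hπK hπ0 hπ1 hdvr hinf := D.restrict_P₂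
  have h1 : x ∈ O2 A hA hqM ↔
      (⟨x, hx⟩ : ↥(modelField (M * q) K')) ∈
        (O2 A hA hqM).comap (algebraMap ↥(modelField (M * q) K') (Fb (M * q))) := Iff.rfl
  rw [h1, D'.mem_O₂_iff, hP]
  constructor
  · rintro ⟨a, b, hb, hab⟩
    exact ⟨a, b, hb, congrArg Subtype.val hab⟩
  · rintro ⟨a, b, hb, hab⟩
    exact ⟨a, b, hb, Subtype.ext hab⟩

end Fermat.Agent.BR.Inst.InfFinal
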