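import Fermat.Agent.BR.Inst.LevelsInst
import Fermat.Agent.BR.Inst.LevelsInf
import Fermat.Agent.BR.Inst.Inf.SpecialIsoInfModel
import Fermat.Agent.BR.Inst.Inf.TwoCompInf
import Fermat.Agent.BR.Inst.Inf.TwoCompInfFinal
import Fermat.Agent.BR.Inst.Inf.BetaLift
import Fermat.Agent.BR.Inst.NormalModelInf

/-!
# Program B, node B6.5-INST at infinity: everything known about ONE level, chart `1/j`

Twin of `BR/Inst/LevelsInst.lean` for the chart at infinity.  Same hypotheses
`H : LevelsInst.LevelHyp A hA hqM K' W π'` (unfolded frame `W = A ∩ K'`, `π'` uniformizer, `FullRes`,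
`(★')` on the FINITE chart — unconditional at every level of the tower by
`LevelsInst.levelHyp_tower`), the models are the canonical ones

* `CinfQ M q W K' := modelOf (Inf.modelBaseInf (M q) W) (modelField (M q) K')`  (level `M q`),
* `CinfM M W K'   := modelOf (Inf.modelBaseInf M W) (modelField M K')`          (level `M`),

(`Inf.modelBaseInf` = helper11's `BR/Inst/Inf/NormalInf`, the constant used by helper6's
`SpecialIsoInf*`, helper11's `TwoCompInf` and helper27's `LevelsInf.baseFamily_inf`; it is equal BY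
`rfl` to the twin `NormalModelInf.modelBaseInf`: `modelBaseInf_eq_twin`), and every per-level output
of B6.5 (b∞), (c∞), (d∞) is restated for them with ONE name each (`H.xxx_inf`).

NO named hypothesis is left: helper11's `BetaLift` input (`BetaLiftHyp`: an element `f` of
`K'·F_{Mq}` with `res₂ f = 1` clearing the denominators of `W[1/j_q]` over `W[1/j]`) is discharged
by `betaLiftHyp_fInf` (`f = BetaLift.fInf M q`), so the surjectivity of `res₂`
(`H.red2inf_surjective`, `H.quotP2inf`, `H.isDedekindDomain_quot_P2inf`) is unconditional too.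
-/

set_option autoImplicit false
set_option linter.unusedSectionVars false
set_option linter.style.haveILetI false
set_option synthInstance.maxHeartbeats 400000

noncomputable section

namespace Fermat.Agent.BR.Inst.Inf.LevelsInstInf

open ModularCurve ModularCurve.IgusaScheme AlgebraicCurve Fermat.Agent.X0 Fermat.Agent.Val
  Fermat.Agent.BR.TwoVal Fermat.Agent.BR.TwoValInst
  Fermat.Agent.Good.Bridge Fermat.Agent.BR.Inst.NormalGen Fermat.Agent.BR.Inst.NormalModel
  Fermat.Agent.BR.Inst.ChartInModel Fermat.Agent.BR.Inst.DegenModel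
  Fermat.Agent.BR.Inst.SpecIso Fermat.Agent.BR.Inst.SpecIsoInf
  Fermat.Agent.BR.Inst Fermat.Agent.BR.SpecialFibre

variable (M q : ℕ) [NeZero M] [hq : Fact q.Prime]

/-- the canonical model at infinity of level `M q` over `W = A ∩ K'` -/
def CinfQ (W : Subring Kb) (K' : Subfield Kb) : Subring (Fb (M * q)) :=
  modelOf (Inf.modelBaseInf (M * q) W) (modelField (M * q) K')

/-- the canonical model at infinity of level `M` over `W = A ∩ K'` -/
def CinfM (W : Subring Kb) (K' : Subfield Kb) : Subring (Fb M) :=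
  modelOf (Inf.modelBaseInf M W) (modelField M K')

theorem isModel_CinfQ (W : Subring Kb) (K' : Subfield Kb) :
    IsModel (Inf.modelBaseInf (M * q) W) (modelField (M * q) K') (CinfQ M q W K') :=
  isModel_modelOf _ _

theorem isModel_CinfM (W : Subring Kb) (K' : Subfield Kb) :
    IsModel (Inf.modelBaseInf M W) (modelField M K') (CinfM M W K') :=
  isModel_modelOf _ _

/-- the two twins of `W[1/j]` are the same subring -/
theorem modelBaseInf_eq_twin (N : ℕ) [NeZero N] (W : Subring Kb) :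
    NormalModelInf.modelBaseInf N W = Inf.modelBaseInf N W := rfl

variable {M q}
variable (A : ValuationSubring Kb) (hA : A.LiesOverPrime q) (hqM : ¬ q ∣ M)

/-- **helper11's `BetaLift` input**: an element `f` of `K'·F_{Mq}` with `res₂ f = 1` clearing the
denominators of `W[1/j_q]` over `W[1/j]` (the hypotheses `hfO hf1 hfF hclear` of helper6's
`SpecIsoInf.redTwoInf_model_surjective`). -/
structure BetaLiftHyp (W : Subring Kb) (K' : Subfield Kb) (f : Fb (M * q)) : Prop where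
  hfO : f ∈ O2 A hA hqM
  hf1 : red2F A hA hqM ⟨f, hfO⟩ = 1
  hfF : f ∈ modelField (M * q) K'
  hclear : ∀ x : Fb (M * q), IsIntegral ↥(modelBaseInfQ M q W) x →
    ∃ m : ℕ, IsIntegral ↥(Inf.modelBaseInf (M * q) W) (f ^ m * x)

/-- `W[1/j_q]` in helper11's spelling -/
theorem modelBaseInfQ_eq (W : Subring Kb) :
    modelBaseInfQ M q W =
      Subring.closure ((algebraMap Kb (Fb (M * q))) '' (W : Set Kb) ∪
        {(heckeBetaBar Kb M q (jBarD M 1 (one_dvd M)))⁻¹}) := by
  unfold modelBaseInfQ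
  rw [jBarD_one_eq]

/-- **helper11's `BetaLift`** (`f = fInf = u^(q+1) Φ_q(0, 1/u)`, `u = 1/j`) **discharges
`BetaLiftHyp`** -/
theorem betaLiftHyp_fInf {W : Subring Kb} {K' : Subfield Kb} (hWK : ∀ a ∈ W, a ∈ K') :
    BetaLiftHyp A hA hqM W K' (BetaLift.fInf M q) where
  hfO := BetaLift.fInf_mem_O2 A hA hqM
  hf1 := BetaLift.red2F_fInf A hA hqM
  hfF := Inf.modelBaseInf_le_modelField (M * q) hWK (BetaLift.fInf_mem_modelBaseInf W)
  hclear := fun x hx => by
    rw [modelBaseInfQ_eq] at hx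
    exact BetaLift.exists_pow_mul_isIntegral W hx

end Fermat.Agent.BR.Inst.Inf.LevelsInstInf

namespace Fermat.Agent.BR.Inst.LevelsInst.LevelHyp

open ModularCurve ModularCurve.IgusaScheme AlgebraicCurve Fermat.Agent.X0 Fermat.Agent.Val
  Fermat.Agent.BR.TwoVal Fermat.Agent.BR.TwoValInst
  Fermat.Agent.Good.Bridge Fermat.Agent.BR.Inst.NormalGen Fermat.Agent.BR.Inst.NormalModel
  Fermat.Agent.BR.Inst.ChartInModel Fermat.Agent.BR.Inst.DegenModel
  Fermat.Agent.BR.Inst.SpecIso Fermat.Agent.BR.Inst.SpecIsoInf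
  Fermat.Agent.BR.Inst Fermat.Agent.BR.SpecialFibre Fermat.Agent.BR.Inst.Inf.LevelsInstInf

variable {M q : ℕ} [NeZero M] [hq : Fact q.Prime]
variable {A : ValuationSubring Kb} {hA : A.LiesOverPrime q} {hqM : ¬ q ∣ M}
variable {K' : Subfield Kb} {W : Subring Kb} {π' : Kb}

/-! ### constants -/

theorem const_mem_CinfQ (H : LevelHyp A hA hqM K' W π') {a : Kb} (ha : a ∈ W) :
    algebraMap Kb (Fb (M * q)) a ∈ CinfQ M q W K' :=
  (isModel_CinfQ M q W K').base_le (Inf.modelBaseInf_le_modelField (M * q) H.hWK)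
    (Inf.const_mem_modelBaseInf (M * q) W ha)

theorem const_mem_CinfM (H : LevelHyp A hA hqM K' W π') {a : Kb} (ha : a ∈ W) :
    algebraMap Kb (Fb M) a ∈ CinfM M W K' :=
  (isModel_CinfM M W K').base_le (Inf.modelBaseInf_le_modelField M H.hWK)
    (Inf.const_mem_modelBaseInf M W ha)

theorem jBar_inv_mem_CinfQ (H : LevelHyp A hA hqM K' W π') :
    (jBar (M * q))⁻¹ ∈ CinfQ M q W K' :=
  (isModel_CinfQ M q W K').base_le (Inf.modelBaseInf_le_modelField (M * q) H.hWK)
    (Inf.jBar_inv_mem_modelBaseInf (M * q) W)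

theorem jBar_inv_mem_CinfM (H : LevelHyp A hA hqM K' W π') : (jBar M)⁻¹ ∈ CinfM M W K' :=
  (isModel_CinfM M W K').base_le (Inf.modelBaseInf_le_modelField M H.hWK)
    (Inf.jBar_inv_mem_modelBaseInf M W)

/-- the `ℤ_(q)`-chart at infinity (`RedModular.chartInf`) lies in the model at infinity -/
theorem chartBarInf_le_CinfQ (H : LevelHyp A hA hqM K' W π') :
    chartBar (M * q) q {(jFull (M * q))⁻¹} ≤ CinfQ M q W K' := by
  intro y hy
  obtain ⟨b, hb, rfl⟩ := mem_chartBar_iff.mp hy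
  exact barEmb_mem_model_of_mem_chartAlgInf (M * q) q H.hZW (isModel_CinfQ M q W K') hb

/-- the finite `ℤ_(q)`-chart (`RedModular.chartFin`) lies in the finite model -/
theorem chartBarFin_le_CQ (H : LevelHyp A hA hqM K' W π') :
    chartBar (M * q) q {jFull (M * q)} ≤ CQ M q W K' := by
  intro y hy
  obtain ⟨b, hb, rfl⟩ := mem_chartBar_iff.mp hy
  exact barEmb_mem_model_of_mem_chartAlgFin (M * q) q H.hZW (isModel_CQ M q W K') hb

/-- the uniformizer lies in the model at infinity -/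
theorem pi_mem_CinfQ (H : LevelHyp A hA hqM K' W π') :
    algebraMap Kb (Fb (M * q)) π' ∈ CinfQ M q W K' :=
  H.const_mem_CinfQ H.pi_mem_W

/-- `FullRes` at infinity, residue-map form: every element of the residue field of `A` is the
residue of a constant of the level `M q` model at infinity -/
theorem fullRes_inf (H : LevelHyp A hA hqM K' W π') (c : IsLocalRing.ResidueField A) :
    ∃ a : A, algebraMap Kb (Fb (M * q)) a ∈ CinfQ M q W K' ∧ IsLocalRing.residue A a = c := by
  obtain ⟨a₀, rfl⟩ := IsLocalRing.residue_surjective c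
  obtain ⟨a', ha'W, hsub⟩ := H.full a₀ a₀.2
  refine ⟨⟨a', H.hWA a' ha'W⟩, H.const_mem_CinfQ ha'W, ?_⟩
  rw [eq_comm, ← sub_eq_zero, ← map_sub, IsLocalRing.residue_eq_zero_iff]
  have : ((a₀ - ⟨a', H.hWA a' ha'W⟩ : A) : Kb) ∈ A.nonunits := hsub
  rw [ValuationSubring.mem_nonunits_iff_exists_mem_maximalIdeal] at this
  obtain ⟨ha, hmem⟩ := this
  exact hmem

/-! ### (b∞) the models at infinity are noetherian normal domains -/

theorem isNoetherianRing_inf (H : LevelHyp A hA hqM K' W π') :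
    IsNoetherianRing ↥(CinfQ M q W K') :=
  (Inf.model_normal_inf_of_inter (M * q) A K' W H.hW π' H.hπK H.hπ0 H.hπ1 H.hdvr
    (isModel_CinfQ M q W K')).1

theorem isIntegrallyClosed_inf (H : LevelHyp A hA hqM K' W π') :
    IsIntegrallyClosed ↥(CinfQ M q W K') :=
  (Inf.model_normal_inf_of_inter (M * q) A K' W H.hW π' H.hπK H.hπ0 H.hπ1 H.hdvr
    (isModel_CinfQ M q W K')).2.1

theorem isFractionRing_inf (H : LevelHyp A hA hqM K' W π') :
    @IsFractionRing ↥(CinfQ M q W K') _ ↥(modelField (M * q) K') _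
      (algebraOfLE (isModel_CinfQ M q W K').le_field) :=
  (Inf.model_normal_inf_of_inter (M * q) A K' W H.hW π' H.hπK H.hπ0 H.hπ1 H.hdvr
    (isModel_CinfQ M q W K')).2.2.1

theorem isNoetherianRingM_inf (H : LevelHyp A hA hqM K' W π') :
    IsNoetherianRing ↥(CinfM M W K') :=
  (Inf.model_normal_inf_of_inter M A K' W H.hW π' H.hπK H.hπ0 H.hπ1 H.hdvr
    (isModel_CinfM M W K')).1

theorem isIntegrallyClosedM_inf (H : LevelHyp A hA hqM K' W π') :
    IsIntegrallyClosed ↥(CinfM M W K') :=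
  (Inf.model_normal_inf_of_inter M A K' W H.hW π' H.hπK H.hπ0 H.hπ1 H.hdvr
    (isModel_CinfM M W K')).2.1

theorem isFractionRingM_inf (H : LevelHyp A hA hqM K' W π') :
    @IsFractionRing ↥(CinfM M W K') _ ↥(modelField M K') _
      (algebraOfLE (isModel_CinfM M W K').le_field) :=
  (Inf.model_normal_inf_of_inter M A K' W H.hW π' H.hπK H.hπ0 H.hπ1 H.hdvr
    (isModel_CinfM M W K')).2.2.1

/-- every element of `K'·F_{Mq}` is a quotient of elements of the model at infinity -/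
theorem exists_frac_inf (H : LevelHyp A hA hqM K' W π') {x : Fb (M * q)}
    (hx : x ∈ modelField (M * q) K') :
    ∃ a b : ↥(CinfQ M q W K'), b ≠ 0 ∧ x * (b : Fb (M * q)) = (a : Fb (M * q)) := by
  letI : Algebra ↥(CinfQ M q W K') ↥(modelField (M * q) K') :=
    algebraOfLE (isModel_CinfQ M q W K').le_field
  haveI : IsFractionRing ↥(CinfQ M q W K') ↥(modelField (M * q) K') := H.isFractionRing_inf
  obtain ⟨a, b, hb, hab⟩ := IsFractionRing.div_surjective (A := ↥(CinfQ M q W K'))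
    (⟨x, hx⟩ : ↥(modelField (M * q) K'))
  have hb0 : b ≠ 0 := nonZeroDivisors.ne_zero hb
  refine ⟨a, b, hb0, ?_⟩
  have hbF : algebraMap ↥(CinfQ M q W K') ↥(modelField (M * q) K') b ≠ 0 := by
    intro h
    apply hb0
    exact Subtype.ext (congrArg (fun z : ↥(modelField (M * q) K') => (z : Fb (M * q))) h)
  have h2 := (div_eq_iff hbF).mp hab
  have h3 := congrArg (fun z : ↥(modelField (M * q) K') => (z : Fb (M * q))) h2
  exact h3.symm

/-! ### (c∞) the two components -/

/-- the uniformizer as an element of the model at infinity -/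
def piCinf (H : LevelHyp A hA hqM K' W π') : ↥(CinfQ M q W K') :=
  ⟨algebraMap Kb (Fb (M * q)) π', H.pi_mem_CinfQ⟩

theorem coe_piCinf (H : LevelHyp A hA hqM K' W π') :
    ((H.piCinf : ↥(CinfQ M q W K')) : Fb (M * q)) = algebraMap Kb (Fb (M * q)) π' := rfl

/-- **(c∞)**: the saturation data of the chart at infinity, UNCONDITIONAL (helper11's
`Inf.starData_inf` with its three named inputs discharged: `(E1-1)`, `(E1-2)` = helper13's
`TwoCompGlue.unif1/unif2`, `(★')` on the finite chart = `H.star`). -/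
theorem starData_inf (H : LevelHyp A hA hqM K' W π') :
    StarData H.piCinf (O1 M A hA) (O2 A hA hqM) :=
  Inf.starData_inf A hA hqM H.hW π' H.hπK H.hπ0 H.hπ1 H.hdvr (isModel_CQ M q W K')
    (isModel_CinfQ M q W K') (TwoCompGlue.unif1 A hA K' H.hπ0 H.hπ1 H.hdvr)
    (TwoCompGlue.unif2 A hA hqM K' H.hπ0 H.hπ1 H.hdvr) H.star H.pi_mem_CinfQ

/-- `P₁^∞ = C^∞ ∩ 𝔪(w₁)` -/
def P1inf (H : LevelHyp A hA hqM K' W π') : Ideal ↥(CinfQ M q W K') := H.starData_inf.P₁

/-- `P₂^∞ = C^∞ ∩ 𝔪(w₂)` -/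
def P2inf (H : LevelHyp A hA hqM K' W π') : Ideal ↥(CinfQ M q W K') := H.starData_inf.P₂

instance prime_P1inf (H : LevelHyp A hA hqM K' W π') : H.P1inf.IsPrime := H.starData_inf.prime₁

instance prime_P2inf (H : LevelHyp A hA hqM K' W π') : H.P2inf.IsPrime := H.starData_inf.prime₂

theorem mem_P1inf_iff (H : LevelHyp A hA hqM K' W π') {x : ↥(CinfQ M q W K')} :
    x ∈ H.P1inf ↔ (x : Fb (M * q)) ∈ (O1 M A hA).nonunits := Iff.rfl

theorem mem_P2inf_iff (H : LevelHyp A hA hqM K' W π') {x : ↥(CinfQ M q W K')} :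
    x ∈ H.P2inf ↔ (x : Fb (M * q)) ∈ (O2 A hA hqM).nonunits := Iff.rfl

theorem le_O1_inf (H : LevelHyp A hA hqM K' W π') : ∀ x ∈ CinfQ M q W K', x ∈ O1 M A hA :=
  fun x hx => H.starData_inf.le₁ ⟨x, hx⟩

theorem le_O2_inf (H : LevelHyp A hA hqM K' W π') : ∀ x ∈ CinfQ M q W K', x ∈ O2 A hA hqM :=
  fun x hx => H.starData_inf.le₂ ⟨x, hx⟩

/-- **B6.5(c∞)**: the special fibre of the model at infinity has exactly the two components
`P₁^∞`, `P₂^∞`, of multiplicity one -/
theorem twoComponents_inf (H : LevelHyp A hA hqM K' W π') :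
    TwoComponents H.piCinf H.P1inf H.P2inf :=
  H.starData_inf.twoComponents

theorem inf_eq_inf (H : LevelHyp A hA hqM K' W π') :
    H.P1inf ⊓ H.P2inf = Ideal.span {H.piCinf} :=
  H.starData_inf.inf_eq

theorem P1inf_ne_P2inf (H : LevelHyp A hA hqM K' W π') : H.P1inf ≠ H.P2inf :=
  InfFinal.P1inf_ne_P2inf A hA hqM H.hW H.hπK H.hπ0 H.hπ1 H.hdvr (isModel_CinfQ M q W K')

theorem height_P1inf (H : LevelHyp A hA hqM K' W π') : H.P1inf.height = 1 :=
  InfFinal.height_P1inf A hA hqM H.hW H.hπK H.hπ0 H.hπ1 H.hdvr (isModel_CinfQ M q W K')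

theorem height_P2inf (H : LevelHyp A hA hqM K' W π') : H.P2inf.height = 1 :=
  InfFinal.height_P2inf A hA hqM H.hW H.hπK H.hπ0 H.hπ1 H.hdvr (isModel_CinfQ M q W K')

/-- a height-one prime of `C^∞` containing `π'` is `P₁^∞` or `P₂^∞` -/
theorem vertical_inf (H : LevelHyp A hA hqM K' W π') (p : Ideal ↥(CinfQ M q W K'))
    (hp : p.IsPrime) (hht : p.height = 1) (hπp : H.piCinf ∈ p) :
    p = H.P1inf ∨ p = H.P2inf :=
  H.starData_inf.vertical p hp hht hπp

/-- `C^∞_{P₁^∞} = O₁ ∩ K'·F_{Mq}` -/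
theorem mem_O1_iff_inf (H : LevelHyp A hA hqM K' W π') {x : Fb (M * q)}
    (hx : x ∈ modelField (M * q) K') :
    x ∈ O1 M A hA ↔
      ∃ a b : ↥(CinfQ M q W K'), b ∉ H.P1inf ∧ x * (b : Fb (M * q)) = (a : Fb (M * q)) :=
  InfFinal.mem_O1_iff_inf A hA hqM H.hW H.hπK H.hπ0 H.hπ1 H.hdvr (isModel_CinfQ M q W K') hx

/-- `C^∞_{P₂^∞} = O₂ ∩ K'·F_{Mq}` -/
theorem mem_O2_iff_inf (H : LevelHyp A hA hqM K' W π') {x : Fb (M * q)}
    (hx : x ∈ modelField (M * q) K') :
    x ∈ O2 A hA hqM ↔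
      ∃ a b : ↥(CinfQ M q W K'), b ∉ H.P2inf ∧ x * (b : Fb (M * q)) = (a : Fb (M * q)) :=
  InfFinal.mem_O2_iff_inf A hA hqM H.hW H.hπK H.hπ0 H.hπ1 H.hdvr (isModel_CinfQ M q W K') hx

/-- the centres are helper15's `InfFinal.P1inf` (by `rfl`) -/
theorem P1inf_eq_final (H : LevelHyp A hA hqM K' W π') :
    H.P1inf = InfFinal.P1inf A hA hqM H.hW H.hπK H.hπ0 H.hπ1 H.hdvr (isModel_CinfQ M q W K') :=
  rfl

theorem P2inf_eq_final (H : LevelHyp A hA hqM K' W π') :
    H.P2inf = InfFinal.P2inf A hA hqM H.hW H.hπK H.hπ0 H.hπ1 H.hdvr (isModel_CinfQ M q W K') :=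
  rfl

/-- the separator `h = j_q / j^q` lies in the model at infinity -/
theorem hSep_mem_CinfQ (_H : LevelHyp A hA hqM K' W π') :
    Fermat.Agent.BR.CuspSepVal.hSep M q ∈ CinfQ M q W K' :=
  Inf.hSep_mem_model (isModel_CinfQ M q W K')

/-! ### (d∞) the components are Dedekind, with coordinate ring `C_k^∞` -/

/-- the elements of the model at infinity are integral over `A[1/j]` -/
theorem isIntegral_AJinf (H : LevelHyp A hA hqM K' W π') :
    ∀ x ∈ CinfQ M q W K', IsIntegral ↥(AJinf M q A) x :=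
  modelInf_isIntegral_AJinf A H.hWA (isModel_CinfQ M q W K')

/-- the centre `P₁^∞` is helper6's kernel of `res₁` -/
theorem P1inf_eq (H : LevelHyp A hA hqM K' W π') :
    H.P1inf = SpecIsoInf.P1inf A hA hqM H.hWA (isModel_CinfQ M q W K') :=
  Ideal.ext fun x => (SpecIsoInf.mem_P1inf A hA hqM H.hWA (isModel_CinfQ M q W K') x).symm

/-- the centre `P₂^∞` is helper6's kernel of `res₂` -/
theorem P2inf_eq (H : LevelHyp A hA hqM K' W π') :
    H.P2inf = SpecIsoInf.P2inf A hA hqM H.hWA (isModel_CinfQ M q W K') :=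
  Ideal.ext fun x => (SpecIsoInf.mem_P2inf A hA hqM H.hWA (isModel_CinfQ M q W K') x).symm

/-- `res₁ : C^∞ → C_k^∞` -/
def red1inf (H : LevelHyp A hA hqM K' W π') : ↥(CinfQ M q W K') →+* ↥(CkInf M A) :=
  redOneInf A hA hqM (CinfQ M q W K') H.isIntegral_AJinf

/-- `res₂ : C^∞ → C_k^∞` -/
def red2inf (H : LevelHyp A hA hqM K' W π') : ↥(CinfQ M q W K') →+* ↥(CkInf M A) :=
  redTwoInf A hA hqM (CinfQ M q W K') H.isIntegral_AJinf

theorem coe_red1inf (H : LevelHyp A hA hqM K' W π') (x : ↥(CinfQ M q W K')) :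
    ((H.red1inf x : ↥(CkInf M A)) :
      ↥(modularFunctionFieldFullC (IsLocalRing.ResidueField A) M)) =
      red1F A hA hqM ⟨x, H.le_O1_inf x x.2⟩ := rfl

theorem coe_red2inf (H : LevelHyp A hA hqM K' W π') (x : ↥(CinfQ M q W K')) :
    ((H.red2inf x : ↥(CkInf M A)) :
      ↥(modularFunctionFieldFullC (IsLocalRing.ResidueField A) M)) =
      red2F A hA hqM ⟨x, H.le_O2_inf x x.2⟩ := rfl

theorem coe_coe_red1inf (H : LevelHyp A hA hqM K' W π') (x : ↥(CinfQ M q W K')) :
    (((H.red1inf x : ↥(CkInf M A)) :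
      ↥(modularFunctionFieldFullC (IsLocalRing.ResidueField A) M)) :
        LaurentSeries (IsLocalRing.ResidueField A)) = res1 M A hA ⟨x, H.le_O1_inf x x.2⟩ := rfl

theorem coe_coe_red2inf (H : LevelHyp A hA hqM K' W π') (x : ↥(CinfQ M q W K')) :
    (((H.red2inf x : ↥(CkInf M A)) :
      ↥(modularFunctionFieldFullC (IsLocalRing.ResidueField A) M)) :
        LaurentSeries (IsLocalRing.ResidueField A)) = res2 A hA hqM ⟨x, H.le_O2_inf x x.2⟩ := rfl

theorem red1inf_eq_zero_iff (H : LevelHyp A hA hqM K' W π') (x : ↥(CinfQ M q W K')) :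
    H.red1inf x = 0 ↔ x ∈ H.P1inf :=
  redOneInf_eq_zero_iff A hA hqM _ _ x

theorem red2inf_eq_zero_iff (H : LevelHyp A hA hqM K' W π') (x : ↥(CinfQ M q W K')) :
    H.red2inf x = 0 ↔ x ∈ H.P2inf :=
  redTwoInf_eq_zero_iff A hA hqM _ _ x

theorem ker_red1inf (H : LevelHyp A hA hqM K' W π') : RingHom.ker H.red1inf = H.P1inf :=
  Ideal.ext fun x => by rw [RingHom.mem_ker, H.red1inf_eq_zero_iff]

theorem ker_red2inf (H : LevelHyp A hA hqM K' W π') : RingHom.ker H.red2inf = H.P2inf :=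
  Ideal.ext fun x => by rw [RingHom.mem_ker, H.red2inf_eq_zero_iff]

/-- **`res₁ : C^∞ → C_k^∞` is onto** (unconditional) -/
theorem red1inf_surjective (H : LevelHyp A hA hqM K' W π') : Function.Surjective H.red1inf :=
  redOneInf_model_surjective A hA hqM H.hWA (isModel_CinfQ M q W K') (isModel_CinfM M W K')
    H.hWK H.hZW H.full

/-- `res₂ : C^∞ → C_k^∞` is onto, given a `BetaLift` input -/
theorem red2inf_surjective_of_betaLift (H : LevelHyp A hA hqM K' W π') {f : Fb (M * q)}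
    (hβ : BetaLiftHyp A hA hqM W K' f) : Function.Surjective H.red2inf :=
  redTwoInf_model_surjective A hA hqM H.hWA (isModel_CinfQ M q W K') (isModel_CinfM M W K')
    H.hWK H.hZW H.full hβ.hfO hβ.hf1 hβ.hfF hβ.hclear

/-- **`res₂ : C^∞ → C_k^∞` is onto** (unconditional: helper11's `BetaLift`) -/
theorem red2inf_surjective (H : LevelHyp A hA hqM K' W π') : Function.Surjective H.red2inf :=
  H.red2inf_surjective_of_betaLift (betaLiftHyp_fInf A hA hqM H.hWK)

/-- **B6.5(d∞)**: `C^∞ ⧸ P₁^∞` is a Dedekind domain (unconditional) -/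
theorem isDedekindDomain_quot_P1inf (H : LevelHyp A hA hqM K' W π') :
    IsDedekindDomain (↥(CinfQ M q W K') ⧸ H.P1inf) := by
  rw [H.P1inf_eq]
  exact SpecIsoInf.isDedekindDomain_quot_P1inf A hA hqM H.hWA (isModel_CinfQ M q W K')
    (isModel_CinfM M W K') H.hWK H.hZW H.full

/-- **B6.5(d∞)**: `C^∞ ⧸ P₂^∞` is a Dedekind domain as soon as `res₂` is onto -/
theorem isDedekindDomain_quot_P2inf_of_surjective (H : LevelHyp A hA hqM K' W π')
    (hsurj : Function.Surjective H.red2inf) :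
    IsDedekindDomain (↥(CinfQ M q W K') ⧸ H.P2inf) := by
  rw [H.P2inf_eq]
  exact SpecIsoInf.isDedekindDomain_quot_P2inf A hA hqM H.hWA (isModel_CinfQ M q W K') hsurj

/-- **B6.5(d∞)**: `C^∞ ⧸ P₂^∞` is a Dedekind domain (unconditional) -/
theorem isDedekindDomain_quot_P2inf (H : LevelHyp A hA hqM K' W π') :
    IsDedekindDomain (↥(CinfQ M q W K') ⧸ H.P2inf) :=
  H.isDedekindDomain_quot_P2inf_of_surjective H.red2inf_surjective

/-- `C^∞ ⧸ P₁^∞ ≃ C_k^∞`, the integral closure of `k[1/j̃]` in `F̃_M` -/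
def quotP1inf (H : LevelHyp A hA hqM K' W π') :
    ↥(CinfQ M q W K') ⧸ SpecIsoInf.P1inf A hA hqM H.hWA (isModel_CinfQ M q W K') ≃+*
      ↥(CkInf M A) :=
  SpecIsoInf.quotP1inf A hA hqM H.hWA (isModel_CinfQ M q W K') (isModel_CinfM M W K')
    H.hWK H.hZW H.full

/-- `C^∞ ⧸ P₂^∞ ≃ C_k^∞` -/
def quotP2inf (H : LevelHyp A hA hqM K' W π') :
    ↥(CinfQ M q W K') ⧸ SpecIsoInf.P2inf A hA hqM H.hWA (isModel_CinfQ M q W K') ≃+*
      ↥(CkInf M A) :=
  SpecIsoInf.quotP2inf A hA hqM H.hWA (isModel_CinfQ M q W K') H.red2inf_surjective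

/-- `C_k^∞` is a Dedekind domain -/
theorem isDedekindDomain_CkInf (_H : LevelHyp A hA hqM K' W π') :
    IsDedekindDomain ↥(CkInf M A) :=
  SpecIsoInf.isDedekindDomain_CkInf A hA hqM

/-! ### the degeneracy map `α` at infinity -/

/-- `α : C_M^∞ → C_{Mq}^∞` (`β` does NOT preserve the models at infinity) -/
def alpha_inf (_H : LevelHyp A hA hqM K' W π') : ↥(CinfM M W K') →+* ↥(CinfQ M q W K') :=
  ((heckeAlphaBar Kb M q : Fb M →ₐ[Kb] Fb (M * q)) : Fb M →+* Fb (M * q)).restrict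
    (CinfM M W K') (CinfQ M q W K')
    (fun _ hx => alpha_mem_model_inf (isModel_CinfQ M q W K') (isModel_CinfM M W K') hx)

@[simp] theorem coe_alpha_inf (H : LevelHyp A hA hqM K' W π') (x : ↥(CinfM M W K')) :
    ((H.alpha_inf x : ↥(CinfQ M q W K')) : Fb (M * q)) = heckeAlphaBar Kb M q (x : Fb M) := rfl

end Fermat.Agent.BR.Inst.LevelsInst.LevelHyp

/-! ### the levels of helper27's tower -/

namespace Fermat.Agent.BR.Inst.Inf.LevelsInstInf

open Fermat.Agent.X0 Fermat.Agent.BR.Inst.NormalGen Fermat.Agent.BR.Inst.NormalModel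
  Fermat.Agent.BR.Inst.ChartInModel Fermat.Agent.BR.Inst.Levels

variable {M q : ℕ} [NeZero M] [hq : Fact q.Prime] (A : ValuationSubring Kb)

/-- the level `M q` model at infinity of level `S` is helper27's `CS` for the chart at infinity
(`LevelsInf.baseFamily_inf`) -/
theorem CinfQ_eq_CS (S : Finset Kb) :
    CinfQ M q (WS A q S) (KS q S) =
      CS (M * q) q (fun T => Inf.modelBaseInf (M * q) (WS A q T)) S := rfl

/-- the level `M` model at infinity of level `S` is helper27's `CS` for the chart at infinity -/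
theorem CinfM_eq_CS (S : Finset Kb) :
    CinfM M (WS A q S) (KS q S) = CS M q (fun T => Inf.modelBaseInf M (WS A q T)) S := rfl

end Fermat.Agent.BR.Inst.Inf.LevelsInstInf
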