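import Fermat.Agent.BR.Inst.SpecialIsoDedekind
import Fermat.Agent.Good.NormalInfAll

/-!
# Program B, node B6.5(d∞): the two components of the special fibre, chart at infinity

Twin of `BR/Inst/SpecialIso.lean` for the generator `1/j` instead of `j`.

* `kJinf M A = k[1/j̃]`, `CkInf M A` : its integral closure in `F̃_M`; `isDedekindDomain_CkInf`.
* `AJinf M q A = A[1/j] ⊆ F̄_{Mq}`, `AJMinf M A = A[1/j] ⊆ F̄_M`; integrality
  (`isIntegral_red1F_inf`, `isIntegral_red2F_inf`, `isIntegral_redMF_inf`).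
* For a subring `R` of `F̄_{Mq}` integral over `A[1/j]`: `redOneInf, redTwoInf : R →+* CkInf M A`, with
  kernels the non-units of `O₁`, `O₂`.
* **Lift lemma at infinity** `exists_lift_inf` (from `Good.Bridge.mem_span_inf` and the normality of
  `chartAlgInf M q ⊗ k`), `(S1∞)`, `(S2∞)`, `redOneInf_surjective`, `quotOneInf`, Dedekind quotient.

WARNING (second component): `β` does NOT map the level-`M` model at infinity into the level-`M q`
model at infinity (`1/j_q` is not integral over `ℤ[1/j]`), so `(S2∞)` is only a statement in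
`F̄_{Mq}`; the surjectivity of `redTwoInf` needs an extra (local) argument.
-/

set_option autoImplicit false
set_option linter.unusedSectionVars false
set_option linter.style.haveILetI false

noncomputable section

set_option synthInstance.maxHeartbeats 400000

namespace Fermat.Agent.BR.Inst.SpecIsoInf

open Fermat.Agent.BR.Inst.SpecIso

section Generic

/-- inverses of elements with nonzero residue -/
theorem exists_inv_mem {F T : Type*} [Field F] [Field T] (O : ValuationSubring F) (ψ : O →+* T)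
    (hker : ∀ x : O, (x : F) ∈ O.nonunits → ψ x = 0) {x : F} (hx : x ∈ O)
    (h : ψ ⟨x, hx⟩ ≠ 0) : ∃ hx' : x⁻¹ ∈ O, ψ ⟨x⁻¹, hx'⟩ = (ψ ⟨x, hx⟩)⁻¹ := by
  have hx0 : x ≠ 0 := by
    rintro rfl
    apply h
    have : (⟨0, hx⟩ : O) = 0 := rfl
    rw [this, map_zero]
  have hnu : x ∉ O.nonunits := fun hn => h (hker ⟨x, hx⟩ hn)
  have hv : O.valuation x = 1 := by
    rw [ValuationSubring.mem_nonunits_iff, not_lt] at hnu
    exact le_antisymm ((O.valuation_le_one_iff x).2 hx) hnu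
  have hx' : x⁻¹ ∈ O := by
    rw [← O.valuation_le_one_iff, map_inv₀, hv, inv_one]
  refine ⟨hx', ?_⟩
  have h1 : (⟨x, hx⟩ : O) * ⟨x⁻¹, hx'⟩ = 1 := Subtype.ext (mul_inv_cancel₀ hx0)
  have h2 := congrArg ψ h1
  rw [map_mul, map_one] at h2
  exact eq_inv_of_mul_eq_one_right h2

end Generic

open ModularCurve ModularCurve.IgusaScheme AlgebraicCurve Fermat.Agent.X0 Fermat.Agent.Val
  Fermat.Agent.BR.TwoVal Fermat.Agent.BR.ResGen Fermat.Agent.BR.TwoValInst
  Fermat.Agent.Good.Bridge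

variable {M q : ℕ} [NeZero M] [hq : Fact q.Prime]
variable (A : ValuationSubring Kb) (hA : A.LiesOverPrime q) (hqM : ¬ q ∣ M)

local notation "kA" => IsLocalRing.ResidueField A

/-! ### `1/j` and its residues -/

theorem jFullC_ne_zero : Val.jFullC kA M ≠ 0 := fun h =>
  jqModC_ne_zero_of_nontrivial kA (congrArg Subtype.val h)

include hqM in
theorem exists_jM_inv :
    ∃ h : (jBarD M 1 (one_dvd M))⁻¹ ∈ OM M A hA,
      redMF A hA hqM ⟨(jBarD M 1 (one_dvd M))⁻¹, h⟩ = (Val.jFullC kA M)⁻¹ := by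
  obtain ⟨h, hr⟩ := exists_inv_mem (OM M A hA) (redMF A hA hqM)
    (fun x hx => (redMF_eq_zero_iff A hA hqM x).2 hx) (jM_mem_OM A hA)
    (by rw [redMF_jM]; exact jFullC_ne_zero A)
  exact ⟨h, by rw [hr, redMF_jM]⟩

include hqM in
theorem exists_jOne_inv_one :
    ∃ h : (jOne M q)⁻¹ ∈ O1 M A hA,
      red1F A hA hqM ⟨(jOne M q)⁻¹, h⟩ = (Val.jFullC kA M)⁻¹ := by
  obtain ⟨h, hr⟩ := exists_inv_mem (O1 M A hA) (red1F A hA hqM)
    (fun x hx => (red1F_eq_zero_iff A hA hqM x).2 hx) (jOne_mem_O1 A hA)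
    (by rw [red1F_jOne]; exact jFullC_ne_zero A)
  exact ⟨h, by rw [hr, red1F_jOne]⟩

theorem exists_jOne_inv_two :
    ∃ h : (jOne M q)⁻¹ ∈ O2 A hA hqM,
      red2F A hA hqM ⟨(jOne M q)⁻¹, h⟩ = ((Val.jFullC kA M)⁻¹) ^ q := by
  obtain ⟨h, hr⟩ := exists_inv_mem (O2 A hA hqM) (red2F A hA hqM)
    (fun x hx => (red2F_eq_zero_iff A hA hqM x).2 hx) (jOne_mem_O2 A hA hqM)
    (by rw [red2F_jOne]; exact pow_ne_zero _ (jFullC_ne_zero A))
  exact ⟨h, by rw [hr, red2F_jOne, inv_pow]⟩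

include hqM in
theorem jM_inv_mem_OM : (jBarD M 1 (one_dvd M))⁻¹ ∈ OM M A hA := (exists_jM_inv A hA hqM).1

include hqM in
theorem jOne_inv_mem_O1 : (jOne M q)⁻¹ ∈ O1 M A hA := (exists_jOne_inv_one A hA hqM).1

theorem jOne_inv_mem_O2 : (jOne M q)⁻¹ ∈ O2 A hA hqM := (exists_jOne_inv_two A hA hqM).1

theorem redMF_jM_inv :
    redMF A hA hqM ⟨(jBarD M 1 (one_dvd M))⁻¹, jM_inv_mem_OM A hA hqM⟩ = (Val.jFullC kA M)⁻¹ :=
  (exists_jM_inv A hA hqM).2

theorem red1F_jOne_inv :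
    red1F A hA hqM ⟨(jOne M q)⁻¹, jOne_inv_mem_O1 A hA hqM⟩ = (Val.jFullC kA M)⁻¹ :=
  (exists_jOne_inv_one A hA hqM).2

theorem red2F_jOne_inv :
    red2F A hA hqM ⟨(jOne M q)⁻¹, jOne_inv_mem_O2 A hA hqM⟩ = ((Val.jFullC kA M)⁻¹) ^ q :=
  (exists_jOne_inv_two A hA hqM).2

/-! ### `k[1/j̃]`, its integral closure, and `A[1/j]` -/

variable (M) in
/-- `k[1/j̃] ⊆ F̃_M`. -/
abbrev kJinf : Subalgebra kA ↥(modularFunctionFieldFullC kA M) :=
  Algebra.adjoin kA {(Val.jFullC kA M)⁻¹}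

variable (M) in
/-- `C_k^∞`: the integral closure of `k[1/j̃]` in `F̃_M`. -/
abbrev CkInf : Subalgebra ↥(kJinf M A) ↥(modularFunctionFieldFullC kA M) :=
  integralClosure ↥(kJinf M A) ↥(modularFunctionFieldFullC kA M)

variable (M q) in
/-- `A[1/j] ⊆ F̄_{Mq}`. -/
def AJinf : Subring (Fb (M * q)) :=
  Subring.closure ((algebraMap Kb (Fb (M * q))) '' (A : Set Kb) ∪ {(jOne M q)⁻¹})

variable (M) in
/-- `A[1/j] ⊆ F̄_M`. -/
def AJMinf : Subring (Fb M) :=
  Subring.closure ((algebraMap Kb (Fb M)) '' (A : Set Kb) ∪ {(jBarD M 1 (one_dvd M))⁻¹})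

theorem jInv_mem_kJinf : (Val.jFullC kA M)⁻¹ ∈ kJinf M A :=
  Algebra.subset_adjoin (Set.mem_singleton _)

include hqM in
theorem AJMinf_le_OM : AJMinf M A ≤ (OM M A hA).toSubring := by
  refine Subring.closure_le.2 ?_
  rintro x (⟨a, ha, rfl⟩ | hx)
  · exact algebraMap_mem_OM A hA ha
  · rw [Set.mem_singleton_iff.1 hx]
    exact jM_inv_mem_OM A hA hqM

include hqM in
theorem AJinf_le_O1 : AJinf M q A ≤ (O1 M A hA).toSubring := by
  refine Subring.closure_le.2 ?_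
  rintro x (⟨a, ha, rfl⟩ | hx)
  · exact algebraMap_mem_O1 A hA ha
  · rw [Set.mem_singleton_iff.1 hx]
    exact jOne_inv_mem_O1 A hA hqM

theorem AJinf_le_O2 : AJinf M q A ≤ (O2 A hA hqM).toSubring := by
  refine Subring.closure_le.2 ?_
  rintro x (⟨a, ha, rfl⟩ | hx)
  · exact algebraMap_mem_O2 A hA hqM ha
  · rw [Set.mem_singleton_iff.1 hx]
    exact jOne_inv_mem_O2 A hA hqM

theorem redMF_AJMinf_mem (s : Fb M) (hs : s ∈ AJMinf M A) :
    redMF A hA hqM ⟨s, AJMinf_le_OM A hA hqM hs⟩ ∈ kJinf M A := by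
  refine map_mem_of_mem_closure (OM M A hA) (redMF A hA hqM) _ ?_ (kJinf M A).toSubring ?_ s hs _
  · rintro x (⟨a, ha, rfl⟩ | hx)
    · exact algebraMap_mem_OM A hA ha
    · rw [Set.mem_singleton_iff.1 hx]
      exact jM_inv_mem_OM A hA hqM
  · rintro x (⟨a, ha, rfl⟩ | hx)
    · rw [redMF_algebraMap A hA hqM ha]
      exact Subalgebra.algebraMap_mem _ _
    · have hx' : x = (jBarD M 1 (one_dvd M))⁻¹ := Set.mem_singleton_iff.1 hx
      subst hx'
      rw [redMF_jM_inv]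
      exact jInv_mem_kJinf A

theorem red1F_AJinf_mem (s : Fb (M * q)) (hs : s ∈ AJinf M q A) :
    red1F A hA hqM ⟨s, AJinf_le_O1 A hA hqM hs⟩ ∈ kJinf M A := by
  refine map_mem_of_mem_closure (O1 M A hA) (red1F A hA hqM) _ ?_ (kJinf M A).toSubring ?_ s hs _
  · rintro x (⟨a, ha, rfl⟩ | hx)
    · exact algebraMap_mem_O1 A hA ha
    · rw [Set.mem_singleton_iff.1 hx]
      exact jOne_inv_mem_O1 A hA hqM
  · rintro x (⟨a, ha, rfl⟩ | hx)
    · rw [red1F_algebraMap A hA hqM ha]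
      exact Subalgebra.algebraMap_mem _ _
    · have hx' : x = (jOne M q)⁻¹ := Set.mem_singleton_iff.1 hx
      subst hx'
      rw [red1F_jOne_inv]
      exact jInv_mem_kJinf A

theorem red2F_AJinf_mem (s : Fb (M * q)) (hs : s ∈ AJinf M q A) :
    red2F A hA hqM ⟨s, AJinf_le_O2 A hA hqM hs⟩ ∈ kJinf M A := by
  refine map_mem_of_mem_closure (O2 A hA hqM) (red2F A hA hqM) _ ?_ (kJinf M A).toSubring ?_ s hs _
  · rintro x (⟨a, ha, rfl⟩ | hx)
    · exact algebraMap_mem_O2 A hA hqM ha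
    · rw [Set.mem_singleton_iff.1 hx]
      exact jOne_inv_mem_O2 A hA hqM
  · rintro x (⟨a, ha, rfl⟩ | hx)
    · rw [red2F_algebraMap A hA hqM ha]
      exact Subalgebra.algebraMap_mem _ _
    · have hx' : x = (jOne M q)⁻¹ := Set.mem_singleton_iff.1 hx
      subst hx'
      rw [red2F_jOne_inv]
      exact Subalgebra.pow_mem (kJinf M A) (jInv_mem_kJinf A) q

/-! ### (D1∞) integrality -/

include hqM in
theorem mem_OM_of_isIntegral_inf {x : Fb M} (hx : IsIntegral ↥(AJMinf M A) x) : x ∈ OM M A hA :=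
  mem_valuationSubring_of_isIntegral _ _ (AJMinf_le_OM A hA hqM) hx

include hqM in
theorem mem_O1_of_isIntegral_inf {x : Fb (M * q)} (hx : IsIntegral ↥(AJinf M q A) x) :
    x ∈ O1 M A hA :=
  mem_valuationSubring_of_isIntegral _ _ (AJinf_le_O1 A hA hqM) hx

theorem mem_O2_of_isIntegral_inf {x : Fb (M * q)} (hx : IsIntegral ↥(AJinf M q A) x) :
    x ∈ O2 A hA hqM :=
  mem_valuationSubring_of_isIntegral _ _ (AJinf_le_O2 A hA hqM) hx

/-- **(D1∞)** at level `M`. -/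
theorem isIntegral_redMF_inf {x : Fb M} (hx : IsIntegral ↥(AJMinf M A) x) :
    IsIntegral ↥(kJinf M A) (redMF A hA hqM ⟨x, mem_OM_of_isIntegral_inf A hA hqM hx⟩) :=
  isIntegral_map_of_isIntegral (OM M A hA) (redMF A hA hqM) (AJMinf M A)
    (AJMinf_le_OM A hA hqM) (kJinf M A) (redMF_AJMinf_mem A hA hqM) hx _

/-- **(D1∞)** for `w₁`. -/
theorem isIntegral_red1F_inf {x : Fb (M * q)} (hx : IsIntegral ↥(AJinf M q A) x) :
    IsIntegral ↥(kJinf M A) (red1F A hA hqM ⟨x, mem_O1_of_isIntegral_inf A hA hqM hx⟩) :=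
  isIntegral_map_of_isIntegral (O1 M A hA) (red1F A hA hqM) (AJinf M q A)
    (AJinf_le_O1 A hA hqM) (kJinf M A) (red1F_AJinf_mem A hA hqM) hx _

/-- **(D1∞)** for `w₂`. -/
theorem isIntegral_red2F_inf {x : Fb (M * q)} (hx : IsIntegral ↥(AJinf M q A) x) :
    IsIntegral ↥(kJinf M A) (red2F A hA hqM ⟨x, mem_O2_of_isIntegral_inf A hA hqM hx⟩) :=
  isIntegral_map_of_isIntegral (O2 A hA hqM) (red2F A hA hqM) (AJinf M q A)
    (AJinf_le_O2 A hA hqM) (kJinf M A) (red2F_AJinf_mem A hA hqM) hx _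

/-! ### (D3∞) the lift lemma at infinity -/

section Lift

variable (M q) in
/-- The subring of `F̄_M` generated by a set `W` of constants and the elements of the chart at
infinity `chartAlgInf M q`. -/
def GMinf (W : Set Kb) : Subring (Fb M) :=
  Subring.closure (algebraMap Kb (Fb M) '' W ∪ chartBar M q {(jFull M)⁻¹})

theorem algebraMap_mem_GMinf {W : Set Kb} {a : Kb} (ha : a ∈ W) :
    algebraMap Kb (Fb M) a ∈ GMinf M q W :=
  Subring.subset_closure (Or.inl ⟨a, ha, rfl⟩)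

theorem barEmb_mem_GMinf {W : Set Kb} {b : ↥(modularFunctionFieldFull M)}
    (hb : b ∈ chartAlgInf M q) : barEmb M b ∈ GMinf M q W :=
  Subring.subset_closure (Or.inr ⟨b, hb, rfl⟩)

variable (W : Set Kb) (hW : ∀ a ∈ A, ∃ a' ∈ W, a - a' ∈ A.nonunits)

include hW in
/-- **Lift lemma at infinity.** Every element of `F̃_M` integral over `k[1/j̃]` is the residue of an
element of the subring generated by `W` and the chart at infinity of level `M`. -/
theorem exists_lift_inf (y : ↥(modularFunctionFieldFullC kA M))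
    (hy : IsIntegral ↥(kJinf M A) y) :
    ∃ g ∈ GMinf M q W, ∃ hg : g ∈ OM M A hA, redMF A hA hqM ⟨g, hg⟩ = y := by
  haveI : CharP kA q := Val.charP_residueField_of_liesOverPrime A hA
  haveI : IsAlgClosed kA := Val.residueField_isAlgClosed A
  letI : Algebra ↥(GaloisRep.ratLocalizedAt q) kA := Fermat.Agent.Good.ResAlg.zlAlgebra A hA
  have hnorm := Fermat.Agent.Good.isIntegrallyClosed_tensor_inf_all M q hqM kA
  have hspan := mem_span_inf M hqM A hA hnorm y hy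
  refine Submodule.span_induction
    (p := fun y _ => ∃ g ∈ GMinf M q W, ∃ hg : g ∈ OM M A hA, redMF A hA hqM ⟨g, hg⟩ = y)
    ?_ ?_ ?_ ?_ hspan
  · rintro _ ⟨_, ⟨b, hb, rfl⟩, rfl⟩
    have hO : barEmb M b ∈ (constRedBar M hqM A hA).O :=
      barEmb_mem_O M hqM A hA (Fermat.Agent.Igusa.hSInf M q) ⟨b, hb⟩
    exact ⟨barEmb M b, barEmb_mem_GMinf hb, hO, ((constRedBar M hqM A hA).resF_of_mem hO).symm⟩
  · refine ⟨0, Subring.zero_mem _, (OM M A hA).zero_mem, ?_⟩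
    have : (⟨0, (OM M A hA).zero_mem⟩ : OM M A hA) = 0 := rfl
    rw [this, map_zero]
  · rintro y1 y2 _ _ ⟨g1, hg1, h1, rfl⟩ ⟨g2, hg2, h2, rfl⟩
    refine ⟨g1 + g2, Subring.add_mem _ hg1 hg2, (OM M A hA).add_mem _ _ h1 h2, ?_⟩
    have : (⟨g1 + g2, (OM M A hA).add_mem _ _ h1 h2⟩ : OM M A hA) = ⟨g1, h1⟩ + ⟨g2, h2⟩ := rfl
    rw [this, map_add]
  · rintro c y _ ⟨g, hg, h, rfl⟩
    obtain ⟨a', ha'W, ha'A, rfl⟩ := exists_residue_eq A W hW c
    refine ⟨algebraMap Kb (Fb M) a' * g, Subring.mul_mem _ (algebraMap_mem_GMinf ha'W) hg,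
      (OM M A hA).mul_mem _ _ (algebraMap_mem_OM A hA ha'A) h, ?_⟩
    have : (⟨algebraMap Kb (Fb M) a' * g,
        (OM M A hA).mul_mem _ _ (algebraMap_mem_OM A hA ha'A) h⟩ : OM M A hA) =
        ⟨algebraMap Kb (Fb M) a', algebraMap_mem_OM A hA ha'A⟩ * ⟨g, h⟩ := rfl
    rw [this, map_mul, redMF_algebraMap A hA hqM ha'A, Algebra.smul_def]

include hW hqM in
/-- **(S1∞)** -/
theorem exists_alpha_sub_mem_inf {x : Fb (M * q)} (hx : IsIntegral ↥(AJinf M q A) x) :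
    ∃ g ∈ GMinf M q W, g ∈ OM M A hA ∧
      x - heckeAlphaBar Kb M q g ∈ (O1 M A hA).nonunits := by
  have hxO := mem_O1_of_isIntegral_inf A hA hqM hx
  obtain ⟨g, hgG, hg, hred⟩ :=
    exists_lift_inf A hA hqM W hW _ (isIntegral_red1F_inf A hA hqM hx)
  refine ⟨g, hgG, hg, ?_⟩
  have hα : heckeAlphaBar Kb M q g ∈ O1 M A hA := (alpha_mem_O1_iff A hA g).2 hg
  have h1 : red1F A hA hqM (⟨x, hxO⟩ - ⟨heckeAlphaBar Kb M q g, hα⟩) = 0 := by
    rw [map_sub, red1F_alpha A hA hqM g hg, hred, sub_self]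
  exact (red1F_eq_zero_iff A hA hqM _).1 h1

include hW in
/-- **(S2∞)** (a statement in `F̄_{Mq}`: `β g` need not be integral over `A[1/j]`). -/
theorem exists_beta_sub_mem_inf {x : Fb (M * q)} (hx : IsIntegral ↥(AJinf M q A) x) :
    ∃ g ∈ GMinf M q W, g ∈ OM M A hA ∧
      x - heckeBetaBar Kb M q g ∈ (O2 A hA hqM).nonunits := by
  have hxO := mem_O2_of_isIntegral_inf A hA hqM hx
  obtain ⟨g, hgG, hg, hred⟩ :=
    exists_lift_inf A hA hqM W hW _ (isIntegral_red2F_inf A hA hqM hx)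
  refine ⟨g, hgG, hg, ?_⟩
  have hβ : heckeBetaBar Kb M q g ∈ O2 A hA hqM := (beta_mem_O2_iff A hA hqM g).2 hg
  have h1 : red2F A hA hqM (⟨x, hxO⟩ - ⟨heckeBetaBar Kb M q g, hβ⟩) = 0 := by
    rw [map_sub, red2F_beta A hA hqM g hg, hred, sub_self]
  exact (red2F_eq_zero_iff A hA hqM _).1 h1

end Lift

/-! ### (D2∞) the reduction maps of a model at infinity -/

section Model

variable (R : Subring (Fb (M * q))) (hR : ∀ x ∈ R, IsIntegral ↥(AJinf M q A) x)

include hR hqM in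
theorem modelInf_le_O1 : R ≤ (O1 M A hA).toSubring :=
  fun x hx => mem_O1_of_isIntegral_inf A hA hqM (hR x hx)

include hR in
theorem modelInf_le_O2 : R ≤ (O2 A hA hqM).toSubring :=
  fun x hx => mem_O2_of_isIntegral_inf A hA hqM (hR x hx)

/-- `res₁ : R → C_k^∞`. -/
def redOneInf : ↥R →+* ↥(CkInf M A) :=
  ((red1F A hA hqM).comp (Subring.inclusion (modelInf_le_O1 A hA hqM R hR))).codRestrict
    (CkInf M A) fun x => isIntegral_red1F_inf A hA hqM (hR x x.2)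

/-- `res₂ : R → C_k^∞`. -/
def redTwoInf : ↥R →+* ↥(CkInf M A) :=
  ((red2F A hA hqM).comp (Subring.inclusion (modelInf_le_O2 A hA hqM R hR))).codRestrict
    (CkInf M A) fun x => isIntegral_red2F_inf A hA hqM (hR x x.2)

theorem coe_redOneInf (x : ↥R) :
    ((redOneInf A hA hqM R hR x : ↥(CkInf M A)) : ↥(modularFunctionFieldFullC kA M)) =
      red1F A hA hqM ⟨x, modelInf_le_O1 A hA hqM R hR x.2⟩ := rfl

theorem coe_redTwoInf (x : ↥R) :
    ((redTwoInf A hA hqM R hR x : ↥(CkInf M A)) : ↥(modularFunctionFieldFullC kA M)) =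
      red2F A hA hqM ⟨x, modelInf_le_O2 A hA hqM R hR x.2⟩ := rfl

theorem redOneInf_eq_zero_iff (x : ↥R) :
    redOneInf A hA hqM R hR x = 0 ↔ (x : Fb (M * q)) ∈ (O1 M A hA).nonunits := by
  rw [← red1F_eq_zero_iff A hA hqM ⟨x, modelInf_le_O1 A hA hqM R hR x.2⟩,
    ← coe_redOneInf A hA hqM R hR]
  constructor
  · intro h; rw [h]; rfl
  · intro h; exact Subtype.ext h

theorem redTwoInf_eq_zero_iff (x : ↥R) :
    redTwoInf A hA hqM R hR x = 0 ↔ (x : Fb (M * q)) ∈ (O2 A hA hqM).nonunits := by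
  rw [← red2F_eq_zero_iff A hA hqM ⟨x, modelInf_le_O2 A hA hqM R hR x.2⟩,
    ← coe_redTwoInf A hA hqM R hR]
  constructor
  · intro h; rw [h]; rfl
  · intro h; exact Subtype.ext h

theorem mem_ker_redOneInf (x : ↥R) :
    x ∈ RingHom.ker (redOneInf A hA hqM R hR) ↔ (x : Fb (M * q)) ∈ (O1 M A hA).nonunits := by
  rw [RingHom.mem_ker, redOneInf_eq_zero_iff]

theorem mem_ker_redTwoInf (x : ↥R) :
    x ∈ RingHom.ker (redTwoInf A hA hqM R hR) ↔ (x : Fb (M * q)) ∈ (O2 A hA hqM).nonunits := by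
  rw [RingHom.mem_ker, redTwoInf_eq_zero_iff]

variable (W : Set Kb) (hW : ∀ a ∈ A, ∃ a' ∈ W, a - a' ∈ A.nonunits)

include hW in
/-- **`res₁ : R → C_k^∞` is surjective.** -/
theorem redOneInf_surjective
    (hα : ∀ g ∈ GMinf M q W, g ∈ OM M A hA → heckeAlphaBar Kb M q g ∈ R) :
    Function.Surjective (redOneInf A hA hqM R hR) := by
  intro y
  obtain ⟨g, hgG, hg, hred⟩ :=
    exists_lift_inf A hA hqM W hW (y : ↥(modularFunctionFieldFullC kA M)) y.2
  refine ⟨⟨heckeAlphaBar Kb M q g, hα g hgG hg⟩, Subtype.ext ?_⟩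
  rw [coe_redOneInf, ← hred]
  exact red1F_alpha A hA hqM g hg

/-- `R ⧸ P₁ ≃ C_k^∞`. -/
def quotOneInf (hα : ∀ g ∈ GMinf M q W, g ∈ OM M A hA → heckeAlphaBar Kb M q g ∈ R) :
    ↥R ⧸ RingHom.ker (redOneInf A hA hqM R hR) ≃+* ↥(CkInf M A) :=
  RingHom.quotientKerEquivOfSurjective (redOneInf_surjective A hA hqM R hR W hW hα)

/-- `R ⧸ P₂ ≃ C_k^∞` as soon as `res₂` is onto. -/
def quotTwoInf (hsurj : Function.Surjective (redTwoInf A hA hqM R hR)) :
    ↥R ⧸ RingHom.ker (redTwoInf A hA hqM R hR) ≃+* ↥(CkInf M A) :=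
  RingHom.quotientKerEquivOfSurjective hsurj

end Model

/-! ### (D5∞) Dedekind -/

include hA hqM in
/-- `C_k^∞` is a Dedekind domain. -/
theorem isDedekindDomain_CkInf : IsDedekindDomain ↥(CkInf M A) := by
  have hsep := (Val.isSepVarS_jFullC_residueField M hqM A hA).inv
  haveI := hsep.finite
  haveI := hsep.separable
  exact isDedekindDomain_integralClosure_adjoin hsep.transcendental

section ModelD

variable (R : Subring (Fb (M * q))) (hR : ∀ x ∈ R, IsIntegral ↥(AJinf M q A) x)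
variable (W : Set Kb) (hW : ∀ a ∈ A, ∃ a' ∈ W, a - a' ∈ A.nonunits)

include hW in
theorem isDedekindDomain_quotOneInf
    (hα : ∀ g ∈ GMinf M q W, g ∈ OM M A hA → heckeAlphaBar Kb M q g ∈ R) :
    IsDedekindDomain (↥R ⧸ RingHom.ker (redOneInf A hA hqM R hR)) := by
  haveI := isDedekindDomain_CkInf A hA hqM
  exact isDedekindDomain_of_ringEquiv (S := ↥(CkInf M A)) (quotOneInf A hA hqM R hR W hW hα)

theorem isDedekindDomain_quotTwoInf
    (hsurj : Function.Surjective (redTwoInf A hA hqM R hR)) :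
    IsDedekindDomain (↥R ⧸ RingHom.ker (redTwoInf A hA hqM R hR)) := by
  haveI := isDedekindDomain_CkInf A hA hqM
  exact isDedekindDomain_of_ringEquiv (S := ↥(CkInf M A)) (quotTwoInf A hA hqM R hR hsurj)

end ModelD

end Fermat.Agent.BR.Inst.SpecIsoInf
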