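import Fermat.Agent.BR.S0.RedHyp
import Fermat.Agent.BR.Inst.Inf.CuspSepUnits
import Fermat.Agent.BR.Inst.Inf.TwoCompInf

/-!
# Program B, B6.6 at the cusps: the field `no_cross_inf` of the atlas of `X₀(qM)` at `q`

`RedHyp.GeomInputs.no_cross_inf` (helper29) = `PointDict.AtlasHyp.no_cross_inf` (helper12) for the
chart data `chartDataModular B hB hqM`: a glued pair `(Q₁, Q₂)` of the chart at infinity
`chartInf = ℤ_(q)[1/j]~` does not lie over `1/j = 0`.

* `hSepQ M q : F_{Mq}` : the rational form `j_q / j^q` of the separator, `barEmb_hSepQ`;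
* `hSepQ_mem_chartAlgInf`, `hSep_mem_chartInf` : the separator lies in the chart at infinity
  (`Φ_q(j_q, j) = 0` and `deg_Y coeff_b Φ_q ≤ q (q + 1 - b)`: `PhiZDegree`);
* `res_eq_zero_of_mem_nonunits` : a `ConstRed` kills the non-units of its valuation ring;
* `compW_zero_res_hSep` : `res₀ h = 1`;  `compW_one_res_hSep_pow` : `(res₁ h)^q = (res₁ (1/j))^(q²-1)`;
* **`no_cross_inf_modular`** : the field, unconditionally.
-/

set_option autoImplicit false
set_option linter.unusedSectionVars false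
set_option linter.style.haveILetI false

noncomputable section

namespace Fermat.Agent.BR.Inst.Inf.NoCrossAtlas

open ModularCurve ModularCurve.IgusaScheme AlgebraicCurve IsLocalRing
open Fermat.Agent.X0 Fermat.Agent.Val Fermat.Agent.Red Fermat.Agent.BR.Centre
open Fermat.Agent.BR.TwoVal Fermat.Agent.BR.TwoValInst Fermat.Agent.BR.TwoValQ
open Fermat.Agent.BR.ConstRedTwo Fermat.Agent.BR.Inst Fermat.Agent.Good.Bridge
open Fermat.Agent.BR.S0.RedMap Fermat.Agent.BR.S0.RedModular Fermat.Agent.BR.S0.PointDict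
open Fermat.Agent.BR.S0.RedHyp Fermat.Agent.BR.CuspSepVal Fermat.Agent.BR.Inst.Cusp
open Fermat.Agent.BR.Inst.Inf

/-! ### a constant reduction kills the non-units -/

section General

variable {K F k Ft : Type*} [Field K] [Field F] [Algebra K F] [Field k] [Field Ft] [Algebra k Ft]
  {A : ValuationSubring K} {π : A →+* k}

theorem res_eq_zero_of_mem_nonunits (C : ConstRed (F := F) (Ft := Ft) A π) {x : F}
    (hx : x ∈ C.O) (hn : x ∈ C.O.nonunits) : C.res ⟨x, hx⟩ = 0 := by
  rw [C.res_eq_zero_iff]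
  intro hu
  have h1 : ((⟨x, hx⟩ : C.O) : F) ∈ C.O.nonunits := hn
  rw [ValuationSubring.coe_mem_nonunits_iff] at h1
  exact (IsLocalRing.mem_maximalIdeal _).mp h1 hu

end General

section Modular

set_option synthInstance.maxHeartbeats 400000

variable {M q : ℕ} [NeZero M] [hqF : Fact q.Prime]

/-! ### the separator is a function of the chart at infinity -/

variable (M q) in
/-- `j_q = j(qτ)` as an element of `F_{Mq}` -/
def jQQ : ↥(modularFunctionFieldFull (M * q)) :=
  haveI : NeZero q := ⟨hqF.out.ne_zero⟩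
  ⟨qExpand ℚ (1 * q) jq, jqd_mem_full (M * q) (Nat.mul_dvd_mul_right (one_dvd M) q)⟩

variable (M q) in
/-- the rational form of the separator `h = j_q / j^q` -/
def hSepQ : ↥(modularFunctionFieldFull (M * q)) := jQQ M q * ((jFull (M * q))⁻¹) ^ q

theorem barEmb_jQQ : barEmb (M * q) (jQQ M q) = jB M q := by
  rw [jB_eq_jQ]
  rfl

theorem barEmb_jFull_eq_jA : barEmb (M * q) (jFull (M * q)) = jA M q := by
  rw [barEmb_jFull_eq_jOne, jA_eq_jOne]

theorem barEmb_hSepQ : barEmb (M * q) (hSepQ M q) = hSep M q := by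
  unfold hSepQ hSep
  rw [map_mul, map_pow, map_inv₀, barEmb_jQQ, barEmb_jFull_eq_jA]

/-- `Φ_q(j_q, j) = 0` in `F_{Mq}` -/
theorem phiK_evalEval_jFull_jQQ :
    haveI : NeZero q := ⟨hqF.out.ne_zero⟩
    (Kron.phiK q ↥(modularFunctionFieldFull (M * q))).evalEval (jFull (M * q)) (jQQ M q) = 0 := by
  haveI : NeZero q := ⟨hqF.out.ne_zero⟩
  apply (barEmb (M * q)).injective
  rw [map_zero, Kron.map_phiK_evalEval, barEmb_jQQ, barEmb_jFull_eq_jA]
  exact CuspSepInt.phiK_evalEval_jA_jB hqF.out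

/-- the separator is integral over `ℤ_(q)[1/j]` -/
theorem hSepQ_mem_chartAlgInf :
    hSepQ M q ∈ chartAlg (M * q) q {(jFull (M * q))⁻¹} := by
  rw [mem_chartAlg_iff]
  have h1 : IsIntegral (Algebra.adjoin ℤ {(jFull (M * q))⁻¹}) (hSepQ M q) :=
    PhiZDegree.isIntegral_of_evalEval_eq_zero hqF.out (jFull_ne_zero (M * q))
      phiK_evalEval_jFull_jQQ
  have hle : (Algebra.adjoin ℤ {(jFull (M * q))⁻¹} :
      Subalgebra ℤ ↥(modularFunctionFieldFull (M * q))).toSubring ≤
      (Algebra.adjoin ↥(GaloisRep.ratLocalizedAt q) {(jFull (M * q))⁻¹} :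
        Subalgebra ↥(GaloisRep.ratLocalizedAt q) ↥(modularFunctionFieldFull (M * q))).toSubring := by
    rw [Algebra.adjoin_eq_ring_closure, Subring.closure_le]
    rintro x (⟨n, rfl⟩ | hx)
    · rw [eq_intCast]
      exact intCast_mem _ n
    · exact Algebra.subset_adjoin hx
  exact h1.map_of_comp_eq (Subring.inclusion hle)
    (RingHom.id ↥(modularFunctionFieldFull (M * q))) (by ext z; rfl)

/-- **the separator lies in the chart at infinity** -/
theorem hSep_mem_chartInf : hSep M q ∈ chartInf (M := M) (q := q) := by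
  rw [← barEmb_hSepQ]
  exact barEmb_mem_chartBar hSepQ_mem_chartAlgInf

theorem jx_eq_jA : jx M q = jA M q := barEmb_jFull_eq_jA

/-! ### the residues of the separator -/

variable (B : ValuationSubring Kb) (hB : B.LiesOverPrime q) (hqM : ¬ q ∣ M)

local notation "kB" => IsLocalRing.ResidueField B
local notation "FtM" => modularFunctionFieldFullC (IsLocalRing.ResidueField B) M

/-- on the first component the separator is `1` -/
theorem compW_zero_res_hSep :
    (compW B hB hqM 0).res ⟨hSep M q, chartInf_le B hB hqM 0 hSep_mem_chartInf⟩ = 1 := by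
  have h1 : hSep M q - 1 ∈ (compW B hB hqM 0).O :=
    sub_mem (chartInf_le B hB hqM 0 hSep_mem_chartInf) (one_mem _)
  have h2 := res_eq_zero_of_mem_nonunits (compW B hB hqM 0) h1
    (hSep_sub_one_mem_nonunits_O1 B hB)
  have e : (⟨hSep M q - 1, h1⟩ : (compW B hB hqM 0).O) =
      ⟨hSep M q, chartInf_le B hB hqM 0 hSep_mem_chartInf⟩ - 1 := Subtype.ext rfl
  rw [e, map_sub, map_one, sub_eq_zero] at h2
  exact h2

/-- on the second component `h^q = (1/j)^(q²-1)` -/
theorem compW_one_res_hSep_pow :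
    (compW B hB hqM 1).res ⟨hSep M q, chartInf_le B hB hqM 1 hSep_mem_chartInf⟩ ^ q =
      (compW B hB hqM 1).res ⟨(jx M q)⁻¹, chartInf_le B hB hqM 1
        (jx_inv_mem_chartInf (M := M) (q := q))⟩ ^ (q * q - 1) := by
  have hh := chartInf_le B hB hqM 1 (hSep_mem_chartInf (M := M) (q := q))
  have hx := chartInf_le B hB hqM 1 (jx_inv_mem_chartInf (M := M) (q := q))
  have h1 : (hSep M q) ^ q - ((jx M q)⁻¹) ^ (q * q - 1) ∈ (compW B hB hqM 1).O :=
    sub_mem (pow_mem hh q) (pow_mem hx _)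
  have hn : (hSep M q) ^ q - ((jx M q)⁻¹) ^ (q * q - 1) ∈ (compW B hB hqM 1).O.nonunits := by
    rw [jx_eq_jA]
    exact hSep_pow_sub_mem_nonunits_O2 B hB hqM
  have h2 := res_eq_zero_of_mem_nonunits (compW B hB hqM 1) h1 hn
  have e : (⟨(hSep M q) ^ q - ((jx M q)⁻¹) ^ (q * q - 1), h1⟩ : (compW B hB hqM 1).O) =
      ⟨hSep M q, hh⟩ ^ q - ⟨(jx M q)⁻¹, hx⟩ ^ (q * q - 1) := Subtype.ext rfl
  rw [e, map_sub, map_pow, map_pow, sub_eq_zero] at h2
  exact h2

/-- **no crossing at infinity**: the field `no_cross_inf` of `RedHyp.GeomInputs` /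
`PointDict.AtlasHyp` for the atlas of `X₀(qM)` at `q`. -/
theorem no_cross_inf_modular (Q₁ Q₂ : Place kB FtM)
    (hg : GluedI (chartDataModular B hB hqM) Q₁ Q₂) :
    ¬ IsValueAt Q₁ ((compW B hB hqM 0).res
      ⟨(jx M q)⁻¹, chartInf_le B hB hqM 0 (jx_inv_mem_chartInf (M := M) (q := q))⟩) 0 := by
  intro h0
  -- `1/j` vanishes at `Q₂` too
  obtain ⟨c, hc1, hc2⟩ := hg (jx M q)⁻¹ (jx_inv_mem_chartInf (M := M) (q := q))
  have hc : c = 0 := hc1.unique h0
  subst hc
  -- the separator takes the value `1` at `Q₁`, hence at `Q₂`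
  obtain ⟨d, hd1, hd2⟩ := hg (hSep M q) (hSep_mem_chartInf (M := M) (q := q))
  have hd1' : IsValueAt Q₁ ((compW B hB hqM 0).res
      ⟨hSep M q, chartInf_le B hB hqM 0 hSep_mem_chartInf⟩) d := hd1
  rw [compW_zero_res_hSep] at hd1'
  have hd : d = 1 := hd1'.unique (isValueAt_one Q₁)
  subst hd
  -- but `h^q = (1/j)^(q²-1)` on the second component
  have hd2' : IsValueAt Q₂ ((compW B hB hqM 1).res
      ⟨hSep M q, chartInf_le B hB hqM 1 hSep_mem_chartInf⟩ ^ q) (1 ^ q) := IsValueAt.pow hd2 q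
  rw [compW_one_res_hSep_pow] at hd2'
  have hc2' : IsValueAt Q₂ ((compW B hB hqM 1).res
      ⟨(jx M q)⁻¹, chartInf_le B hB hqM 1 (jx_inv_mem_chartInf (M := M) (q := q))⟩ ^ (q * q - 1))
      (0 ^ (q * q - 1)) := IsValueAt.pow hc2 _
  have := hd2'.unique hc2'
  rw [one_pow, zero_pow (exponent_pos (q := q)).ne'] at this
  exact one_ne_zero this

/-- The geometric inputs of the atlas from the four remaining ones. -/
theorem geomInputs_of
    (sep_f : ∀ i, Separates (k := kB) (chartFin (M := M) (q := q)) (compW B hB hqM i).O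
      (compW B hB hqM i).res (chartFin_le B hB hqM i))
    (sep_i : ∀ i, Separates (k := kB) (chartInf (M := M) (q := q)) (compW B hB hqM i).O
      (compW B hB hqM i).res (chartInf_le B hB hqM i))
    (total_f : ∀ P : Place Kb (Fb (M * q)), IntegralAt B (chartFin (M := M) (q := q)) P →
      ∃ (i : Fin 2) (Q : Place kB FtM), IsRedOf B (IsLocalRing.residue B) chartFin
        (compW B hB hqM i).O (compW B hB hqM i).res (chartFin_le B hB hqM i) P Q)
    (total_i : ∀ P : Place Kb (Fb (M * q)), ¬ IntegralAt B (chartFin (M := M) (q := q)) P →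
      ∃ (i : Fin 2) (Q : Place kB FtM), IsRedOf B (IsLocalRing.residue B) chartInf
        (compW B hB hqM i).O (compW B hB hqM i).res (chartInf_le B hB hqM i) P Q) :
    GeomInputs B hB hqM where
  sep_f := sep_f
  sep_i := sep_i
  total_f := total_f
  total_i := total_i
  no_cross_inf := no_cross_inf_modular B hB hqM

end Modular

end Fermat.Agent.BR.Inst.Inf.NoCrossAtlas
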