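import Fermat.Agent.BR.Inst.Inf.BetaLift
import Fermat.Agent.BR.Inst.Inf.SpecialIsoInfModel

/-!
# Program B, B6.5 (d∞), second component: `res₂ : C^∞ → C_k^∞` is onto (final form)

Discharge of the named inputs `(hfO, hf1, hfF, hclear)` of helper6's
`SpecIsoInf.redTwoInf_model_surjective` with `f := BetaLift.fInf M q`:

* `fInf_mem_modelField`, `hclear_fInf` (the clearing property in the shape `modelBaseInfQ`);
* **`redTwoInf_model_surjective_final`** : `res₂` is onto `CkInf M A` on every model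
  `C = IsModel (modelBaseInf (M q) W) (modelField (M q) K')`;
* `quotP2infFinal : C ⧸ P2inf ≃+* CkInf M A`, `isDedekindDomain_quot_P2inf_final`.
-/

set_option autoImplicit false
set_option linter.unusedSectionVars false
set_option linter.style.haveILetI false

noncomputable section

set_option synthInstance.maxHeartbeats 400000

namespace Fermat.Agent.BR.Inst.Inf.BetaLift

open ModularCurve ModularCurve.IgusaScheme AlgebraicCurve Fermat.Agent.X0 Fermat.Agent.Val
  Fermat.Agent.BR.TwoVal Fermat.Agent.BR.TwoValInst Fermat.Agent.BR.Inst.SpecIso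
  Fermat.Agent.BR.Inst.SpecIsoInf Fermat.Agent.BR.Inst.NormalGen Fermat.Agent.BR.Inst
  Fermat.Agent.BR.Inst.Inf Fermat.Agent.BR.Inst.NormalModel

variable {M q : ℕ} [NeZero M] [hq : Fact q.Prime]
variable (A : ValuationSubring Kb) (hA : A.LiesOverPrime q) (hqM : ¬ q ∣ M)

/-- `fInf` lies in `K'·F_{Mq}` for every `K'` -/
theorem fInf_mem_modelField (K' : Subfield Kb) : fInf M q ∈ modelField (M * q) K' := by
  refine fInf_mem_of_mem (modelField (M * q) K').toSubring ?_
  rw [jOne_eq_jBar]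
  exact jBar_inv_mem_modelField (M * q) K'

/-- the clearing property in helper6's shape (`modelBaseInfQ`) -/
theorem hclear_fInf (W : Subring Kb) (x : Fb (M * q))
    (hx : IsIntegral ↥(modelBaseInfQ M q W) x) :
    ∃ m : ℕ, IsIntegral ↥(modelBaseInf (M * q) W) (fInf M q ^ m * x) := by
  apply exists_pow_mul_isIntegral W
  have e : jBarD M 1 (one_dvd M) = jBar M := jBarD_one_eq M
  rw [e]
  exact hx

variable {W : Subring Kb} {K' : Subfield Kb} (hWA : ∀ a ∈ W, a ∈ A)
variable {C : Subring (Fb (M * q))} {CM : Subring (Fb M)}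
  (hC : IsModel (modelBaseInf (M * q) W) (modelField (M * q) K') C)
  (hCM : IsModel (modelBaseInf M W) (modelField M K') CM)
variable (hWK : ∀ a ∈ W, a ∈ K')
  (hZW : ∀ r : ↥(GaloisRep.ratLocalizedAt q),
    algebraMap ℚ Kb ((r : ↥(GaloisRep.ratLocalizedAt q)) : ℚ) ∈ W)
variable (hW : ∀ a ∈ A, ∃ a' ∈ (W : Set Kb), a - a' ∈ A.nonunits)

include hCM hWK hZW hW in
/-- **`res₂ : C^∞ → C_k^∞` is onto** -/
theorem redTwoInf_model_surjective_final :
    Function.Surjective (redTwoInf A hA hqM C (modelInf_isIntegral_AJinf A hWA hC)) :=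
  redTwoInf_model_surjective A hA hqM hWA hC hCM hWK hZW hW (fInf_mem_O2 A hA hqM)
    (red2F_fInf A hA hqM) (fInf_mem_modelField K') (hclear_fInf W)

/-- **`C^∞ ⧸ P₂^∞ ≃ C_k^∞`** -/
def quotP2infFinal : ↥C ⧸ P2inf A hA hqM hWA hC ≃+* ↥(CkInf M A) :=
  quotP2inf A hA hqM hWA hC
    (redTwoInf_model_surjective_final A hA hqM hWA hC hCM hWK hZW hW)

include hCM hWK hZW hW in
/-- **`C^∞ ⧸ P₂^∞` is a Dedekind domain** -/
theorem isDedekindDomain_quot_P2inf_final :
    IsDedekindDomain (↥C ⧸ P2inf A hA hqM hWA hC) :=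
  isDedekindDomain_quot_P2inf A hA hqM hWA hC
    (redTwoInf_model_surjective_final A hA hqM hWA hC hCM hWK hZW hW)

end Fermat.Agent.BR.Inst.Inf.BetaLift
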