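import Fermat.Agent.BR.Inst.Inf.SpecialIsoInfModel
import Fermat.Agent.BR.Inst.Inf.BetaLift

/-!
# Program B, node B6.5(d∞), part 3: the second component at infinity, unconditionally

`β` does not map the level `M` model at infinity into the level `M q` one, but `fInf^m · β g` does
(`BR/Inst/Inf/BetaLift`, `fInf = u^(q+1) Φ_q(0, 1/u)`, `u = 1/j`, `res₂ fInf = 1`).  Hence, for the
`W[1/j]`-models `C` (level `M q`) and `CM` (level `M`):

* `redTwoInf_model_surjective'` : `res₂ : C → C_k^∞` is onto;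
* `quotP2inf'` : `C ⧸ P₂^∞ ≃+* C_k^∞`; `isDedekindDomain_quot_P2inf'`.
-/

set_option autoImplicit false
set_option linter.unusedSectionVars false
set_option linter.style.haveILetI false

noncomputable section

set_option synthInstance.maxHeartbeats 400000

namespace Fermat.Agent.BR.Inst.SpecIsoInf

open ModularCurve ModularCurve.IgusaScheme AlgebraicCurve Fermat.Agent.X0 Fermat.Agent.Val
  Fermat.Agent.BR.TwoVal Fermat.Agent.BR.ResGen Fermat.Agent.BR.TwoValInst
  Fermat.Agent.Good.Bridge Fermat.Agent.BR.Inst.NormalGen Fermat.Agent.BR.Inst.NormalModel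
  Fermat.Agent.BR.Inst.ChartInModel Fermat.Agent.BR.Inst.DegenModel Fermat.Agent.BR.Inst.SpecIso
  Fermat.Agent.BR.Inst Fermat.Agent.BR.Inst.Inf.BetaLift

variable {M q : ℕ} [NeZero M] [hq : Fact q.Prime]
variable (A : ValuationSubring Kb) (hA : A.LiesOverPrime q) (hqM : ¬ q ∣ M)

local notation "kA" => IsLocalRing.ResidueField A

/-- **the `β`-lift at infinity** in the shape of `redTwoInf_model_surjective`. -/
theorem exists_pow_mul_isIntegral_Q (W : Subring Kb) {x : Fb (M * q)}
    (hx : IsIntegral ↥(modelBaseInfQ M q W) x) :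
    ∃ m : ℕ, IsIntegral ↥(Inf.modelBaseInf (M * q) W) (Inf.BetaLift.fInf M q ^ m * x) := by
  refine exists_pow_mul_isIntegral W ?_
  have e : modelBaseInfQ M q W =
      Subring.closure ((algebraMap Kb (Fb (M * q))) '' (W : Set Kb) ∪
        {(heckeBetaBar Kb M q (jBarD M 1 (one_dvd M)))⁻¹}) := by
    rw [modelBaseInfQ, jBarD_one_eq]
  rw [← e]
  exact hx

variable {W : Subring Kb} {K' : Subfield Kb} (hWA : ∀ a ∈ W, a ∈ A)
variable {C : Subring (Fb (M * q))} {CM : Subring (Fb M)}
  (hC : IsModel (Inf.modelBaseInf (M * q) W) (modelField (M * q) K') C)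
  (hCM : IsModel (Inf.modelBaseInf M W) (modelField M K') CM)
variable (hWK : ∀ a ∈ W, a ∈ K')
  (hZW : ∀ r : ↥(GaloisRep.ratLocalizedAt q), algebraMap ℚ Kb ((r : ↥(GaloisRep.ratLocalizedAt q)) : ℚ) ∈ W)
variable (hW : ∀ a ∈ A, ∃ a' ∈ (W : Set Kb), a - a' ∈ A.nonunits)

include hWK in
theorem fInf_mem_modelField : Inf.BetaLift.fInf M q ∈ modelField (M * q) K' :=
  Inf.modelBaseInf_le_modelField (M * q) hWK (fInf_mem_modelBaseInf W)

include hC hWK in
theorem fInf_mem_modelInf : Inf.BetaLift.fInf M q ∈ C :=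
  hC.base_le (Inf.modelBaseInf_le_modelField (M * q) hWK) (fInf_mem_modelBaseInf W)

include hC hCM hWK hZW hW in
/-- **`res₂ : C → C_k^∞` is onto** for the models at infinity. -/
theorem redTwoInf_model_surjective' :
    Function.Surjective (redTwoInf A hA hqM C (modelInf_isIntegral_AJinf A hWA hC)) :=
  redTwoInf_model_surjective A hA hqM hWA hC hCM hWK hZW hW (fInf_mem_O2 A hA hqM)
    (red2F_fInf A hA hqM) (fInf_mem_modelField hWK)
    (fun _ hx => exists_pow_mul_isIntegral_Q W hx)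

/-- **`C ⧸ P₂^∞ ≃ C_k^∞`**. -/
def quotP2inf' : ↥C ⧸ P2inf A hA hqM hWA hC ≃+* ↥(CkInf M A) :=
  quotP2inf A hA hqM hWA hC (redTwoInf_model_surjective' A hA hqM hWA hC hCM hWK hZW hW)

include hCM hWK hZW hW in
/-- **`C ⧸ P₂^∞` is a Dedekind domain.** -/
theorem isDedekindDomain_quot_P2inf' : IsDedekindDomain (↥C ⧸ P2inf A hA hqM hWA hC) :=
  isDedekindDomain_quot_P2inf A hA hqM hWA hC
    (redTwoInf_model_surjective' A hA hqM hWA hC hCM hWK hZW hW)

/-- the residue of `fInf` on the first component, as an element of the model -/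
theorem redOneInf_fInf :
    redOneInf A hA hqM C (modelInf_isIntegral_AJinf A hWA hC)
      ⟨Inf.BetaLift.fInf M q, fInf_mem_modelInf hC hWK⟩ = 1 :=
  Subtype.ext (red1F_fInf A hA hqM)

/-- the residue of `fInf` on the second component, as an element of the model -/
theorem redTwoInf_fInf :
    redTwoInf A hA hqM C (modelInf_isIntegral_AJinf A hWA hC)
      ⟨Inf.BetaLift.fInf M q, fInf_mem_modelInf hC hWK⟩ = 1 :=
  Subtype.ext (red2F_fInf A hA hqM)

end Fermat.Agent.BR.Inst.SpecIsoInf
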